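import Fermat.Agent.RowS55.Duality
import Fermat.Agent.GalCoh.LongExact

/-!
# Adjoint maps, and the dimension identity of a short exact sequence with its dual
-/

noncomputable section

namespace Fermat.Agent.RowS55

open Fermat.Agent.GalCoh Module
open Representation (IntertwiningMap)

variable {p : ℕ} [Fact p.Prime] {G : Type} [Group G] {L : Levels G}

variable {τ : Representation (ZMod p) G (ZMod p)} {inv : H2 L τ →ₗ[ZMod p] ZMod p}
  {V V' W W' : Type} [AddCommGroup V] [Module (ZMod p) V] [AddCommGroup V'] [Module (ZMod p) V']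
  [AddCommGroup W] [Module (ZMod p) W] [AddCommGroup W'] [Module (ZMod p) W']
  {ρ : Representation (ZMod p) G V} {σ : Representation (ZMod p) G W}
  {ρ' : Representation (ZMod p) G V'} {σ' : Representation (ZMod p) G W'}

/-- Adjoint maps are adjoint on classes. -/
theorem cupInv_adjoint (P : RepPairing ρ σ τ) (P' : RepPairing ρ' σ' τ)
    (j : IntertwiningMap ρ ρ') (j' : IntertwiningMap σ' σ)
    (he : ∀ a b, P'.e (j a) b = P.e a (j' b)) (hσ : IsCtsRep L σ) (hσ' : IsCtsRep L σ')
    (x : H1 L ρ) (y : H1 L σ') :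
    cupInv inv P' hσ' ((Mor.ofMap L j).map₁ x) y = cupInv inv P hσ x ((Mor.ofMap L j').map₁ y) := by
  obtain ⟨x, rfl⟩ := H1mk_surjective x
  obtain ⟨y, rfl⟩ := H1mk_surjective y
  rw [Mor.map₁_mk, Mor.map₁_mk, cupInv_mk, cupInv_mk]
  refine congrArg (fun c => inv (H2mk L τ c)) (Subtype.ext (funext fun z => ?_))
  obtain ⟨g, g'⟩ := z
  show P'.e (j ((x : G → V) g)) (σ' g ((y : G → W') g')) =
    P.e ((x : G → V) g) (σ g (j' ((y : G → W') g')))
  rw [he, j'.isIntertwining _ _ g]

/-- The orthogonal of the image of `j` is the kernel of its adjoint. -/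
theorem orth_range_iff (P : RepPairing ρ σ τ) (P' : RepPairing ρ' σ' τ)
    (j : IntertwiningMap ρ ρ') (j' : IntertwiningMap σ' σ)
    (he : ∀ a b, P'.e (j a) b = P.e a (j' b)) (hσ : IsCtsRep L σ) (hσ' : IsCtsRep L σ')
    (hr : Function.Injective (cupInv inv P hσ).flip) (y : H1 L σ') :
    (∀ x ∈ LinearMap.range (Mor.ofMap L j).map₁, cupInv inv P' hσ' x y = 0) ↔
      (Mor.ofMap L j').map₁ y = 0 := by
  constructor
  · intro h
    refine hr ((LinearMap.ext fun x => ?_).trans (map_zero _).symm)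
    rw [LinearMap.zero_apply, LinearMap.flip_apply, ← cupInv_adjoint P P' j j' he hσ hσ']
    exact h _ ⟨x, rfl⟩
  · rintro h _ ⟨x, rfl⟩
    rw [cupInv_adjoint P P' j j' he hσ hσ', h, map_zero]

/-- The right orthogonal of a subspace for a perfect pairing. -/
def rightOrth {A B : Type} [AddCommGroup A] [Module (ZMod p) A] [AddCommGroup B] [Module (ZMod p) B]
    (e : A →ₗ[ZMod p] B →ₗ[ZMod p] ZMod p) (X : Submodule (ZMod p) A) : Submodule (ZMod p) B :=
  X.dualAnnihilator.comap e.flip

theorem mem_rightOrth {A B : Type} [AddCommGroup A] [Module (ZMod p) A] [AddCommGroup B]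
    [Module (ZMod p) B] {e : A →ₗ[ZMod p] B →ₗ[ZMod p] ZMod p} {X : Submodule (ZMod p) A} {b : B} :
    b ∈ rightOrth e X ↔ ∀ a ∈ X, e a b = 0 := by
  simp [rightOrth, Submodule.mem_dualAnnihilator]

theorem finrank_add_rightOrth {A B : Type} [AddCommGroup A] [Module (ZMod p) A]
    [FiniteDimensional (ZMod p) A] [AddCommGroup B] [Module (ZMod p) B]
    [FiniteDimensional (ZMod p) B] (e : A →ₗ[ZMod p] B →ₗ[ZMod p] ZMod p)
    (hl : Function.Injective e) (hr : Function.Injective e.flip) (X : Submodule (ZMod p) A) :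
    finrank (ZMod p) X + finrank (ZMod p) (rightOrth e X) = finrank (ZMod p) A ∧
      ∀ a, (∀ b ∈ rightOrth e X, e a b = 0) → a ∈ X := by
  have h1 := LinearMap.finrank_le_finrank_of_injective hl
  have h2 := LinearMap.finrank_le_finrank_of_injective hr
  rw [Subspace.dual_finrank_eq] at h1 h2
  have e1 : finrank (ZMod p) A = finrank (ZMod p) B := le_antisymm h1 h2
  let E : B ≃ₗ[ZMod p] Dual (ZMod p) A := LinearEquiv.ofBijective e.flip
    ⟨hr, (LinearMap.injective_iff_surjective_of_finrank_eq_finrank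
      (e1.symm.trans Subspace.dual_finrank_eq.symm)).mp hr⟩
  have h3 := Subspace.finrank_add_finrank_dualAnnihilator_eq (K := ZMod p) X
  have h4 : finrank (ZMod p) (rightOrth e X) = finrank (ZMod p) X.dualAnnihilator := by
    have := LinearEquiv.finrank_map_eq E.symm X.dualAnnihilator
    rwa [Submodule.map_equiv_eq_comap_symm] at this
  refine ⟨by rw [h4]; exact h3, fun a ha => ?_⟩
  by_contra hX
  obtain ⟨f, hf1, hf2⟩ := Submodule.exists_dual_map_eq_bot_of_notMem hX inferInstance
  refine hf1 ?_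
  have hmem : E.symm f ∈ rightOrth e X := mem_rightOrth.mpr fun a' ha' => by
    rw [show e a' (E.symm f) = E (E.symm f) a' from rfl, E.apply_symm_apply]
    exact LinearMap.mem_ker.mp (LinearMap.le_ker_iff_map.mpr hf2 ha')
  have := ha _ hmem
  rwa [show e a (E.symm f) = E (E.symm f) a from rfl, E.apply_symm_apply] at this

variable {A B C A' B' C' : Type} [AddCommGroup A] [Module (ZMod p) A] [AddCommGroup B]
  [Module (ZMod p) B] [AddCommGroup C] [Module (ZMod p) C] [AddCommGroup A'] [Module (ZMod p) A']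
  [AddCommGroup B'] [Module (ZMod p) B'] [AddCommGroup C'] [Module (ZMod p) C']
  {α : Representation (ZMod p) G A} {β : Representation (ZMod p) G B}
  {γ : Representation (ZMod p) G C} {α' : Representation (ZMod p) G A'}
  {β' : Representation (ZMod p) G B'} {γ' : Representation (ZMod p) G C'}

/-- **The dimension identity.** -/
theorem finrank_identity (Q : Ses α β γ) (Q' : Ses γ' β' α') (hβ : IsCtsRep L β)
    (hβ' : IsCtsRep L β') (hγ' : IsCtsRep L γ') (Pb : RepPairing β β' τ) (Pc : RepPairing γ γ' τ)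
    (he : ∀ b c', Pc.e (Q.j b) c' = Pb.e b (Q'.i c'))
    [FiniteDimensional (ZMod p) A] [FiniteDimensional (ZMod p) B] [FiniteDimensional (ZMod p) C]
    [FiniteDimensional (ZMod p) A'] [FiniteDimensional (ZMod p) B'] [FiniteDimensional (ZMod p) C']
    [FiniteDimensional (ZMod p) (H1 L α)] [FiniteDimensional (ZMod p) (H1 L β)]
    [FiniteDimensional (ZMod p) (H1 L γ)] [FiniteDimensional (ZMod p) (H1 L γ')]
    (hb : Function.Injective (cupInv inv Pb hβ').flip)
    (hcl : Function.Injective (cupInv inv Pc hγ'))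
    (hcr : Function.Injective (cupInv inv Pc hγ').flip) :
    finrank (ZMod p) (H1 L α) + finrank (ZMod p) (H1 L γ) + finrank (ZMod p) (H0 β) +
        finrank (ZMod p) (H0 β') =
      finrank (ZMod p) (H1 L β) + finrank (ZMod p) (H0 α) + finrank (ZMod p) (H0 γ) +
        finrank (ZMod p) (H0 α') + finrank (ZMod p) (H0 γ') := by
  have horth : rightOrth (cupInv inv Pc hγ') (LinearMap.range (Q.mj L).map₁) =
      LinearMap.ker (Q'.mi L).map₁ := by
    ext y
    rw [mem_rightOrth, LinearMap.mem_ker]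
    exact orth_range_iff Pb Pc Q.j Q'.i he hβ' hγ' hb y
  obtain ⟨hdim, -⟩ := finrank_add_rightOrth _ hcl hcr (LinearMap.range (Q.mj L).map₁)
  rw [horth, Q'.ker_map₁_i hβ'] at hdim
  have e0 := LinearMap.finrank_range_add_finrank_ker (Q.mi L).map₀
  have e1 := LinearMap.finrank_range_add_finrank_ker (Q.mj L).map₀
  have e2 := LinearMap.finrank_range_add_finrank_ker (Q.δ₀ hβ)
  have e3 := LinearMap.finrank_range_add_finrank_ker (Q.mi L).map₁
  have e4 := LinearMap.finrank_range_add_finrank_ker (Q.mj L).map₁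
  have f0 := LinearMap.finrank_range_add_finrank_ker (Q'.mi L).map₀
  have f1 := LinearMap.finrank_range_add_finrank_ker (Q'.mj L).map₀
  have f2 := LinearMap.finrank_range_add_finrank_ker (Q'.δ₀ hβ')
  rw [LinearMap.ker_eq_bot.mpr (Q.map₀_injective L), finrank_bot] at e0
  rw [LinearMap.ker_eq_bot.mpr (Q'.map₀_injective L), finrank_bot] at f0
  rw [Q.ker_map₀ L] at e1
  rw [Q'.ker_map₀ L] at f1
  rw [Q.ker_δ₀ hβ] at e2
  rw [Q'.ker_δ₀ hβ'] at f2
  rw [Q.ker_map₁_i hβ] at e3
  rw [Q.ker_map₁_j hβ] at e4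
  omega

end Fermat.Agent.RowS55
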