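import Fermat.Agent.GalCoh.GW.Inequality

/-!
# The real place, for odd `p`
-/

noncomputable section

namespace Fermat.Agent.RowS55

open Fermat.Agent.GalCoh Module ExtCitation

local notation "Γ" => (AlgebraicClosure ℚ ≃ₐ[ℚ] AlgebraicClosure ℚ)

variable {p : ℕ} [Fact p.Prime] {V : Type} [AddCommGroup V] [Module (ZMod p) V]

section Two

variable {G : Type} [Group G] {L : Levels G} {σ : Representation (ZMod p) G V}

/-- A first class of a group of order two dies for odd `p`. -/
theorem H1_subsingleton_of_two (h2 : (2 : ZMod p) ≠ 0) {c : G} (hcc : c * c = 1)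
    (hall : ∀ g, g = 1 ∨ g = c) : Subsingleton (H1 L σ) := by
  refine subsingleton_of_forall_eq 0 fun z => ?_
  obtain ⟨a, rfl⟩ := H1mk_surjective z
  rw [H1mk_eq_zero_iff, mem_B1_iff]
  obtain ⟨hcoc, -⟩ := mem_Z1_iff.mp a.2
  have h1 : (a : G → V) 1 = 0 := Z1.map_one a.2
  have hc : σ c ((a : G → V) c) = -(a : G → V) c := by
    have := hcoc c c
    rw [hcc, h1] at this
    exact eq_neg_of_add_eq_zero_left this.symm
  refine ⟨-((2 : ZMod p)⁻¹ • (a : G → V) c), fun g => ?_⟩
  rcases hall g with rfl | rfl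
  · rw [h1, map_one]; simp
  · rw [map_neg, map_smul, hc, smul_neg, neg_neg, sub_neg_eq_add, ← add_smul, ← two_mul,
      mul_inv_cancel₀ h2, one_smul]

end Two

theorem two_ne_zero_zmod (hp2 : p ≠ 2) : (2 : ZMod p) ≠ 0 := by
  intro h
  have : ((2 : ℕ) : ZMod p) = 0 := by exact_mod_cast h
  rw [ZMod.natCast_eq_zero_iff] at this
  exact hp2 ((Nat.prime_dvd_prime_iff_eq Fact.out Nat.prime_two).mp this)

theorem arch_all (u : Unit) :
    (archimedeanGen : placeGroup (Sum.inl u)) * (archimedeanGen : placeGroup (Sum.inl u)) = 1 ∧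
      ∀ g : placeGroup (Sum.inl u), g = 1 ∨ g = archimedeanGen :=
  ⟨Subtype.ext complexConjugation_mul_self, fun g => (arch_cases u g).imp id fun h =>
    placeLoc_injective_inl u h⟩

theorem subsingleton_H1_inl (hp2 : p ≠ 2) (u : Unit) (ρ : Representation (ZMod p) Γ V) :
    Subsingleton (H1 (localLevels (placeLoc (Sum.inl u))) (ρ.comp (placeLoc (Sum.inl u)))) :=
  H1_subsingleton_of_two (two_ne_zero_zmod hp2) (arch_all u).1 (arch_all u).2

/-- At the real place the invariants of a module and of its dual have dimensions adding up to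
the dimension of the module. -/
theorem finrank_H0_inl_add [FiniteDimensional (ZMod p) V] (hp2 : p ≠ 2) (u : Unit)
    (ρ : Representation (ZMod p) Γ V) :
    finrank (ZMod p) (H0 (ρ.comp (placeLoc (Sum.inl u)))) +
        finrank (ZMod p) (H0 ((dualMu ρ).comp (placeLoc (Sum.inl u)))) = finrank (ZMod p) V := by
  have h2 := two_ne_zero_zmod hp2
  have e : ∀ {E : Type} [AddCommGroup E] [Module (ZMod p) E] (ε : Representation (ZMod p) Γ E),
      H0 (ε.comp (placeLoc (Sum.inl u))) = fixV ε complexConjugation := fun ε => by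
    ext v
    rw [mem_H0_inl_iff, mem_fixV]
  have hr : LinearMap.range (ρ complexConjugation + 1) = fixV ρ complexConjugation := by
    ext v
    rw [mem_fixV]
    constructor
    · rintro ⟨w, rfl⟩
      rw [LinearMap.add_apply, Module.End.one_apply, map_add, ← Module.End.mul_apply, ← map_mul,
        complexConjugation_mul_self, map_one, Module.End.one_apply, add_comm]
    · intro hv
      refine ⟨(2 : ZMod p)⁻¹ • v, ?_⟩
      rw [LinearMap.add_apply, Module.End.one_apply, map_smul, hv, ← add_smul, ← two_mul,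
        mul_inv_cancel₀ h2, one_smul]
  rw [e, e, ← hr]
  exact finrank_fixV_dualMu ρ

end Fermat.Agent.RowS55
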