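import Fermat.Agent.GalCoh.Selmer
import Fermat.Agent.GalCoh.LongExact
import Fermat.Agent.GalCoh.Mackey
import Fermat.Agent.GalCoh.Transport

/-!
# Duals of maps, of short exact sequences and of permutation modules
-/

noncomputable section

namespace Fermat.Agent.RowS55

open Fermat.Agent.GalCoh Module MulAction ExtCitation
open Representation (IntertwiningMap)

local notation "Γ" => (AlgebraicClosure ℚ ≃ₐ[ℚ] AlgebraicClosure ℚ)

variable {p : ℕ} [Fact p.Prime]

section Res

variable {G G' : Type} [Group G] [Group G'] {A B C : Type} [AddCommGroup A] [Module (ZMod p) A]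
  [AddCommGroup B] [Module (ZMod p) B] [AddCommGroup C] [Module (ZMod p) C]
  {α : Representation (ZMod p) G A} {β : Representation (ZMod p) G B}
  {γ : Representation (ZMod p) G C}

/-- Restriction of an intertwining map. -/
def resInt (r : G' →* G) (φ : IntertwiningMap α β) : IntertwiningMap (α.comp r) (β.comp r) :=
  LinearMap.intertwiningMap_of_isIntertwiningMap _ _ φ.toLinearMap fun g v =>
    φ.isIntertwining _ _ (r g) v

/-- Restriction of a short exact sequence. -/
def resSes (r : G' →* G) (Q : Ses α β γ) : Ses (α.comp r) (β.comp r) (γ.comp r) where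
  i := resInt r Q.i
  j := resInt r Q.j
  s := Q.s
  r := Q.r
  js := Q.js
  ri := Q.ri
  ji := Q.ji
  split := Q.split

theorem finrank_H0_le [FiniteDimensional (ZMod p) B] (φ : IntertwiningMap α β)
    (hφ : Function.Injective φ) : finrank (ZMod p) (H0 α) ≤ finrank (ZMod p) (H0 β) :=
  LinearMap.finrank_le_finrank_of_injective
    (f := (φ.toLinearMap.comp (H0 α).subtype).codRestrict (H0 β) fun v g => by
      show β g (φ (v : A)) = φ (v : A)
      rw [← φ.isIntertwining _ _ g, v.2 g])
    fun a b h => Subtype.ext (hφ (congrArg Subtype.val h :))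

end Res

section Dual

variable {A B C : Type} [AddCommGroup A] [Module (ZMod p) A] [AddCommGroup B] [Module (ZMod p) B]
  [AddCommGroup C] [Module (ZMod p) C] {α : Representation (ZMod p) Γ A}
  {β : Representation (ZMod p) Γ B} {γ : Representation (ZMod p) Γ C}

/-- The dual of a map. -/
def dualMap (φ : IntertwiningMap α β) : IntertwiningMap (dualMu β) (dualMu α) :=
  LinearMap.intertwiningMap_of_isIntertwiningMap _ _ φ.toLinearMap.dualMap fun g f =>
    LinearMap.ext fun a => by
      show dualMu β g f (φ a) = dualMu α g (f ∘ₗ φ.toLinearMap) a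
      rw [dualMu_apply, dualMu_apply, ← φ.isIntertwining _ _ g⁻¹]
      rfl

@[simp] theorem dualMap_apply (φ : IntertwiningMap α β) (f : Dual (ZMod p) B) (a : A) :
    dualMap φ f a = f (φ a) := rfl

/-- **The dual short exact sequence.** -/
theorem exists_dual_ses (Q : Ses α β γ) :
    ∃ Q' : Ses (dualMu γ) (dualMu β) (dualMu α), Q'.i = dualMap Q.j ∧ Q'.j = dualMap Q.i := by
  refine exists_ses (dualMap Q.j) (dualMap Q.i) (fun f f' h => LinearMap.ext fun c => ?_)
    (fun f => ⟨f ∘ₗ Q.r, LinearMap.ext fun a => ?_⟩) fun f => ⟨fun h => ?_, ?_⟩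
  · have := LinearMap.congr_fun h (Q.s c)
    simp only [dualMap_apply, Q.js] at this
    exact this
  · show f (Q.r (Q.i a)) = f a
    rw [Q.ri]
  · refine ⟨f ∘ₗ Q.s, LinearMap.ext fun b => ?_⟩
    show f (Q.s (Q.j b)) = f b
    conv_rhs => rw [← Q.split b, map_add,
      show f (Q.i (Q.r b)) = 0 from LinearMap.congr_fun h (Q.r b), zero_add]
  · rintro ⟨c, rfl⟩
    refine LinearMap.ext fun a => ?_
    show c (Q.j (Q.i a)) = 0
    rw [Q.ji, map_zero]

end Dual

section Perm

variable {V : Type} [AddCommGroup V] [Module (ZMod p) V] (ρ : Representation (ZMod p) Γ V)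
  (X : Type) [MulAction Γ X] [Fintype X]

/-- Permutation modules are self dual up to the dual of the coefficients. -/
def permDual : IntertwiningMap (permRep (dualMu ρ) X) (dualMu (permRep ρ X)) :=
  LinearMap.intertwiningMap_of_isIntertwiningMap _ _
    (LinearMap.mk₂ (ZMod p) (fun (c : X → Dual (ZMod p) V) (f : X → V) => ∑ x, c x (f x))
      (fun c c' f => by simp [Finset.sum_add_distrib]) (fun t c f => by simp [Finset.mul_sum])
      (fun c f f' => by simp [Finset.sum_add_distrib]) (fun t c f => by simp [Finset.mul_sum]))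
    fun g c => LinearMap.ext fun f => by
      rw [dualMu_apply]
      simp only [LinearMap.mk₂_apply, permRep_apply, dualMu_apply, Finset.mul_sum]
      exact Fintype.sum_equiv (MulAction.toPerm g⁻¹) _ _ fun x => by
        simp only [MulAction.toPerm_apply, inv_inv, smul_inv_smul]

theorem permDual_apply (c : X → Dual (ZMod p) V) (f : X → V) :
    permDual ρ X c f = ∑ x, c x (f x) := rfl

theorem permDual_bijective [FiniteDimensional (ZMod p) V] : Function.Bijective (permDual ρ X) := by
  classical
  constructor
  · intro c c' h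
    funext x
    refine LinearMap.ext fun v => ?_
    have := LinearMap.congr_fun h (Pi.single x v)
    simpa [permDual_apply, Pi.single_apply, apply_ite] using this
  · intro F
    refine ⟨fun x => F ∘ₗ LinearMap.single (ZMod p) (fun _ => V) x, LinearMap.ext fun f => ?_⟩
    rw [permDual_apply]
    simp only [LinearMap.comp_apply, LinearMap.single_apply, ← map_sum]
    rw [Finset.univ_sum_single]

end Perm

section Orbit

variable {G : Type} [Group G] {V : Type} [AddCommGroup V] [Module (ZMod p) V]
  {σ : Representation (ZMod p) G V} {L : Levels G} {X : Type} [MulAction G X]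

theorem permRep_comp {G' : Type} [Group G'] (r : G' →* G) :
    (permRep σ X).comp r = letI := pullAction r X; permRep (σ.comp r) X := by
  let := pullAction r X
  ext d f x
  show σ (r d) (f ((r d)⁻¹ • x)) = σ (r d) (f (r d⁻¹ • x))
  rw [map_inv]

/-- A class of a permutation module with all components zero is zero. -/
theorem eq_zero_of_pointMor₁_eq_zero [Finite X] (hσ : IsCtsRep L σ)
    (hX : ∀ x : X, L.mem (stabilizer G x)) (z : H1 L (permRep σ X))
    (h : ∀ o : orbitRel.Quotient G X, (pointMor L σ o.out).map₁ z = 0) : z = 0 := by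
  have : Fintype (orbitRel.Quotient G X) := Fintype.ofFinite _
  have hsum : ∑ o : orbitRel.Quotient G X, (Mor.ofMap L (orbitPush σ o.out)).map₁
      ((Mor.ofMap L (orbitPull σ o.out)).map₁ z) = z := by
    obtain ⟨F, rfl⟩ := H1mk_surjective z
    simp only [Mor.map₁_mk]
    rw [← map_sum]
    refine congrArg _ (Subtype.ext (funext fun g => ?_))
    rw [Submodule.coe_sum, Finset.sum_apply]
    exact sum_orbitPush_orbitPull (G := G) (ρ := σ) (X := X) ((F : G → X → V) g)
  rw [← hsum]
  refine Finset.sum_eq_zero fun o _ => ?_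
  have h' := h o
  rw [pointMor_map₁_eq] at h'
  rw [(evalMor_map₁_bijective hσ (hX o.out)).1 (h'.trans (map_zero _).symm), map_zero]

/-- When the stabilisers act trivially, each orbit gives invariants. -/
theorem mul_le_finrank_H0_perm [Finite X] [FiniteDimensional (ZMod p) V]
    (hst : ∀ x : X, ∀ d ∈ stabilizer G x, σ d = 1) :
    Nat.card (orbitRel.Quotient G X) * finrank (ZMod p) V ≤
      finrank (ZMod p) (H0 (permRep σ X)) := by
  have hg : ∀ x : X, ∃ g : G, g • (Quotient.mk'' x : orbitRel.Quotient G X).out = x := fun x => by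
    have h : x ∈ MulAction.orbit G (Quotient.mk'' x : orbitRel.Quotient G X).out := by
      rw [← orbitRel.Quotient.orbit_eq_orbit_out _ Quotient.out_eq', orbitRel.Quotient.mem_orbit]
    exact MulAction.mem_orbit_iff.mp h
  choose g hg using hg
  let Φ : (orbitRel.Quotient G X → V) →ₗ[ZMod p] H0 (permRep σ X) :=
    (LinearMap.pi fun x => σ (g x) ∘ₗ LinearMap.proj (Quotient.mk'' x)).codRestrict _ fun F d => by
      funext x
      show σ d (σ (g (d⁻¹ • x)) (F (Quotient.mk'' (d⁻¹ • x)))) = σ (g x) (F (Quotient.mk'' x))
      have ho : (Quotient.mk'' (d⁻¹ • x) : orbitRel.Quotient G X) = Quotient.mk'' x :=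
        Quotient.eq''.mpr ⟨d⁻¹, rfl⟩
      have hm : (g x)⁻¹ * (d * g (d⁻¹ • x)) ∈
          stabilizer G (Quotient.mk'' x : orbitRel.Quotient G X).out := by
        rw [mem_stabilizer_iff, mul_smul, mul_smul, inv_smul_eq_iff, hg]
        conv_lhs => rw [← ho, hg (d⁻¹ • x), smul_inv_smul]
      have e := hst _ _ hm
      rw [ho, ← Module.End.mul_apply, ← map_mul, ← mul_inv_cancel_left (g x) (d * g (d⁻¹ • x)),
        map_mul, e, mul_one]
  have hΦ : Function.Injective Φ := fun F F' h => funext fun o => by
    have h' := congrFun (congrArg Subtype.val h) o.out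
    have h'' : σ (g o.out) (F (Quotient.mk'' o.out)) = σ (g o.out) (F' (Quotient.mk'' o.out)) := h'
    have hinj : Function.Injective (σ (g o.out)) :=
      Function.LeftInverse.injective (g := σ (g o.out)⁻¹) fun v => by
        rw [← Module.End.mul_apply, ← map_mul, inv_mul_cancel, map_one, Module.End.one_apply]
    rw [← Quotient.out_eq' o]
    exact hinj h''
  have hle := LinearMap.finrank_le_finrank_of_injective hΦ
  have : Fintype (orbitRel.Quotient G X) := Fintype.ofFinite _
  rwa [Module.finrank_pi_fintype, Finset.sum_const, Finset.card_univ, ← Nat.card_eq_fintype_card,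
    smul_eq_mul] at hle

end Orbit

end Fermat.Agent.RowS55
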