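import Fermat.Agent.GalCoh.Induced
import Fermat.Agent.GalCoh.LongExact
import Mathlib.LinearAlgebra.FiniteDimensional.Basic

/-!
# The constants inside a permutation module
-/

noncomputable section

namespace Fermat.Agent.RowS55

open Fermat.Agent.GalCoh
open Representation (IntertwiningMap)

variable {k : Type} [Field k] {G : Type} [Group G] {V : Type} [AddCommGroup V] [Module k V]
  (ρ : Representation k G V) (X : Type) [MulAction G X]

/-- The constants. -/
abbrev constSub : Submodule k (X → V) := LinearMap.range (constMap ρ X).toLinearMap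

/-- Functions modulo constants. -/
def cokerRep : Representation k G ((X → V) ⧸ constSub ρ X) where
  toFun g := Submodule.mapQ _ _ (permRep ρ X g) fun f hf => by
    obtain ⟨v, rfl⟩ := hf
    exact ⟨ρ g v, (constMap ρ X).isIntertwining _ _ g v⟩
  map_one' := Submodule.linearMap_qext _ (by ext f; simp)
  map_mul' g h := Submodule.linearMap_qext _ (by ext f; simp)

/-- The projection. -/
def cokerMap : IntertwiningMap (permRep ρ X) (cokerRep ρ X) :=
  LinearMap.intertwiningMap_of_isIntertwiningMap _ _ (constSub ρ X).mkQ fun _ _ => rfl

theorem cokerRep_eq_one {g : G} (h : permRep ρ X g = 1) : cokerRep ρ X g = 1 :=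
  Submodule.linearMap_qext _ (LinearMap.ext fun f => by
    show Submodule.Quotient.mk (permRep ρ X g f) = Submodule.Quotient.mk f
    rw [h]
    rfl)

/-- The sequence `V → (X → V) → (X → V) / V`. -/
theorem exists_const_ses [Nonempty X] :
    ∃ Q : Ses ρ (permRep ρ X) (cokerRep ρ X), Q.i = constMap ρ X ∧ Q.j = cokerMap ρ X :=
  exists_ses _ _ (fun v w h => congrFun h (Classical.arbitrary X))
    (Submodule.mkQ_surjective _) fun f => by
      show (constSub ρ X).mkQ f = 0 ↔ _
      rw [Submodule.mkQ_apply, Submodule.Quotient.mk_eq_zero]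
      rfl

end Fermat.Agent.RowS55
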