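import Fermat.Agent.GalCoh.Induced
import Fermat.Agent.GalCoh.Cup
import Mathlib.LinearAlgebra.Dual.Lemmas
import Mathlib.Algebra.Field.ZMod
import Mathlib.LinearAlgebra.FiniteDimensional.Lemmas

/-!
# Degree two of a group with a normal level where the coefficients are trivial

`inv` is the invariant map of a one-dimensional module `τ`; the axioms are those of a local field
whose level `H` contains the roots of unity.
-/

noncomputable section

namespace Fermat.Agent.RowS55

open Fermat.Agent.GalCoh Module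
open Representation (IntertwiningMap)

variable {p : ℕ} [Fact p.Prime] {G : Type} [Group G] {L : Levels G}
  {τ : Representation (ZMod p) G (ZMod p)} {inv : H2 L τ →ₗ[ZMod p] ZMod p} {H : Subgroup G}

/-- An additive continuous function on the level. -/
def IsHom (L : Levels G) (H : Subgroup G) (χ : ↥H → ZMod p) : Prop :=
  (∀ a b, χ (a * b) = χ a + χ b) ∧ (L.comap H.subtype).IsCts₁ χ

/-- The axioms of local duality. -/
structure LocalTheory (L : Levels G) (τ : Representation (ZMod p) G (ZMod p))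
    (inv : H2 L τ →ₗ[ZMod p] ZMod p) (H : Subgroup G) : Prop where
  normal : H.Normal
  mem : L.mem H
  trivial : ∀ h ∈ H, τ h = 1
  inv_sum : ∀ (_ : Fintype (G ⧸ H)) (z : H2 L (permRep τ (G ⧸ H))),
    inv ((Mor.ofMap L (sumMap τ (G ⧸ H))).map₂ z) = 0 → z = 0
  exists_cup : ∀ χ : ↥H → ZMod p, IsHom L H χ → (∃ a, χ a ≠ 0) →
    ∃ κ : ↥H → ZMod p, IsHom L H κ ∧
      (fun x : ↥H × ↥H => χ x.1 * κ x.2) ∉ B2 (L.comap H.subtype) (τ.comp H.subtype)
  exists_hom : ∃ χ : ↥H → ZMod p, IsHom L H χ ∧ ∃ a, χ a ≠ 0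
  homs_finite : ∀ M : Submodule (ZMod p) (↥H → ZMod p), (∀ χ ∈ M, IsHom L H χ) →
    FiniteDimensional (ZMod p) M

variable {M : Type} [AddCommGroup M] [Module (ZMod p) M] {σ : Representation (ZMod p) G M}
  {M' : Type} [AddCommGroup M'] [Module (ZMod p) M'] {σ' : Representation (ZMod p) G M'}

theorem map₂_add {G' : Type} [Group G'] {L' : Levels G'} {ρ' : Representation (ZMod p) G' M'}
    (m m₁ m₂ : Mor L L' σ ρ') (hf₁ : m₁.f = m.f) (hf₂ : m₂.f = m.f) (hφ : m.φ = m₁.φ + m₂.φ)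
    (z : H2 L σ) : m.map₂ z = m₁.map₂ z + m₂.map₂ z := by
  obtain ⟨F, rfl⟩ := H2mk_surjective z
  rw [Mor.map₂_mk, Mor.map₂_mk, Mor.map₂_mk, ← map_add]
  refine congrArg _ (Subtype.ext (funext fun x => ?_))
  show m.φ _ = m₁.φ _ + m₂.φ _
  rw [hφ, LinearMap.add_apply, hf₁, hf₂]

theorem map₂_smul {G' : Type} [Group G'] {L' : Levels G'} {ρ' : Representation (ZMod p) G' M'}
    (m m₁ : Mor L L' σ ρ') (c : ZMod p) (hf : m₁.f = m.f) (hφ : m.φ = c • m₁.φ) (z : H2 L σ) :
    m.map₂ z = c • m₁.map₂ z := by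
  obtain ⟨F, rfl⟩ := H2mk_surjective z
  rw [Mor.map₂_mk, Mor.map₂_mk, ← map_smul]
  refine congrArg _ (Subtype.ext (funext fun x => ?_))
  show m.φ _ = c • m₁.φ _
  rw [hφ, hf]
  rfl

variable (inv) in
/-- The functional of a map to `τ` on two-classes. -/
def intFunctional (φ : IntertwiningMap σ τ) : H2 L σ →ₗ[ZMod p] ZMod p :=
  inv ∘ₗ (Mor.ofMap L φ).map₂

theorem intFunctional_apply (φ : IntertwiningMap σ τ) (z : H2 L σ) :
    intFunctional inv φ z = inv ((Mor.ofMap L φ).map₂ z) := rfl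

theorem intFunctional_sub (φ φ' ψ : IntertwiningMap σ τ)
    (h : ψ.toLinearMap = φ.toLinearMap - φ'.toLinearMap) (z : H2 L σ) :
    intFunctional inv ψ z = intFunctional inv φ z - intFunctional inv φ' z := by
  have h' : φ.toLinearMap = ψ.toLinearMap + φ'.toLinearMap := by rw [h, sub_add_cancel]
  simp only [intFunctional_apply]
  rw [map₂_add (Mor.ofMap L φ) (Mor.ofMap L ψ) (Mor.ofMap L φ') rfl rfl h', map_add,
    add_sub_cancel_right]

/-- A line in a module trivial on `H`. -/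
def lineOn (hτ : ∀ h ∈ H, τ h = 1) (hσ : ∀ h ∈ H, σ h = 1) (m : M) :
    IntertwiningMap (τ.comp H.subtype) (σ.comp H.subtype) :=
  LinearMap.intertwiningMap_of_isIntertwiningMap _ _ (LinearMap.toSpanSingleton (ZMod p) M m)
    fun h a => by simp [hτ h h.2, hσ h h.2]

/-- A functional on a module trivial on `H`. -/
def formOn (hτ : ∀ h ∈ H, τ h = 1) (hσ : ∀ h ∈ H, σ h = 1) (f : Dual (ZMod p) M) :
    IntertwiningMap (σ.comp H.subtype) (τ.comp H.subtype) :=
  LinearMap.intertwiningMap_of_isIntertwiningMap _ _ f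
    fun h a => by simp [hτ h h.2, hσ h h.2]

namespace LocalTheory

variable (hT : LocalTheory L τ inv H)
include hT

theorem isCtsRep_τ : IsCtsRep L τ := ⟨H, hT.mem, hT.trivial⟩

theorem isCtsRep_of_trivial (hσ : ∀ h ∈ H, σ h = 1) : IsCtsRep L σ := ⟨H, hT.mem, hσ⟩

theorem fintype_quot : Nonempty (Fintype (G ⧸ H)) :=
  have := finite_quotient hT.mem
  ⟨Fintype.ofFinite _⟩

/-- A class of `H` detected by the invariant. -/
theorem exists_class_ne_zero : ∃ w : H2 (L.comap H.subtype) (τ.comp H.subtype), w ≠ 0 := by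
  obtain ⟨χ, hχ, hne⟩ := hT.exists_hom
  obtain ⟨κ, hκ, hB⟩ := hT.exists_cup χ hχ hne
  refine ⟨H2mk (L.comap H.subtype) (τ.comp H.subtype) ⟨fun x => χ x.1 * κ x.2, mem_Z2_iff.mpr ⟨fun a b c => ?_,
    hχ.2.comp_fst.map₂ hκ.2.comp_snd (· * ·)⟩⟩, fun h => hB (H2mk_eq_zero_iff.mp h)⟩
  show χ (a * b) * κ c + χ a * κ b = (τ.comp H.subtype) a (χ b * κ c) + χ a * κ (b * c)
  simp only [hχ.1, hκ.1, MonoidHom.comp_apply, Subgroup.coe_subtype, hT.trivial _ a.2,
    Module.End.one_apply]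
  ring

/-- **A non-zero map to `τ` is non-zero on two-classes.** -/
theorem exists_intFunctional_ne_zero (hσ : ∀ h ∈ H, σ h = 1) (φ : IntertwiningMap σ τ)
    (hφ : φ.toLinearMap ≠ 0) : ∃ z : H2 L σ, intFunctional inv φ z ≠ 0 := by
  obtain ⟨ft⟩ := hT.fintype_quot
  obtain ⟨m, hm⟩ := DFunLike.exists_ne hφ
  obtain ⟨w, hw⟩ := hT.exists_class_ne_zero
  obtain ⟨Z, hZ⟩ := (evalMor_map₂_bijective (hT.isCtsRep_of_trivial hσ) hT.mem).2
    ((Mor.ofMap _ (lineOn hT.trivial hσ m)).map₂ w)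
  refine ⟨(Mor.ofMap L (sumMap σ (G ⧸ H))).map₂ Z, fun h => ?_⟩
  have e : (Mor.ofMap L φ).map₂ ((Mor.ofMap L (sumMap σ (G ⧸ H))).map₂ Z) =
      (Mor.ofMap L (sumMap τ (G ⧸ H))).map₂ ((Mor.ofMap L (permMap φ (G ⧸ H))).map₂ Z) := by
    obtain ⟨F, rfl⟩ := H2mk_surjective Z
    simp only [Mor.map₂_mk]
    refine congrArg _ (Subtype.ext (funext fun x => ?_))
    show φ (sumMap σ (G ⧸ H) _) = sumMap τ (G ⧸ H) (permMap φ (G ⧸ H) _)
    rw [sumMap_apply, sumMap_apply]
    exact map_sum φ.toLinearMap _ _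
  rw [intFunctional_apply, e] at h
  have h0 := congrArg (evalMor L τ H).map₂ (hT.inv_sum ft _ h)
  rw [map_zero] at h0
  have e2 : (evalMor L τ H).map₂ ((Mor.ofMap L (permMap φ (G ⧸ H))).map₂ Z) =
      φ m • w := by
    have h1 : (evalMor L τ H).map₂ ((Mor.ofMap L (permMap φ (G ⧸ H))).map₂ Z) =
        (Mor.ofMap (L.comap H.subtype) (formOn hT.trivial hσ φ.toLinearMap)).map₂
          ((evalMor L σ H).map₂ Z) := by
      obtain ⟨F, rfl⟩ := H2mk_surjective Z
      rfl
    rw [h1, hZ]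
    obtain ⟨F, rfl⟩ := H2mk_surjective w
    simp only [Mor.map₂_mk]
    rw [← map_smul]
    refine congrArg _ (Subtype.ext (funext fun x => ?_))
    show φ.toLinearMap ((F : ↥H × ↥H → ZMod p) x • m) = φ m • (F : ↥H × ↥H → ZMod p) x
    rw [map_smul, smul_eq_mul, smul_eq_mul, mul_comm]
    rfl
  rw [e2] at h0
  exact hw ((smul_eq_zero.mp h0).resolve_left (by simpa using hm))

theorem inv_sum_evalMor_bijective [Fintype (G ⧸ H)] :
    Function.Injective (intFunctional inv (sumMap τ (G ⧸ H))) :=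
  (injective_iff_map_eq_zero _).mpr fun z hz => hT.inv_sum _ z hz

/-- The invariant of `H`. -/
theorem exists_invH :
    ∃ iH : H2 (L.comap H.subtype) (τ.comp H.subtype) →ₗ[ZMod p] ZMod p, Function.Injective iH := by
  obtain ⟨ft⟩ := hT.fintype_quot
  exact ⟨intFunctional inv (sumMap τ (G ⧸ H)) ∘ₗ (shapiro₂ L hT.isCtsRep_τ hT.mem).symm.toLinearMap,
    hT.inv_sum_evalMor_bijective.comp (LinearEquiv.injective _)⟩

/-- Two-classes of a module trivial on `H` are detected by the functionals. -/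
theorem eq_zero_of_forms [FiniteDimensional (ZMod p) M] (hσ : ∀ h ∈ H, σ h = 1)
    (z : H2 (L.comap H.subtype) (σ.comp H.subtype))
    (h : ∀ f : Dual (ZMod p) M, (Mor.ofMap _ (formOn hT.trivial hσ f)).map₂ z = 0) : z = 0 := by
  obtain ⟨F, rfl⟩ := H2mk_surjective z
  let b := Module.finBasis (ZMod p) M
  have hx : ∀ i, ∃ x : ↥H → ZMod p, (L.comap H.subtype).IsCts₁ x ∧
      d1 (τ.comp H.subtype) x = fun y => b.coord i ((F : ↥H × ↥H → M) y) := fun i => by
    have := h (b.coord i)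
    rw [Mor.map₂_mk, H2mk_eq_zero_iff] at this
    exact mem_B2_iff.mp this
  choose x hxc hxd using hx
  rw [H2mk_eq_zero_iff, mem_B2_iff]
  refine ⟨fun g => ∑ i, x i g • b i, ?_, ?_⟩
  · have : (∑ i, fun g => x i g • b i) ∈ C1 (k := ZMod p) (V := M) (L.comap H.subtype) :=
      Submodule.sum_mem _ fun i _ => (mem_C1_iff _).mpr ((hxc i).comp fun c => c • b i)
    convert (mem_C1_iff _).mp this using 1
    funext g
    rw [Finset.sum_apply]
  · funext y
    obtain ⟨a, c⟩ := y
    conv_rhs => rw [← b.sum_repr ((F : ↥H × ↥H → M) (a, c))]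
    rw [d1_apply, map_sum, ← Finset.sum_sub_distrib, ← Finset.sum_add_distrib]
    refine Finset.sum_congr rfl fun i _ => ?_
    have e := congrFun (hxd i) (a, c)
    rw [d1_apply] at e
    simp only [MonoidHom.comp_apply, Subgroup.coe_subtype, hT.trivial _ a.2, hσ _ a.2,
      Module.End.one_apply, Basis.coord_apply] at e ⊢
    rw [← e, add_smul, sub_smul]

theorem finrank_H2_perm_le [FiniteDimensional (ZMod p) M] (hσ : ∀ h ∈ H, σ h = 1) :
    FiniteDimensional (ZMod p) (H2 L (permRep σ (G ⧸ H))) ∧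
      finrank (ZMod p) (H2 L (permRep σ (G ⧸ H))) ≤ finrank (ZMod p) M := by
  obtain ⟨iH, hiH⟩ := hT.exists_invH
  let D : H2 (L.comap H.subtype) (σ.comp H.subtype) →ₗ[ZMod p] Dual (ZMod p) (Dual (ZMod p) M) :=
    LinearMap.mk₂ (ZMod p) (fun z f => iH ((Mor.ofMap _ (formOn hT.trivial hσ f)).map₂ z))
      (fun z z' f => by rw [map_add, map_add]) (fun c z f => by rw [map_smul, map_smul])
      (fun z f f' => by rw [map₂_add (Mor.ofMap _ (formOn hT.trivial hσ (f + f')))
        (Mor.ofMap _ (formOn hT.trivial hσ f)) (Mor.ofMap _ (formOn hT.trivial hσ f')) rfl rfl rfl,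
        map_add])
      (fun c z f => by rw [map₂_smul (Mor.ofMap _ (formOn hT.trivial hσ (c • f)))
        (Mor.ofMap _ (formOn hT.trivial hσ f)) c rfl rfl, map_smul])
  have hinj : Function.Injective (D ∘ₗ (shapiro₂ L (hT.isCtsRep_of_trivial hσ) hT.mem).toLinearMap) := by
    rw [LinearMap.coe_comp]
    refine Function.Injective.comp ((injective_iff_map_eq_zero D).mpr fun z hz => ?_)
      (LinearEquiv.injective _)
    exact hT.eq_zero_of_forms hσ z fun f => hiH ((LinearMap.congr_fun hz f).trans (map_zero iH).symm)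
  refine ⟨Module.Finite.of_injective _ hinj,
    (LinearMap.finrank_le_finrank_of_injective hinj).trans ?_⟩
  rw [Subspace.dual_finrank_eq, Subspace.dual_finrank_eq]

/-- A functional on `M` as a map `(G ⧸ H → M) → τ`. -/
def permForm [Fintype (G ⧸ H)] (hσ : ∀ h ∈ H, σ h = 1) (f : Dual (ZMod p) M) :
    IntertwiningMap (permRep σ (G ⧸ H)) τ :=
  LinearMap.intertwiningMap_of_isIntertwiningMap _ _
    (∑ x : G ⧸ H, τ (cosetRep H x) ∘ₗ f ∘ₗ σ (cosetRep H x)⁻¹ ∘ₗ LinearMap.proj x) fun g F => by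
    simp only [LinearMap.sum_apply, LinearMap.coe_comp, Function.comp_apply, LinearMap.proj_apply,
      map_sum, permRep_apply]
    refine Fintype.sum_equiv (MulAction.toPerm g⁻¹) _ _ fun x => ?_
    show τ (cosetRep H x) (f (σ (cosetRep H x)⁻¹ (σ g (F (g⁻¹ • x))))) =
      τ g (τ (cosetRep H (g⁻¹ • x)) (f (σ (cosetRep H (g⁻¹ • x))⁻¹ (F (g⁻¹ • x)))))
    have hk : cosetRep H x * (kappa H g (g⁻¹ • x) : G) = g * cosetRep H (g⁻¹ • x) := by
      have := rep_mul_kappa (H := H) g (g⁻¹ • x)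
      rwa [smul_inv_smul] at this
    set k := (kappa H g (g⁻¹ • x) : G)
    have hkH : k ∈ H := (kappa H g (g⁻¹ • x)).2
    set t := cosetRep H (g⁻¹ • x)
    set s := cosetRep H x
    rw [← Module.End.mul_apply (f := τ g), ← map_mul, ← hk, map_mul, hT.trivial k hkH, mul_one,
      ← Module.End.mul_apply (f := σ s⁻¹), ← map_mul,
      show s⁻¹ * g = k * t⁻¹ by rw [eq_mul_inv_iff_mul_eq, mul_assoc, ← hk, inv_mul_cancel_left],
      map_mul, hσ k hkH, one_mul]

/-- **Every functional on `H²(G ⧸ H → M)` comes from a map to `τ`.** -/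
theorem exists_intFunctional_eq [FiniteDimensional (ZMod p) M] [Fintype (G ⧸ H)]
    (hσ : ∀ h ∈ H, σ h = 1) (θ : H2 L (permRep σ (G ⧸ H)) →ₗ[ZMod p] ZMod p) :
    ∃ Φ : IntertwiningMap (permRep σ (G ⧸ H)) τ, intFunctional inv Φ = θ := by
  obtain ⟨hfin, hle⟩ := hT.finrank_H2_perm_le (σ := σ) hσ
  let E : Dual (ZMod p) M →ₗ[ZMod p] Dual (ZMod p) (H2 L (permRep σ (G ⧸ H))) :=
    { toFun := fun f => intFunctional inv (hT.permForm hσ f)
      map_add' := fun f f' => LinearMap.ext fun z => by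
        simp only [LinearMap.add_apply, intFunctional_apply]
        rw [map₂_add (Mor.ofMap L (hT.permForm hσ (f + f'))) (Mor.ofMap L (hT.permForm hσ f))
          (Mor.ofMap L (hT.permForm hσ f')) rfl rfl (LinearMap.ext fun F => by
            simp [Mor.ofMap, permForm, LinearMap.sum_apply, Finset.sum_add_distrib]), map_add]
      map_smul' := fun c f => LinearMap.ext fun z => by
        simp only [LinearMap.smul_apply, intFunctional_apply, RingHom.id_apply]
        rw [map₂_smul (Mor.ofMap L (hT.permForm hσ (c • f))) (Mor.ofMap L (hT.permForm hσ f)) c rfl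
          (LinearMap.ext fun F => by
            simp [Mor.ofMap, permForm, LinearMap.sum_apply, Finset.mul_sum]
            refine Finset.sum_congr rfl fun i _ => ?_
            rw [← smul_eq_mul, map_smul, smul_eq_mul]), map_smul] }
  have hperm : ∀ h ∈ H, permRep σ (G ⧸ H) h = 1 := fun h hh => LinearMap.ext fun F => funext fun x => by
    rw [permRep_apply, hσ h hh, smul_eq_self_of_normal hT.normal le_rfl (H.inv_mem hh)]
    rfl
  have hE : Function.Injective E := by
    refine (injective_iff_map_eq_zero E).mpr fun f hf => by_contra fun hne => ?_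
    obtain ⟨v, hv⟩ := DFunLike.exists_ne hne
    classical
    obtain ⟨z, hz⟩ := hT.exists_intFunctional_ne_zero hperm (hT.permForm hσ f) fun h0 => hv (by
      have := LinearMap.congr_fun h0 (Pi.single ((1 : G) : G ⧸ H) v)
      simpa [permForm, LinearMap.sum_apply, Pi.single_apply, apply_ite] using this)
    exact hz (LinearMap.congr_fun hf z)
  have hsurj : Function.Surjective E := by
    refine (LinearMap.injective_iff_surjective_of_finrank_eq_finrank ?_).mp hE
    refine le_antisymm (LinearMap.finrank_le_finrank_of_injective hE) ?_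
    rw [Subspace.dual_finrank_eq, Subspace.dual_finrank_eq]
    exact hle
  obtain ⟨f, hf⟩ := hsurj θ
  exact ⟨hT.permForm hσ f, hf⟩

end LocalTheory

end Fermat.Agent.RowS55
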