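import Fermat.Agent.GalCoh.Large
import Fermat.Agent.GalCoh.GW.Killed

/-!
# Frobenius elements of completely split primes
-/

noncomputable section

namespace Fermat.Agent.RowS55

open Fermat.Agent.GalCoh
open scoped Pointwise

local notation "Γ" => (AlgebraicClosure ℚ ≃ₐ[ℚ] AlgebraicClosure ℚ)

/-- Every element of a normal level `N` is, modulo any level, a Frobenius element at a prime
splitting completely in `N`, outside any finite set. -/
theorem exists_frobenius_split {M N : Subgroup Γ} (hM : fullLevels.mem M) (hN : fullLevels.mem N)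
    (hNn : N.Normal) {n : Γ} (hn : n ∈ N) (T₀ : Finset Nat.Primes) :
    ∃ q : Nat.Primes, q ∉ T₀ ∧ SplitIn N q ∧
      ∃ (g : Γ) (d : placeGroup (Sum.inr q)), n⁻¹ * (g * placeLoc (Sum.inr q) d * g⁻¹) ∈ M := by
  classical
  obtain ⟨S₀, E, hE, hEN⟩ := Descent.exists_levelsS_mem hN
  obtain ⟨L, hL, hLMN⟩ := fullLevels.inf_mem hM hN
  have := hL
  obtain ⟨ℓ, hℓ, hℓS, A, hA, σ, hσ, hσL⟩ := Chebotarev.exists_isFrobeniusAt_eqOn L n
    ((S₀ ∪ T₀).image fun q : Nat.Primes => (q : ℕ))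
  let q : Nat.Primes := ⟨ℓ, hℓ⟩
  have hqS : q ∉ S₀ ∪ T₀ := fun h => hℓS (Finset.mem_image.mpr ⟨q, h, rfl⟩)
  rw [Finset.notMem_union] at hqS
  have hnσ : n⁻¹ * σ ∈ M ⊓ N := hLMN ((IntermediateField.mem_fixingSubgroup_iff _ _).mpr fun a ha =>
    by rw [AlgEquiv.mul_apply, hσL a ha, AlgEquiv.aut_inv, AlgEquiv.symm_apply_apply])
  have hσN : σ ∈ N := by
    have := N.mul_mem hn hnσ.2
    rwa [mul_inv_cancel_left] at this
  have hIN : A.inertiaSubgroupIn ℚ ≤ N := (hE.2 q hqS.1 A hA).trans hEN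
  obtain ⟨L', hL', hL'N⟩ := id hN
  have := hL'
  have hdec : A.decompositionSubgroup ℚ ≤ N := fun x hx => by
    obtain ⟨i, τ, hτ, h⟩ := TameInertia.exists_eq_frobenius_pow_mul hℓ hA hσ hx L'
    have := N.mul_mem (N.mul_mem (N.pow_mem hσN i) (hIN hτ)) (hL'N h)
    rwa [mul_inv_cancel_left] at this
  obtain ⟨g, d, hgd⟩ := GW.exists_conj_placeLoc (q := q) hA hσ.mem_decompositionSubgroup
  refine ⟨q, hqS.2, fun d' => ?_, g, d, hgd ▸ hnσ.1⟩
  obtain ⟨h, hh⟩ := Frobenius.exists_smul_eq_of_liesOverPrime_qbar hℓ hA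
    (Descent.primeLocalPlace_liesOver q)
  have hd : conjLoc (Sum.inr q) 1 d' • ((1 : Γ) • ExtCitation.primeLocalPlace q) =
      (1 : Γ) • ExtCitation.primeLocalPlace q := Descent.conjLoc_mem_decomposition q 1 d'
  rw [one_smul, ← hh] at hd
  have hd' : h⁻¹ * conjLoc (Sum.inr q) 1 d' * h ∈ A.decompositionSubgroup ℚ := by
    show (h⁻¹ * conjLoc (Sum.inr q) 1 d' * h) • A = A
    rw [mul_smul, mul_smul, hd, inv_smul_smul]
  have := hNn.conj_mem _ (hdec hd') h
  simpa [mul_assoc, conjLoc] using this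

end Fermat.Agent.RowS55
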