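import Fermat.Agent.RowS55.KummerLocal
import Fermat.Agent.RowS55.LocalTheory
import Fermat.Agent.RowS55.Split
import Fermat.Agent.GalCoh.GW.Deg0
import Fermat.Agent.GalCoh.GW.Unramified
import Fermat.Agent.CFT.Brauer.Places

/-!
# The local theory at a prime

At a prime `q` and a splitting level `N`, the axioms of local duality hold for the trace of `N`.
-/

noncomputable section

namespace Fermat.Agent.RowS55

open ExtCitation MulAction Module
open Fermat.Agent.GalCoh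
open Fermat.Agent.CFT.Brauer (GQ Qb LocalAt Pulled pulled_comap CyclicOver fixF fixU muU toQ jAt)

variable {p : ℕ} [Fact p.Prime]

/-- Two classes of `H²(μ_p)` of a local field are proportional. -/
theorem exists_smul_eq {G : Type} [Group G] {r : G →* GQ} {q : ℕ} [Fact q.Prime]
    {j : Qb →+* PadicAlgCl q} (hloc : LocalAt j r.range)
    (x y : GalCoh.H2 (localLevels r) ((muRep p).comp r)) (hx : x ≠ 0) : ∃ a : ZMod p, y = a • x := by
  obtain ⟨f, rfl⟩ := H2mk_surjective x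
  obtain ⟨f', rfl⟩ := H2mk_surjective y
  have hP := pulled_comap r
  have hne : toQ r (f : _ → ZMod p) ∉ CFT.Brauer.B2 r.range := fun h =>
    hx (H2mk_eq_zero_iff.mpr ((hP.mem_B2_iff f.2).mpr h))
  have hp0 : ∀ k : ↥(GalCoh.Z2 (localLevels r) ((muRep p).comp r)),
      toQ r (k : _ → ZMod p) ^ p ∈ CFT.Brauer.B2 r.range := fun k => by
    rw [CFT.Brauer.toQ_pow_p]; exact one_mem _
  obtain ⟨i, hi⟩ := CFT.Brauer.exists_pow_div_mem_B2 hloc (hP.toQ_mem_Z2 f.2) (hp0 f) hne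
    (hP.toQ_mem_Z2 f'.2) (hp0 f')
  refine ⟨(i : ZMod p), ?_⟩
  rw [← map_smul, H2mk_eq_iff]
  refine (hP.mem_B2_iff (sub_mem f'.2 (Submodule.smul_mem _ _ f.2))).mpr ?_
  have hpow : toQ r (f : _ → ZMod p) ^ (i : ZMod p).val = toQ r (f : _ → ZMod p) ^ i := by
    rw [ZMod.val_natCast]
    exact (pow_eq_pow_mod i (CFT.Brauer.toQ_pow_p _)).symm
  rw [CFT.Brauer.toQ_sub, CFT.Brauer.toQ_smul, hpow]
  exact hi

/-- The trace of a level of `G_ℚ` on the local group. -/
abbrev lvl (N : Subgroup GQ) (q : Nat.Primes) : Subgroup (placeGroup (Sum.inr q)) :=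
  N.comap (placeLoc (Sum.inr q))

/-- The map of the trace into `G_ℚ`. -/
abbrev lvlLoc (N : Subgroup GQ) (q : Nat.Primes) : ↥(lvl N q) →* GQ :=
  (placeLoc (Sum.inr q)).comp (lvl N q).subtype

theorem exists_sum_congr {G : Type} [Group G] {L : Levels G}
    {τ : Representation (ZMod p) G (ZMod p)} (i : GalCoh.H2 L τ →ₗ[ZMod p] ZMod p)
    {K H : Subgroup G} (e : K = H) [fK : Fintype (G ⧸ K)] [fH : Fintype (G ⧸ H)]
    (z : GalCoh.H2 L (permRep τ (G ⧸ K)))
    (h : i ((Mor.ofMap L (sumMap τ (G ⧸ K))).map₂ z) ≠ 0) :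
    ∃ z', i ((Mor.ofMap L (sumMap τ (G ⧸ H))).map₂ z') ≠ 0 := by
  subst e
  obtain rfl : fK = fH := Subsingleton.elim _ _
  exact ⟨z, h⟩

variable {N : Subgroup GQ} (q : Nat.Primes)

theorem localAt_placeLoc [Fact (q : ℕ).Prime] :
    LocalAt (jAt q 1) (placeLoc (Sum.inr q)).range ∧
      ∀ x ∈ fixF (placeLoc (Sum.inr q)).range,
        jAt q 1 x ∈ (⊥ : IntermediateField ℚ_[(q : ℕ)] (PadicAlgCl (q : ℕ))) := by
  have e : conjLoc (Sum.inr q) 1 = placeLoc (Sum.inr q) :=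
    MonoidHom.ext fun x => conjLoc_one (Sum.inr q) x
  refine ⟨e ▸ CFT.Brauer.localAt_range q 1, fun x hx => ?_⟩
  have : Normal ℚ_[(q : ℕ)] (PadicAlgCl (q : ℕ)) := IsAlgClosure.normal _ _
  have : IsGalois ℚ_[(q : ℕ)] (PadicAlgCl (q : ℕ)) := IsGalois.mk
  rw [IntermediateField.mem_bot]
  refine (InfiniteGalois.mem_range_algebraMap_iff_fixed _).mpr fun τ => ?_
  rw [← CFT.Brauer.jAt_conjLoc, e, CFT.Brauer.mem_fixF.mp hx _ ⟨τ, rfl⟩]

theorem localAt_lvl [Fact (q : ℕ).Prime] (hN : fullLevels.mem N) :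
    LocalAt (jAt q 1) (lvlLoc N q).range := by
  refine (localAt_placeLoc q).1.of_isOpenIn ⟨?_, ?_⟩
  · rintro _ ⟨x, rfl⟩
    exact ⟨_, rfl⟩
  · obtain ⟨F, hF, hFN⟩ := hN
    refine ⟨F, hF, ?_⟩
    rintro _ ⟨x, rfl⟩ hx
    exact ⟨⟨x, hFN hx⟩, rfl⟩

theorem comap_lvl :
    (localLevels (placeLoc (Sum.inr q))).comap (lvl N q).subtype = localLevels (lvlLoc N q) :=
  Levels.comap_comap _ _ _

theorem isHom_iff {χ : ↥(lvl N q) → ZMod p} :
    IsHom (localLevels (placeLoc (Sum.inr q))) (lvl N q) χ ↔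
      (∀ a b, χ (a * b) = χ a + χ b) ∧ (localLevels (lvlLoc N q)).IsCts₁ χ := by
  rw [IsHom, comap_lvl]

variable (hN : IsSplittingLevel p N)

include hN in
theorem cycloChar_lvlLoc (x : ↥(lvl N q)) : cycloChar p (lvlLoc N q x) = 1 := hN.mu _ x.2

include hN in
theorem mem_lvl : (localLevels (placeLoc (Sum.inr q))).mem (lvl N q) := ⟨N, hN.mem, le_rfl⟩

include hN in
theorem repSystem_lvl :
    CFT.Brauer.RepSystem (placeLoc (Sum.inr q)).range (lvlLoc N q).range
      fun x : placeGroup (Sum.inr q) ⧸ lvl N q => placeLoc (Sum.inr q) x.out := by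
  refine ⟨⟨?_, ?_⟩, ?_, fun x => ⟨_, rfl⟩, ?_, ?_⟩
  · rintro _ ⟨x, rfl⟩
    exact ⟨_, rfl⟩
  · obtain ⟨F, hF, hFN⟩ := hN.mem
    refine ⟨F, hF, ?_⟩
    rintro _ ⟨x, rfl⟩ hx
    exact ⟨⟨x, hFN hx⟩, rfl⟩
  · rintro _ ⟨a, rfl⟩ _ ⟨b, rfl⟩
    exact ⟨⟨a⁻¹ * b * a, by simpa using (hN.normal.comap _).conj_mem _ b.2 a⁻¹⟩, by simp⟩
  · rintro _ ⟨a, rfl⟩
    exact ⟨(a : placeGroup (Sum.inr q) ⧸ lvl N q),
      ⟨⟨_, QuotientGroup.eq.mp (QuotientGroup.out_eq' (a : placeGroup (Sum.inr q) ⧸ lvl N q))⟩, by simp⟩⟩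
  · intro i k ⟨b, hb⟩
    rw [← QuotientGroup.out_eq' i, ← QuotientGroup.out_eq' k, QuotientGroup.eq]
    have hb' : placeLoc (Sum.inr q) b = placeLoc (Sum.inr q) (i.out⁻¹ * k.out) := by
      rw [map_mul, map_inv]; exact hb
    show placeLoc (Sum.inr q) (i.out⁻¹ * k.out) ∈ N
    rw [← hb']
    exact b.2

include hN in
set_option backward.isDefEq.respectTransparency false in
/-- The invariant of a sum over the cosets of the trace detects something. -/
theorem exists_inv_sum_ne_zero (hC : CFTInputs p) {inv : InvFamily p} (hinv : inv.IsReciprocal)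
    [Fintype (placeGroup (Sum.inr q) ⧸ lvl N q)] :
    ∃ z : GalCoh.H2 (localLevels (placeLoc (Sum.inr q)))
        (permRep ((muRep p).comp (placeLoc (Sum.inr q))) (placeGroup (Sum.inr q) ⧸ lvl N q)),
      inv (Sum.inr q) ((Mor.ofMap _ (sumMap ((muRep p).comp (placeLoc (Sum.inr q)))
        (placeGroup (Sum.inr q) ⧸ lvl N q))).map₂ z) ≠ 0 := by
  classical
  have hNn := hN.normal
  obtain ⟨S₁, hS₁⟩ := exists_veryLarge hC.descentS hN
  obtain ⟨q₀, hq₀q, hq₀, -⟩ := exists_frobenius_split hN.mem hN.mem hNn N.one_mem {q}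
  rw [Finset.mem_singleton] at hq₀q
  set S := S₁ ∪ {q, q₀}
  have h := hS₁ S Finset.subset_union_left
  have hqS : q ∈ S := by simp [S]
  have hq₀S : q₀ ∈ S := by simp [S]
  have := finite_quotient h.large.level
  let : Fintype (GQ ⧸ N) := Fintype.ofFinite _
  have hns : ¬ SamePlace N (Sum.inr q₀) 1 (Sum.inr q) 1 := fun hs => hq₀q (Sum.inr.inj hs.1)
  obtain ⟨y₀, hy2, hy3⟩ :=
    (hC.twoPlaceClasses N hN.mem hNn hN.mu hN.complex q₀ hq₀ 1).1 q 1 hns
  obtain ⟨y, hy⟩ := (h.large.good N le_rfl).surj y₀ fun v' g' hv' => by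
    refine hy3 v' g' (fun hs => hv' ?_) fun hs => hv' ?_
    · obtain ⟨rfl, -⟩ := hs; exact hq₀S
    · obtain ⟨rfl, -⟩ := hs; exact hqS
  have hyc : ∀ v' g', compS p S N v' g' y = (placeMor p N v' g').map₂ y₀ := fun v' g' => by
    rw [compS, LinearMap.comp_apply, hy]
  have hcts : IsCtsRep (levelsS S) (muRep p) := h.large.isCtsRep_muRep
  obtain ⟨W1, hW1⟩ := (evalMor_map₂_bijective hcts h.large.level).2 y
  let e : extArithIndex S → ZMod p := fun u => inv (toPlace u)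
    ((Mor.res (levelsS S) (localLevels (locAt S u)) (muRep p) (locAt S u)
      (compat_locAt S u)).map₂ ((Mor.ofMap (levelsS S) (sumMap (muRep p) (GQ ⧸ N))).map₂ W1))
  let u₀ : extArithIndex S := Sum.inr ⟨q₀, hq₀S⟩
  let u₁ : extArithIndex S := Sum.inr ⟨q, hqS⟩
  have hne' : u₀ ≠ u₁ := fun he => hq₀q (congrArg Subtype.val (Sum.inr.inj he))
  have hsupp : ∀ u, u ≠ u₀ → u ≠ u₁ → ∀ a : GQ, compS p S N (toPlace u) a⁻¹ y = 0 := by
    intro u hu hu' a
    rw [hyc]
    refine hy3 _ _ (fun hs => hu ?_) fun hs => hu' ?_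
    all_goals
      obtain ⟨he, -⟩ := hs
      rcases u with u | u
      · simp [toPlace] at he
      · simp only [toPlace, Sum.inr.injEq] at he
        exact congrArg Sum.inr (Subtype.ext he.symm)
  have hrec : e u₀ + e u₁ = 0 := by
    refine (GW.finite_range_sum e u₀ u₁ hne' fun u hu hu' => ?_).symm.trans
      (hinv.2 S h.large.p_mem _)
    have : (Mor.res (levelsS S) (localLevels (locAt S u)) (muRep p) (locAt S u)
        (compat_locAt S u)).map₂
          ((Mor.ofMap (levelsS S) (sumMap (muRep p) (GQ ⧸ N))).map₂ W1) = 0 := by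
      let := pullAction (locAt S u) (GQ ⧸ N)
      refine res_sumMap_eq_zero (locAt S u) (compat_locAt S u) hcts (fun x => ?_) W1 fun x => ?_
      · refine ⟨N, by simpa using compat_levelsS S h.large.level, fun d hd => ?_⟩
        exact smul_eq_self_of_normal hNn le_rfl hd x
      · obtain ⟨a, rfl⟩ := QuotientGroup.mk_surjective x
        exact GW.pointMor_res_eq_zero W1 y hW1 u a (hsupp u hu hu' a)
    simp only [e, this, map_zero]
  have he0 : e u₀ ≠ 0 := by
    intro he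
    refine hy2 ?_
    rw [← hyc]
    have hz := (injective_iff_map_eq_zero _).mp (hinv.1 _) _ he
    have hfix : ∀ (x : GQ ⧸ N) d, locAt S u₀ d • x = x := fun x d =>
      splitIn_smul_eq hq₀ hNn le_rfl d x
    let := pullAction (locAt S u₀) (GQ ⧸ N)
    have hproj := (res_sumMap_eq_proj (locAt S u₀) (compat_locAt S u₀) hfix (placePoint N 1) W1
      fun x hx => ?_).symm.trans hz
    · have h2 := congrArg (toSplit p N (Sum.inr q₀) 1).map₂ hproj
      replace h2 := h2.trans (map_zero _)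
      have e1 := placeMor_evalMor (p := p) (K := N) (compat_levelsS S) (Sum.inr q₀) (1 : GQ) W1
      rw [hW1, forgetOn_levelsS] at e1
      refine e1.trans (Eq.trans ?_ h2)
      refine Eq.trans ?_ (Mor.map₂_map₂
        (projMor (levelsS S) (localLevels (locAt S u₀)) (muRep p) (GQ ⧸ N) (locAt S u₀)
          (compat_locAt S u₀) (placePoint N 1) fun d => hfix _ d)
        (toSplit p N (Sum.inr q₀) 1) W1).symm
      exact Mor.map₂_congr rfl rfl W1
    · obtain ⟨a, rfl⟩ := QuotientGroup.mk_surjective x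
      refine projMor_eq_zero_of_pointMor _ _ _ _ _ (GW.pointMor_res_eq_zero W1 y hW1 u₀ a ?_)
      rw [hyc]
      refine hy3 _ _ (fun hs => hx ?_) fun hs => hq₀q (Sum.inr.inj hs.1).symm
      obtain ⟨-, n, hn, d, hd⟩ := hs
      rw [placePoint, QuotientGroup.eq, inv_one, mul_one, hd, mul_one]
      exact N.mul_mem hn (hq₀ d)
  have he1 : e u₁ ≠ 0 := fun h1 => he0 (by rwa [h1, add_zero] at hrec)
  -- one orbit carries the invariant
  let := pullAction (locAt S u₁) (GQ ⧸ N)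
  have : Fintype (orbitRel.Quotient (placeGroup (toPlace u₁)) (GQ ⧸ N)) := Fintype.ofFinite _
  set W := (permRes (levelsS S) (localLevels (locAt S u₁)) (muRep p) (GQ ⧸ N) (locAt S u₁)
    (compat_locAt S u₁)).map₂ W1
  have hW : inv (toPlace u₁) ((Mor.ofMap _ (sumMap ((muRep p).comp (locAt S u₁))
      (GQ ⧸ N))).map₂ W) ≠ 0 := fun h1 => he1 (by
    refine Eq.trans ?_ h1
    exact congrArg _ (res_sumMap (locAt S u₁) (compat_locAt S u₁) W1))
  rw [← sum_map₂_orbit W, map_sum, map_sum] at hW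
  obtain ⟨o, -, ho⟩ := Finset.exists_ne_zero_of_sum_ne_zero hW
  have hst : stabilizer (placeGroup (toPlace u₁)) o.out = lvl N q := by
    obtain ⟨a, ha⟩ := QuotientGroup.mk_surjective o.out
    ext d
    rw [mem_stabilizer_iff, ← ha]
    show placeLoc (Sum.inr q) d • (a : GQ ⧸ N) = a ↔ placeLoc (Sum.inr q) d ∈ N
    rw [MulAction.Quotient.smul_coe, QuotientGroup.eq, smul_eq_mul]
    constructor
    · intro hd
      have := N.inv_mem (hNn.conj_mem _ hd a)
      simpa [mul_assoc] using this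
    · intro hd
      have := hNn.conj_mem _ (N.inv_mem hd) a⁻¹
      simpa [mul_assoc] using this
  have : Finite (placeGroup (toPlace u₁) ⧸ stabilizer (placeGroup (toPlace u₁)) o.out) :=
    Finite.of_injective _ (injective_ofQuotientStabilizer _ o.out)
  let : Fintype (placeGroup (toPlace u₁) ⧸ stabilizer (placeGroup (toPlace u₁)) o.out) :=
    Fintype.ofFinite _
  set z := (Mor.ofMap (localLevels (locAt S u₁))
    (orbitPull ((muRep p).comp (locAt S u₁)) o.out)).map₂ W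
  have key : inv (toPlace u₁) ((Mor.ofMap _ (sumMap ((muRep p).comp (locAt S u₁))
      (placeGroup (toPlace u₁) ⧸ stabilizer (placeGroup (toPlace u₁)) o.out))).map₂ z) ≠ 0 := by
    intro h1
    refine ho (Eq.trans (congrArg _ ?_) h1)
    obtain ⟨F, hF⟩ := H2mk_surjective z
    rw [← hF, Mor.map₂_mk, Mor.map₂_mk, Mor.map₂_mk]
    refine congrArg _ (Subtype.ext (funext fun t => ?_))
    exact sumMap_pushMap (ρ := (muRep p).comp (locAt S u₁)) (orbitHom o.out) _
  exact exists_sum_congr (inv (Sum.inr q)) hst z key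

include hN in
/-- The homomorphisms of the trace are at most `2 + [p = q] · index` dimensional. -/
theorem finrank_homs_lvl_le (M : Submodule (ZMod p) (↥(lvl N q) → ZMod p))
    (hM : ∀ χ ∈ M, IsHom (localLevels (placeLoc (Sum.inr q))) (lvl N q) χ) :
    FiniteDimensional (ZMod p) M ∧ finrank (ZMod p) M ≤
      2 + if p = (q : ℕ) then (lvl N q).index else 0 := by
  have : Fact (q : ℕ).Prime := ⟨q.2⟩
  have : Finite (placeGroup (Sum.inr q) ⧸ lvl N q) := finite_quotient (mem_lvl q hN)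
  let : Fintype (placeGroup (Sum.inr q) ⧸ lvl N q) := Fintype.ofFinite _
  classical
  have R := repSystem_lvl q hN
  have hbase := (localAt_placeLoc q).2
  have hloc := localAt_lvl q hN.mem
  obtain ⟨hb0, hb⟩ := relIndex_pow_le (j := jAt q 1) (p := p) R hbase hloc
  rw [← Nat.card_eq_fintype_card, ← Subgroup.index_eq_card] at hb
  have hM' : ∀ χ ∈ M, (∀ a b, χ (a * b) = χ a + χ b) ∧ (localLevels (lvlLoc N q)).IsCts₁ χ :=
    fun χ hχ => (isHom_iff q).mp (hM χ hχ)
  obtain ⟨r1, r2⟩ := finrank_homs_le (r := lvlLoc N q) (cycloChar_lvlLoc q hN) (b := _) hb0 hb M hM'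
  exact ⟨r1, r2⟩

include hN in
/-- **The local theory at a prime.** -/
theorem localTheory (hC : CFTInputs p) {inv : InvFamily p} (hinv : inv.IsReciprocal) :
    LocalTheory (localLevels (placeLoc (Sum.inr q))) ((muRep p).comp (placeLoc (Sum.inr q)))
      (inv (Sum.inr q)) (lvl N q) := by
  have : Fact (q : ℕ).Prime := ⟨q.2⟩
  have hloc := localAt_lvl q hN.mem
  have hmu := cycloChar_lvlLoc q hN
  have hctsτ : IsCtsRep (localLevels (placeLoc (Sum.inr q)))
      ((muRep p).comp (placeLoc (Sum.inr q))) :=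
    ⟨lvl N q, mem_lvl q hN, fun d hd => LinearMap.ext fun c => by
      simp [muRep_apply, hN.mu _ hd]⟩
  refine ⟨hN.normal.comap _, mem_lvl q hN, fun d hd => LinearMap.ext fun c => by
    simp [muRep_apply, hN.mu _ hd], fun ft z hz => ?_, fun χ hχ hne => ?_, ?_, fun M hM => ?_⟩
  · obtain ⟨W, hW⟩ := exists_inv_sum_ne_zero q hN hC hinv
    set Φ := inv (Sum.inr q) ∘ₗ (Mor.ofMap (localLevels (placeLoc (Sum.inr q)))
      (sumMap ((muRep p).comp (placeLoc (Sum.inr q))) (placeGroup (Sum.inr q) ⧸ lvl N q))).map₂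
    change Φ z = 0 at hz
    change Φ W ≠ 0 at hW
    let E := shapiro₂ (localLevels (placeLoc (Sum.inr q))) hctsτ (mem_lvl q hN)
    have hEW : E W ≠ 0 := fun h0 => hW (by rw [E.map_eq_zero_iff.mp h0, map_zero])
    have hcyc : ∀ x y : GalCoh.H2 ((localLevels (placeLoc (Sum.inr q))).comap (lvl N q).subtype)
        (((muRep p).comp (placeLoc (Sum.inr q))).comp (lvl N q).subtype),
        x ≠ 0 → ∃ a : ZMod p, y = a • x := by
      rw [comap_lvl]
      exact fun x y hx => exists_smul_eq hloc x y hx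
    obtain ⟨a, ha⟩ := hcyc _ (E z) hEW
    have hz' : z = a • W := E.injective (by rw [ha, map_smul])
    rw [hz', map_smul, smul_eq_mul] at hz
    rw [hz', (mul_eq_zero.mp hz).resolve_right hW, zero_smul]
  · obtain ⟨hadd, hcts⟩ := (isHom_iff q).mp hχ
    obtain ⟨κ, hκa, hκc, hB⟩ := exists_cup_notMem_B2 hmu hloc hadd hcts hne
    refine ⟨κ, (isHom_iff q).mpr ⟨hκa, hκc⟩, ?_⟩
    rw [comap_lvl]
    exact hB
  · obtain ⟨ζ, σ, -, -, -, h⟩ := CFT.Brauer.exists_unramified hloc (Fact.out : p.Prime).pos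
    obtain ⟨g, hg⟩ := h.mem
    refine ⟨fun x => (h.idx (lvlLoc N q x) : ZMod p), (isHom_iff q).mpr ⟨fun a b => ?_, ?_⟩, g, ?_⟩
    · simp only [map_mul, h.idx_mul ⟨a, rfl⟩ ⟨b, rfl⟩, ZMod.natCast_mod, Nat.cast_add]
    · obtain ⟨F, hF, hFi⟩ := h.cts₁_comp fun i => (i : ZMod p)
      refine ⟨F.fixingSubgroup.comap (lvlLoc N q),
        ((pulled_comap (lvlLoc N q)).mem_iff _).mpr ⟨F, hF, le_rfl⟩, fun x s hs => ?_⟩
      simp only [map_mul, hFi _ ⟨x, rfl⟩ _ ⟨s, rfl⟩ hs]
    · show (h.idx (lvlLoc N q g) : ZMod p) ≠ 0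
      rw [hg, show h.idx σ = 1 % p by simpa using h.idx_pow 1,
        Nat.mod_eq_of_lt (Fact.out : p.Prime).one_lt, Nat.cast_one]
      exact one_ne_zero
  · exact (finrank_homs_lvl_le q hN M hM).1

end Fermat.Agent.RowS55
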