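import Fermat.Agent.RowS55.Adjoint
import Fermat.Agent.RowS55.DualModules
import Fermat.Agent.RowS55.LocalBase
import Fermat.Agent.RowS55.ConstSes

/-!
# Local duality and the local Euler characteristic bound at a prime
-/

noncomputable section

namespace Fermat.Agent.RowS55

open Fermat.Agent.GalCoh Module MulAction ExtCitation
open Representation (IntertwiningMap)

local notation "Γ" => (AlgebraicClosure ℚ ≃ₐ[ℚ] AlgebraicClosure ℚ)

variable {p : ℕ} [Fact p.Prime] {V : Type} [AddCommGroup V] [Module (ZMod p) V]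

/-- Restriction to the local group at `q`. -/
abbrev atQ (q : Nat.Primes) (ρ : Representation (ZMod p) Γ V) :
    Representation (ZMod p) (placeGroup (Sum.inr q)) V := ρ.comp (placeLoc (Sum.inr q))

/-- The local levels at `q`. -/
abbrev LQ (q : Nat.Primes) : Levels (placeGroup (Sum.inr q)) := localLevels (placeLoc (Sum.inr q))

/-- The local `h⁰`. -/
def h0Q (q : Nat.Primes) (ρ : Representation (ZMod p) Γ V) : ℕ :=
  finrank (ZMod p) (H0 (atQ q ρ))

/-- The local `h¹`. -/
def h1Q (q : Nat.Primes) (ρ : Representation (ZMod p) Γ V) : ℕ :=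
  finrank (ZMod p) (H1 (LQ q) (atQ q ρ))

theorem evPairing_injective (ρ : Representation (ZMod p) Γ V) :
    Function.Injective (evPairing ρ).e :=
  Module.eval_apply_injective (ZMod p)

theorem evPairing_flip_injective (ρ : Representation (ZMod p) Γ V) :
    Function.Injective (evPairing ρ).e.flip :=
  fun _ _ h => LinearMap.ext fun v => LinearMap.congr_fun h v

variable {N : Subgroup Γ} (hN : IsSplittingLevel p N) (hC : CFTInputs p) {inv : InvFamily p}
  (hinv : inv.IsReciprocal) {ρ : Representation (ZMod p) Γ V}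

include hN in
theorem dualMu_trivial (hρ : ∀ x ∈ N, ρ x = 1) : ∀ x ∈ N, dualMu ρ x = 1 :=
  GW.trivial_dualMu ρ hN hρ

include hN in
theorem isCtsRep_atQ (q : Nat.Primes) (hρ : ∀ x ∈ N, ρ x = 1) : IsCtsRep (LQ q) (atQ q ρ) :=
  ⟨lvl N q, mem_lvl q hN, fun _ hd => hρ _ hd⟩

include hN hC hinv in
theorem finiteDimensional_H1Q (q : Nat.Primes) [FiniteDimensional (ZMod p) V]
    (hρ : ∀ x ∈ N, ρ x = 1) : FiniteDimensional (ZMod p) (H1 (LQ q) (atQ q ρ)) :=
  (localTheory q hN hC hinv).finiteDimensional_H1 fun _ hd => hρ _ hd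

include hC hinv in
/-- **Local duality at a prime.** -/
theorem perfect_atQ (q : Nat.Primes) [FiniteDimensional (ZMod p) V] (hρ : ∀ x ∈ N, ρ x = 1)
    (hd : IsCtsRep (LQ q) (atQ q (dualMu ρ))) (hN : IsSplittingLevel p N) :
    Function.Injective (cupInv (inv (Sum.inr q)) ((evPairing ρ).res (placeLoc (Sum.inr q))) hd) ∧
      Function.Injective
        (cupInv (inv (Sum.inr q)) ((evPairing ρ).res (placeLoc (Sum.inr q))) hd).flip :=
  (localTheory q hN hC hinv).cupInv_perfect _ (fun _ h => hρ _ h)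
    (fun _ h => dualMu_trivial hN hρ _ h) (evPairing_injective ρ) (evPairing_flip_injective ρ) hd

include hN hC hinv in
/-- The dimension identity at a prime. -/
theorem local_identity (q : Nat.Primes) {A B C : Type} [AddCommGroup A] [Module (ZMod p) A]
    [AddCommGroup B] [Module (ZMod p) B] [AddCommGroup C] [Module (ZMod p) C]
    [FiniteDimensional (ZMod p) A] [FiniteDimensional (ZMod p) B] [FiniteDimensional (ZMod p) C]
    {α : Representation (ZMod p) Γ A} {β : Representation (ZMod p) Γ B}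
    {γ : Representation (ZMod p) Γ C} (Q : Ses α β γ) (hα : ∀ x ∈ N, α x = 1)
    (hβ : ∀ x ∈ N, β x = 1) (hγ : ∀ x ∈ N, γ x = 1) :
    h1Q q α + h1Q q γ + h0Q q β + h0Q q (dualMu β) =
      h1Q q β + h0Q q α + h0Q q γ + h0Q q (dualMu α) + h0Q q (dualMu γ) := by
  obtain ⟨Q', hi, hj⟩ := exists_dual_ses Q
  have := finiteDimensional_H1Q hN hC hinv q hα
  have := finiteDimensional_H1Q hN hC hinv q hβ
  have := finiteDimensional_H1Q hN hC hinv q hγ
  have := finiteDimensional_H1Q hN hC hinv q (dualMu_trivial hN hγ)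
  have hβ' := isCtsRep_atQ hN q (dualMu_trivial hN hβ)
  have hγ' := isCtsRep_atQ hN q (dualMu_trivial hN hγ)
  exact finrank_identity (inv := inv (Sum.inr q)) (resSes (placeLoc (Sum.inr q)) Q)
    (resSes (placeLoc (Sum.inr q)) Q') (isCtsRep_atQ hN q hβ) hβ' hγ'
    ((evPairing β).res (placeLoc (Sum.inr q))) ((evPairing γ).res (placeLoc (Sum.inr q)))
    (fun b c' => by
      show c' (Q.j b) = Q'.i c' b
      rw [hi]
      rfl)
    (perfect_atQ hC hinv q hβ hβ' hN).2 (perfect_atQ hC hinv q hγ hγ' hN).1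
    (perfect_atQ hC hinv q hγ hγ' hN).2

theorem stabilizer_pull (hNn : N.Normal) (q : Nat.Primes) (x : Γ ⧸ N) :
    letI := pullAction (placeLoc (Sum.inr q)) (Γ ⧸ N)
    stabilizer (placeGroup (Sum.inr q)) x = lvl N q := by
  let := pullAction (placeLoc (Sum.inr q)) (Γ ⧸ N)
  obtain ⟨a, rfl⟩ := QuotientGroup.mk_surjective x
  ext d
  rw [mem_stabilizer_iff]
  show placeLoc (Sum.inr q) d • (a : Γ ⧸ N) = a ↔ placeLoc (Sum.inr q) d ∈ N
  rw [MulAction.Quotient.smul_coe, QuotientGroup.eq, smul_eq_mul]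
  constructor
  · intro hd
    have := N.inv_mem (hNn.conj_mem _ hd a)
    simpa [mul_assoc] using this
  · intro hd
    have := hNn.conj_mem _ (N.inv_mem hd) a⁻¹
    simpa [mul_assoc] using this

include hN in
theorem finrank_H1_sub_le (q : Nat.Primes) [FiniteDimensional (ZMod p) V]
    (hρ : ∀ x ∈ N, ρ x = 1) (K : Subgroup (placeGroup (Sum.inr q))) (hK : K = lvl N q) :
    FiniteDimensional (ZMod p) (H1 ((LQ q).comap K.subtype) ((atQ q ρ).comp K.subtype)) ∧
      finrank (ZMod p) (H1 ((LQ q).comap K.subtype) ((atQ q ρ).comp K.subtype)) ≤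
        finrank (ZMod p) V * (2 + if p = (q : ℕ) then (lvl N q).index else 0) := by
  subst hK
  let M : Submodule (ZMod p) (↥(lvl N q) → ZMod p) :=
    { carrier := {χ | IsHom (LQ q) (lvl N q) χ}
      zero_mem' := ⟨fun _ _ => by simp, Levels.isCts₁_const 0⟩
      add_mem' := fun {χ κ} hχ hκ => ⟨fun a c => by
        simp only [Pi.add_apply, hχ.1, hκ.1]; abel, hχ.2.add hκ.2⟩
      smul_mem' := fun c χ hχ => ⟨fun a b => by simp [hχ.1, mul_add], hχ.2.comp (c • ·)⟩ }
  obtain ⟨hfin, hle⟩ := finrank_homs_lvl_le q hN M fun χ hχ => hχ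
  let Z := Z1 ((LQ q).comap (lvl N q).subtype) ((atQ q ρ).comp (lvl N q).subtype)
  let b := Module.finBasis (ZMod p) V
  let Φ : ↥Z →ₗ[ZMod p] Fin (finrank (ZMod p) V) → M :=
    LinearMap.pi fun i => (((b.coord i).compLeft ↥(lvl N q)) ∘ₗ Z.subtype).codRestrict M fun c =>
      ⟨fun a d => by
        obtain ⟨hc, -⟩ := mem_Z1_iff.mp c.2
        show b.coord i ((c : ↥(lvl N q) → V) (a * d)) =
          b.coord i ((c : ↥(lvl N q) → V) a) + b.coord i ((c : ↥(lvl N q) → V) d)
        rw [hc, MonoidHom.comp_apply, show atQ q ρ ((lvl N q).subtype a) = 1 from hρ _ a.2,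
          Module.End.one_apply, add_comm, map_add],
      (mem_Z1_iff.mp c.2).2.comp (b.coord i)⟩
  have hΦ : Function.Injective Φ := (injective_iff_map_eq_zero Φ).mpr fun c hc =>
    Subtype.ext (funext fun a => b.forall_coord_eq_zero_iff.mp fun i =>
      congrFun (congrArg Subtype.val (congrFun hc i)) a)
  have hZ : FiniteDimensional (ZMod p) ↥Z := Module.Finite.of_injective Φ hΦ
  refine ⟨Module.Finite.of_surjective _ H1mk_surjective, ?_⟩
  have h1 := LinearMap.finrank_le_finrank_of_injective hΦ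
  rw [Module.finrank_pi_fintype, Finset.sum_const, Finset.card_univ, Fintype.card_fin,
    smul_eq_mul] at h1
  calc finrank (ZMod p) (H1 ((LQ q).comap (lvl N q).subtype) ((atQ q ρ).comp (lvl N q).subtype))
      ≤ finrank (ZMod p) ↥Z := LinearMap.finrank_le_finrank_of_surjective H1mk_surjective
    _ ≤ _ := h1.trans (Nat.mul_le_mul_left _ hle)

include hN in
/-- The Euler characteristic bound for a permutation module at a prime. -/
theorem perm_bound (q : Nat.Primes) [FiniteDimensional (ZMod p) V] [Fintype (Γ ⧸ N)]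
    (hρ : ∀ x ∈ N, ρ x = 1) :
    h1Q q (permRep ρ (Γ ⧸ N)) ≤ h0Q q (permRep ρ (Γ ⧸ N)) +
      h0Q q (dualMu (permRep ρ (Γ ⧸ N))) +
      if p = (q : ℕ) then finrank (ZMod p) (Γ ⧸ N → V) else 0 := by
  classical
  let := pullAction (placeLoc (Sum.inr q)) (Γ ⧸ N)
  let O := orbitRel.Quotient (placeGroup (Sum.inr q)) (Γ ⧸ N)
  let : Fintype O := Fintype.ofFinite _
  have hst := stabilizer_pull hN.normal q
  have hcts := isCtsRep_atQ hN q hρ
  have hX : ∀ x : Γ ⧸ N, (LQ q).mem (stabilizer (placeGroup (Sum.inr q)) x) := fun x => by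
    rw [hst]; exact mem_lvl q hN
  -- `h¹`
  have hfin : ∀ o : O, FiniteDimensional (ZMod p) (H1 ((LQ q).comap (stabilizer
      (placeGroup (Sum.inr q)) o.out).subtype)
      ((atQ q ρ).comp (stabilizer (placeGroup (Sum.inr q)) o.out).subtype)) :=
    fun o => (finrank_H1_sub_le hN q hρ _ (hst o.out)).1
  let Φ := LinearMap.pi fun o : O => (pointMor (LQ q) (atQ q ρ) o.out).map₁
  have hΦ : Function.Injective Φ := (injective_iff_map_eq_zero Φ).mpr fun z hz =>
    eq_zero_of_pointMor₁_eq_zero hcts hX z fun o => congrFun hz o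
  have h1 := LinearMap.finrank_le_finrank_of_injective hΦ
  rw [Module.finrank_pi_fintype] at h1
  have h1' : h1Q q (permRep ρ (Γ ⧸ N)) ≤
      Fintype.card O * (finrank (ZMod p) V * (2 + if p = (q : ℕ) then (lvl N q).index else 0)) := by
    rw [h1Q, atQ, permRep_comp]
    refine h1.trans ((Finset.sum_le_card_nsmul _ _ _ fun o _ =>
      (finrank_H1_sub_le hN q hρ _ (hst o.out)).2).trans ?_)
    rw [Finset.card_univ, smul_eq_mul]
  -- `h⁰`
  have h0 : Fintype.card O * finrank (ZMod p) V ≤ h0Q q (permRep ρ (Γ ⧸ N)) := by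
    rw [h0Q, atQ, permRep_comp, ← Nat.card_eq_fintype_card]
    exact mul_le_finrank_H0_perm fun x d hd => hρ _ (by rw [hst] at hd; exact hd)
  have h0' : Fintype.card O * finrank (ZMod p) V ≤ h0Q q (dualMu (permRep ρ (Γ ⧸ N))) := by
    refine le_trans ?_ (finrank_H0_le (resInt (placeLoc (Sum.inr q)) (permDual ρ (Γ ⧸ N)))
      (permDual_bijective ρ (Γ ⧸ N)).1)
    rw [permRep_comp, ← Nat.card_eq_fintype_card, ← Subspace.dual_finrank_eq]
    exact mul_le_finrank_H0_perm fun x d hd =>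
      dualMu_trivial hN hρ _ (by rw [hst] at hd; exact hd)
  have hcard : Fintype.card O * (lvl N q).index = Fintype.card (Γ ⧸ N) := by
    have hf : Finite (placeGroup (Sum.inr q) ⧸ lvl N q) := finite_quotient (mem_lvl q hN)
    have : ∀ o : O, Finite (placeGroup (Sum.inr q) ⧸ stabilizer (placeGroup (Sum.inr q)) o.out) :=
      fun o => by rw [hst]; exact hf
    rw [← Nat.card_eq_fintype_card, ← Nat.card_eq_fintype_card,
      Nat.card_congr (selfEquivSigmaOrbitsQuotientStabilizer (placeGroup (Sum.inr q)) (Γ ⧸ N)),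
      Nat.card_sigma]
    simp only [hst]
    rw [Finset.sum_const, Finset.card_univ, smul_eq_mul, ← Nat.card_eq_fintype_card,
      Subgroup.index_eq_card]
  rw [Module.finrank_pi_fintype, Finset.sum_const, Finset.card_univ, smul_eq_mul]
  split_ifs at h1' ⊢ with hpq
  · rw [← hcard]
    nlinarith [h1', h0, h0']
  · nlinarith [h1', h0, h0']

include hN hC hinv in
/-- **The local Euler characteristic bound**: a module split by `N` and its cokernel in the
permutation module together. -/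
theorem localEuler_le (q : Nat.Primes) [FiniteDimensional (ZMod p) V] [Fintype (Γ ⧸ N)]
    (hρ : ∀ x ∈ N, ρ x = 1) :
    h1Q q ρ + h1Q q (cokerRep ρ (Γ ⧸ N)) ≤
      h0Q q ρ + h0Q q (dualMu ρ) + h0Q q (cokerRep ρ (Γ ⧸ N)) +
        h0Q q (dualMu (cokerRep ρ (Γ ⧸ N))) +
        if p = (q : ℕ) then finrank (ZMod p) V +
          finrank (ZMod p) ((Γ ⧸ N → V) ⧸ constSub ρ (Γ ⧸ N)) else 0 := by
  have : Nonempty (Γ ⧸ N) := ⟨((1 : Γ) : Γ ⧸ N)⟩
  obtain ⟨Q, hQi, hQj⟩ := exists_const_ses ρ (Γ ⧸ N)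
  have hI : ∀ x ∈ N, permRep ρ (Γ ⧸ N) x = 1 := fun x hx =>
    LinearMap.ext fun f => funext fun y => by
      rw [permRep_apply, hρ x hx, smul_eq_self_of_normal hN.normal le_rfl (N.inv_mem hx)]
      rfl
  have hid := local_identity hN hC hinv q Q hρ hI fun x hx => cokerRep_eq_one ρ _ (hI x hx)
  have hb := perm_bound hN q hρ
  have hdim : finrank (ZMod p) V + finrank (ZMod p) ((Γ ⧸ N → V) ⧸ constSub ρ (Γ ⧸ N)) =
      finrank (ZMod p) (Γ ⧸ N → V) := by
    rw [← Submodule.finrank_quotient_add_finrank (constSub ρ (Γ ⧸ N)), add_comm]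
    congr 1
    refine (LinearMap.finrank_range_of_inj fun v w h => ?_).symm
    exact congrFun h ((1 : Γ) : Γ ⧸ N)
  split_ifs at hb ⊢ <;> omega

end Fermat.Agent.RowS55
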