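import Fermat.Agent.RowS55.Arch
import Fermat.Agent.RowS55.LocalEuler
import Fermat.Agent.GalCoh.GW.Statement
import Fermat.Agent.GalCoh.Euler.Transfer

/-!
# The Greenberg–Wiles formula with equality, for odd `p`
-/

noncomputable section

namespace Fermat.Agent.RowS55

open Fermat.Agent.GalCoh Module ExtCitation
open Representation (IntertwiningMap)

local notation "Γ" => (AlgebraicClosure ℚ ≃ₐ[ℚ] AlgebraicClosure ℚ)

variable {p : ℕ} [Fact p.Prime]

/-- The standing hypotheses: `N` is a splitting level unramified outside `S ∋ p`. -/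
structure Setup (p : ℕ) [Fact p.Prime] (S : Finset Nat.Primes) (inv : InvFamily p)
    (N : Subgroup Γ) : Prop where
  odd : p ≠ 2
  cft : CFTInputs p
  gw : GreenbergWilesLe p
  recip : inv.IsReciprocal
  p_mem : pPrime p ∈ S
  level : (levelsS S).mem N
  split : IsSplittingLevel p N

variable {S : Finset Nat.Primes} {inv : InvFamily p} {N : Subgroup Γ}
  {V : Type} [AddCommGroup V] [Module (ZMod p) V] {ρ : Representation (ZMod p) Γ V}

section Ev

/-- Evaluation into the bidual. -/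
def evInt [FiniteDimensional (ZMod p) V] (ρ : Representation (ZMod p) Γ V) :
    IntertwiningMap ρ (dualMu (dualMu ρ)) :=
  LinearMap.intertwiningMap_of_isIntertwiningMap _ _ (Module.evalEquiv (ZMod p) V).toLinearMap
    fun g v => LinearMap.ext fun f => by
      show f (ρ g v) = dualMu (dualMu ρ) g (Module.Dual.eval (ZMod p) V v) f
      rw [dualMu_apply, Module.Dual.eval_apply, dualMu_apply, inv_inv, ← mul_assoc, map_inv,
        Units.mul_inv, one_mul]

/-- Its inverse. -/
def evInv [FiniteDimensional (ZMod p) V] (ρ : Representation (ZMod p) Γ V) :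
    IntertwiningMap (dualMu (dualMu ρ)) ρ :=
  LinearMap.intertwiningMap_of_isIntertwiningMap _ _ (Module.evalEquiv (ZMod p) V).symm.toLinearMap
    fun g f => (Module.evalEquiv (ZMod p) V).injective (by
      show Module.evalEquiv (ZMod p) V ((Module.evalEquiv (ZMod p) V).symm _) =
        evInt ρ (ρ g ((Module.evalEquiv (ZMod p) V).symm f))
      rw [(evInt ρ).isIntertwining]
      show _ = dualMu (dualMu ρ) g (Module.evalEquiv (ZMod p) V ((Module.evalEquiv (ZMod p) V).symm f))
      rw [LinearEquiv.apply_symm_apply, LinearEquiv.apply_symm_apply])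

/-- A module and its bidual have the same first cohomology. -/
def evEquiv₁ [FiniteDimensional (ZMod p) V] (L : Levels Γ) (ρ : Representation (ZMod p) Γ V) :
    H1 L ρ ≃ₗ[ZMod p] H1 L (dualMu (dualMu ρ)) :=
  Euler.equiv₁ (Mor.ofMap L (evInt ρ)) (Mor.ofMap L (evInv ρ)) (fun _ => rfl) (fun _ => rfl)
    (Module.evalEquiv (ZMod p) V).symm_apply_apply (Module.evalEquiv (ZMod p) V).apply_symm_apply

theorem finrank_H0_bidual [FiniteDimensional (ZMod p) V] :
    finrank (ZMod p) (H0 (dualMu (dualMu ρ))) = finrank (ZMod p) (H0 ρ) :=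
  (Euler.equiv₀ (Mor.ofMap (levelsS ∅) (evInt ρ)) (Mor.ofMap (levelsS ∅) (evInv ρ))
    (Module.evalEquiv (ZMod p) V).symm_apply_apply
    (Module.evalEquiv (ZMod p) V).apply_symm_apply).finrank_eq.symm

end Ev

variable (hS : Setup p S inv N)
include hS

theorem Setup.isCtsRep {W : Type} [AddCommGroup W] [Module (ZMod p) W]
    {σ : Representation (ZMod p) Γ W} (hσ : ∀ x ∈ N, σ x = 1) : IsCtsRep (levelsS S) σ :=
  ⟨N, hS.level, hσ⟩

theorem Setup.dual_trivial (hρ : ∀ x ∈ N, ρ x = 1) : ∀ x ∈ N, dualMu ρ x = 1 :=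
  dualMu_trivial hS.split hρ

theorem Setup.finiteDimensional_local [FiniteDimensional (ZMod p) V] (hρ : ∀ x ∈ N, ρ x = 1)
    (u : extArithIndex S) :
    FiniteDimensional (ZMod p) (H1 (localLevels (locAt S u)) (ρ.comp (locAt S u))) := by
  rcases u with u | q
  · have := subsingleton_H1_inl hS.odd u ρ
    exact inferInstanceAs (FiniteDimensional (ZMod p)
      (H1 (localLevels (placeLoc (Sum.inl u))) (ρ.comp (placeLoc (Sum.inl u)))))
  · exact finiteDimensional_H1Q hS.split hS.cft hS.recip q.1 hρ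

theorem Setup.perfect [FiniteDimensional (ZMod p) V] (hρ : ∀ x ∈ N, ρ x = 1)
    (hd : IsCtsRep (levelsS S) (dualMu ρ)) (u : extArithIndex S) :
    Function.Injective (localPairing S ρ inv hd u) ∧
      Function.Injective (localPairing S ρ inv hd u).flip := by
  rcases u with u | q
  · have := subsingleton_H1_inl hS.odd u ρ
    have := subsingleton_H1_inl hS.odd u (dualMu ρ)
    exact ⟨fun a b _ => (show Subsingleton (H1 (localLevels (placeLoc (Sum.inl u)))
      (ρ.comp (placeLoc (Sum.inl u)))) from inferInstance).elim a b,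
      fun a b _ => (show Subsingleton (H1 (localLevels (placeLoc (Sum.inl u)))
      ((dualMu ρ).comp (placeLoc (Sum.inl u)))) from inferInstance).elim a b⟩
  · exact perfect_atQ hS.cft hS.recip q.1 hρ _ hS.split

theorem Setup.dualLocal_finrank [FiniteDimensional (ZMod p) V] (hρ : ∀ x ∈ N, ρ x = 1)
    (hd : IsCtsRep (levelsS S) (dualMu ρ)) (𝓛 : LocalConditions S ρ) (u : extArithIndex S) :
    finrank (ZMod p) (𝓛 u) + finrank (ZMod p) (dualLocal S ρ inv hd 𝓛 u) =
      finrank (ZMod p) (H1 (localLevels (locAt S u)) (ρ.comp (locAt S u))) ∧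
    ∀ a, (∀ b ∈ dualLocal S ρ inv hd 𝓛 u, localPairing S ρ inv hd u a b = 0) → a ∈ 𝓛 u :=
  haveI := hS.finiteDimensional_local hρ u
  haveI := hS.finiteDimensional_local (hS.dual_trivial hρ) u
  finrank_add_rightOrth _ (hS.perfect hρ hd u).1 (hS.perfect hρ hd u).2 (𝓛 u)

/-- The inequality read in both directions. -/
theorem Setup.gw_both [FiniteDimensional (ZMod p) V] (hρ : ∀ x ∈ N, ρ x = 1)
    (hd : IsCtsRep (levelsS S) (dualMu ρ)) (𝓛 : LocalConditions S ρ) :
    FiniteDimensional (ZMod p) (Sel S ρ 𝓛) ∧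
    FiniteDimensional (ZMod p) (Sel S (dualMu ρ) (dualLocal S ρ inv hd 𝓛)) ∧
    finrank (ZMod p) (Sel S ρ 𝓛) + finrank (ZMod p) (H0 (dualMu ρ))
        + ∑ u, finrank (ZMod p) (H0 (ρ.comp (locAt S u)))
      ≤ finrank (ZMod p) (Sel S (dualMu ρ) (dualLocal S ρ inv hd 𝓛))
        + finrank (ZMod p) (H0 ρ) + ∑ u, finrank (ZMod p) (𝓛 u) ∧
    finrank (ZMod p) (Sel S (dualMu ρ) (dualLocal S ρ inv hd 𝓛)) + finrank (ZMod p) (H0 ρ)
        + ∑ u, finrank (ZMod p) (H0 ((dualMu ρ).comp (locAt S u)))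
      ≤ finrank (ZMod p) (Sel S ρ 𝓛) + finrank (ZMod p) (H0 (dualMu ρ))
        + ∑ u, finrank (ZMod p) (dualLocal S ρ inv hd 𝓛 u) := by
  have hd2 := hS.dual_trivial hρ
  have hdd : IsCtsRep (levelsS S) (dualMu (dualMu ρ)) := hS.isCtsRep (hS.dual_trivial hd2)
  have := fun u => hS.finiteDimensional_local hρ u
  have := fun u => hS.finiteDimensional_local hd2 u
  obtain ⟨f1, f2, h1⟩ := hS.gw V S hS.p_mem ρ (hS.isCtsRep hρ) hd inv hS.recip 𝓛 fun u => inferInstance
  refine ⟨f1, f2, h1, ?_⟩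
  obtain ⟨-, f3, h2⟩ := hS.gw _ S hS.p_mem (dualMu ρ) (hS.isCtsRep hd2) hdd inv hS.recip
    (dualLocal S ρ inv hd 𝓛) fun u => inferInstance
  rw [finrank_H0_bidual] at h2
  refine h2.trans (Nat.add_le_add_right (Nat.add_le_add_right ?_ _) _)
  let ι : Sel S (dualMu (dualMu ρ)) (dualLocal S (dualMu ρ) inv hdd (dualLocal S ρ inv hd 𝓛)) →ₗ[ZMod p]
      Sel S ρ 𝓛 :=
    ((evEquiv₁ (levelsS S) ρ).symm.toLinearMap.comp (Submodule.subtype _)).codRestrict _ fun y => by
      obtain ⟨x, hx⟩ := (evEquiv₁ (levelsS S) ρ).surjective y.1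
      show (evEquiv₁ (levelsS S) ρ).symm y.1 ∈ _
      rw [← hx, LinearEquiv.symm_apply_apply, mem_Sel_iff]
      refine fun u => (hS.dualLocal_finrank hρ hd 𝓛 u).2 _ fun z hz => ?_
      have hy := (mem_dualLocal_iff S (dualMu ρ) inv hdd _ u _).mp
        ((mem_Sel_iff _ _ _ _).mp y.2 u) z hz
      rw [← hx] at hy
      obtain ⟨x, rfl⟩ := H1mk_surjective x
      have hflip : localPairing S (dualMu ρ) inv hdd u z
          (resAt S (dualMu (dualMu ρ)) u (evEquiv₁ (levelsS S) ρ (H1mk (levelsS S) ρ x))) =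
          cupInv (inv (toPlace u)) (flipPairing ((evPairing ρ).res (locAt S u)))
            ((hS.isCtsRep hρ).comp (compat_locAt S u)) z (resAt S ρ u (H1mk (levelsS S) ρ x)) := by
        obtain ⟨z, rfl⟩ := H1mk_surjective z
        refine congrArg (fun c => inv (toPlace u)
          (H2mk (localLevels (locAt S u)) ((muRep p).comp (locAt S u)) c)) (Subtype.ext (funext fun t => ?_))
        obtain ⟨d, d'⟩ := t
        show (dualMu (dualMu ρ) (locAt S u d) (evInt ρ ((x : Γ → V) (locAt S u d'))))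
            ((z : placeGroup (toPlace u) → Dual (ZMod p) V) d) =
          ((z : placeGroup (toPlace u) → Dual (ZMod p) V) d)
            (ρ (locAt S u d) ((x : Γ → V) (locAt S u d')))
        rw [← (evInt ρ).isIntertwining]
        rfl
      rw [hflip, cupInv_flip _ _ (hd.comp (compat_locAt S u)), neg_eq_zero] at hy
      exact hy
  exact LinearMap.finrank_le_finrank_of_injective (f := ι) fun a b h =>
    Subtype.ext ((evEquiv₁ (levelsS S) ρ).symm.injective (congrArg Subtype.val h :))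

/-- The local Euler characteristics add up to the dimension. -/
theorem Setup.sum_h1 [FiniteDimensional (ZMod p) V] (hρ : ∀ x ∈ N, ρ x = 1) :
    ∑ q : {q // q ∈ S}, h1Q q.1 ρ =
      (∑ q : {q // q ∈ S}, (h0Q q.1 ρ + h0Q q.1 (dualMu ρ))) + finrank (ZMod p) V := by
  classical
  have : Finite (Γ ⧸ N) := finite_quotient hS.level
  let : Fintype (Γ ⧸ N) := Fintype.ofFinite _
  have lower : ∀ (W : Type) [AddCommGroup W] [Module (ZMod p) W] [FiniteDimensional (ZMod p) W]
      (σ : Representation (ZMod p) Γ W), (∀ x ∈ N, σ x = 1) →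
      (∑ q : {q // q ∈ S}, (h0Q q.1 σ + h0Q q.1 (dualMu σ))) + finrank (ZMod p) W ≤
        ∑ q : {q // q ∈ S}, h1Q q.1 σ := by
    intro W _ _ _ σ hσ
    have hd := hS.isCtsRep (hS.dual_trivial hσ)
    obtain ⟨-, -, h1, h2⟩ := hS.gw_both hσ hd fun _ => ⊥
    have h3 : ∑ u, finrank (ZMod p) (H1 (localLevels (locAt S u)) (σ.comp (locAt S u))) =
        (∑ u, finrank (ZMod p) (⊥ : Submodule (ZMod p)
          (H1 (localLevels (locAt S u)) (σ.comp (locAt S u))))) +
        ∑ u, finrank (ZMod p) (dualLocal S σ inv hd (fun _ => ⊥) u) := by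
      rw [← Finset.sum_add_distrib]
      exact Finset.sum_congr rfl fun u _ => (hS.dualLocal_finrank hσ hd (fun _ => ⊥) u).1.symm
    have e0 : (∑ u, finrank (ZMod p) (H0 (σ.comp (locAt S u)))) +
        ∑ u, finrank (ZMod p) (H0 ((dualMu σ).comp (locAt S u))) =
        (∑ q : {q // q ∈ S}, (h0Q q.1 σ + h0Q q.1 (dualMu σ))) + finrank (ZMod p) W := by
      rw [← Finset.sum_add_distrib]
      refine (Fintype.sum_sum_type _).trans ?_
      rw [Fintype.sum_unique, add_comm]
      exact congrArg₂ (· + ·) rfl (finrank_H0_inl_add hS.odd _ σ)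
    have e1 : ∑ u, finrank (ZMod p) (H1 (localLevels (locAt S u)) (σ.comp (locAt S u))) =
        ∑ q : {q // q ∈ S}, h1Q q.1 σ := by
      refine (Fintype.sum_sum_type _).trans ?_
      rw [Fintype.sum_unique]
      have : Subsingleton (H1 (localLevels (locAt S (Sum.inl default)))
          (σ.comp (locAt S (Sum.inl default)))) := subsingleton_H1_inl hS.odd (default : Unit) σ
      rw [show finrank (ZMod p) (H1 (localLevels (locAt S (Sum.inl default)))
        (σ.comp (locAt S (Sum.inl default)))) = 0 from finrank_zero_of_subsingleton, zero_add]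
      rfl
    omega
  refine le_antisymm ?_ (lower V ρ hρ)
  have hI : ∀ x ∈ N, permRep ρ (Γ ⧸ N) x = 1 := fun x hx =>
    LinearMap.ext fun f => funext fun y => by
      rw [permRep_apply, hρ x hx, smul_eq_self_of_normal hS.split.normal le_rfl (N.inv_mem hx)]
      rfl
  have hc := lower _ (cokerRep ρ (Γ ⧸ N)) fun x hx => cokerRep_eq_one ρ _ (hI x hx)
  have hup := Finset.sum_le_sum (s := (Finset.univ : Finset {q // q ∈ S})) fun q _ =>
    localEuler_le hS.split hS.cft hS.recip q.1 hρ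
  have hp : ∀ n : ℕ, ∑ q : {q // q ∈ S}, (if p = ((q.1 : Nat.Primes) : ℕ) then n else 0) = n :=
    fun n => by
    refine (Fintype.sum_eq_single (⟨pPrime p, hS.p_mem⟩ : {q // q ∈ S}) fun q hq => if_neg fun e =>
      hq (Subtype.ext (Subtype.ext e.symm))).trans ?_
    exact if_pos rfl
  simp only [Finset.sum_add_distrib, hp] at hup hc ⊢
  omega

/-- **The Greenberg–Wiles formula.** -/
theorem Setup.gw_eq [FiniteDimensional (ZMod p) V] (hρ : ∀ x ∈ N, ρ x = 1)
    (hd : IsCtsRep (levelsS S) (dualMu ρ)) (𝓛 : LocalConditions S ρ) :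
    FiniteDimensional (ZMod p) (Sel S ρ 𝓛) ∧
    FiniteDimensional (ZMod p) (Sel S (dualMu ρ) (dualLocal S ρ inv hd 𝓛)) ∧
    finrank (ZMod p) (Sel S ρ 𝓛) + finrank (ZMod p) (H0 (dualMu ρ))
        + ∑ u, finrank (ZMod p) (H0 (ρ.comp (locAt S u)))
      = finrank (ZMod p) (Sel S (dualMu ρ) (dualLocal S ρ inv hd 𝓛))
        + finrank (ZMod p) (H0 ρ) + ∑ u, finrank (ZMod p) (𝓛 u) := by
  classical
  obtain ⟨f1, f2, h1, h2⟩ := hS.gw_both hρ hd 𝓛
  refine ⟨f1, f2, ?_⟩
  have h3 : (∑ u, finrank (ZMod p) (H1 (localLevels (locAt S u)) (ρ.comp (locAt S u)))) =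
      (∑ u, finrank (ZMod p) (𝓛 u)) + ∑ u, finrank (ZMod p) (dualLocal S ρ inv hd 𝓛 u) := by
    rw [← Finset.sum_add_distrib]
    exact Finset.sum_congr rfl fun u _ => (hS.dualLocal_finrank hρ hd 𝓛 u).1.symm
  have e0 : (∑ u, finrank (ZMod p) (H0 (ρ.comp (locAt S u)))) +
      ∑ u, finrank (ZMod p) (H0 ((dualMu ρ).comp (locAt S u))) =
      (∑ q : {q // q ∈ S}, (h0Q q.1 ρ + h0Q q.1 (dualMu ρ))) + finrank (ZMod p) V := by
    rw [← Finset.sum_add_distrib]
    refine (Fintype.sum_sum_type _).trans ?_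
    rw [Fintype.sum_unique, add_comm]
    exact congrArg₂ (· + ·) rfl (finrank_H0_inl_add hS.odd _ ρ)
  have e1 : ∑ u, finrank (ZMod p) (H1 (localLevels (locAt S u)) (ρ.comp (locAt S u))) =
      ∑ q : {q // q ∈ S}, h1Q q.1 ρ := by
    refine (Fintype.sum_sum_type _).trans ?_
    rw [Fintype.sum_unique]
    have : Subsingleton (H1 (localLevels (locAt S (Sum.inl default)))
        (ρ.comp (locAt S (Sum.inl default)))) := subsingleton_H1_inl hS.odd (default : Unit) ρ
    rw [show finrank (ZMod p) (H1 (localLevels (locAt S (Sum.inl default)))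
      (ρ.comp (locAt S (Sum.inl default)))) = 0 from finrank_zero_of_subsingleton, zero_add]
    rfl
  have := hS.sum_h1 hρ
  omega

end Fermat.Agent.RowS55
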