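import Fermat.Agent.RowS55.KummerBase
import Fermat.Agent.RowS55.GWEq
import Fermat.Agent.RowS55.DualModules
import Fermat.Agent.GalCoh.GW.Basic

/-!
# Capitulation

At a deep level `M`, the everywhere locally trivial classes of `Γ ⧸ M → V'` die under summation:
by reciprocity against Kummer classes of generators of the ideals of the splitting level.
-/

noncomputable section

namespace Fermat.Agent.RowS55

open Fermat.Agent.GalCoh Module MulAction ExtCitation
open Fermat.Agent.GalCoh.Descent (kummer kummer_mul pRoot pRoot_pow)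
open Representation (IntertwiningMap)

local notation "Γ" => (AlgebraicClosure ℚ ≃ₐ[ℚ] AlgebraicClosure ℚ)
local notation "Ω" => AlgebraicClosure ℚ

/-- The projection between coset spaces. -/
def projQuot {G : Type} [Group G] {M N : Subgroup G} (h : M ≤ N) : (G ⧸ M) →[G] (G ⧸ N) where
  toFun := Quotient.map' id fun a b hab => by
    rw [QuotientGroup.leftRel_apply] at hab ⊢
    exact h hab
  map_smul' g x := by
    obtain ⟨a, rfl⟩ := QuotientGroup.mk_surjective x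
    rfl

variable {p : ℕ} [Fact p.Prime] {S : Finset Nat.Primes} {inv : InvFamily p} {N : Subgroup Γ}
  {V : Type} [AddCommGroup V] [Module (ZMod p) V] {ρ : Representation (ZMod p) Γ V}

theorem permRep_eq_one {M : Subgroup Γ} (hMn : M.Normal) (hMN : M ≤ N)
    (hρ : ∀ x ∈ N, ρ x = 1) : ∀ x ∈ M, permRep ρ (Γ ⧸ M) x = 1 := fun x hx =>
  LinearMap.ext fun f => funext fun y => by
    rw [permRep_apply, hρ x (hMN hx), smul_eq_self_of_normal hMn le_rfl (M.inv_mem hx)]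
    rfl

variable (hS : Setup p S inv N)
include hS

/-- The key vanishing at a prime splitting completely in `N`. -/
theorem Setup.push_apply_eq_zero [FiniteDimensional (ZMod p) V] (hρ : ∀ x ∈ N, ρ x = 1)
    {M : Subgroup Γ} (hM : (levelsS S).mem M) (hMn : M.Normal) (hMN : M ≤ N) [Fintype (Γ ⧸ M)]
    {e : ℕ} (he : (e : ZMod p) ≠ 0) {q : Nat.Primes} (hqS : q ∉ S) (hq : SplitIn N q) {g₀ : Γ}
    {y : Ω} (hy0 : y ≠ 0) (hyM : ∀ s ∈ M, s (y ^ p) = y ^ p)
    (hyU : ∃ U, (levelsS (insert q S)).mem U ∧ ∀ u ∈ U, u y = y)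
    (hy1 : ∀ g : Γ, (g : Γ ⧸ N) = g₀ → ∀ τ ∈ (primeLocalPlace q).inertiaSubgroupIn ℚ,
      kummer (p := p) (g y) τ = (e : ZMod p) * kummerQ p q τ)
    (hy2 : ∀ g : Γ, (g : Γ ⧸ N) ≠ g₀ → ∀ τ ∈ (primeLocalPlace q).inertiaSubgroupIn ℚ,
      kummer (p := p) (g y) τ = 0)
    {x : Γ → (Γ ⧸ M → Dual (ZMod p) V)} (hx : x ∈ Z1 (levelsS S) (permRep (dualMu ρ) (Γ ⧸ M)))
    (hloc : ∀ u : extArithIndex S, ∃ w, ∀ d, x (locAt S u d) =
      permRep (dualMu ρ) (Γ ⧸ M) (locAt S u d) w - w)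
    (v₀ : V) (d : placeGroup (Sum.inr q)) :
    pushMap (dualMu ρ) (projQuot hMN) (x (placeLoc (Sum.inr q) d)) (g₀ : Γ ⧸ N) v₀ = 0 := by
  classical
  set T := insert q S with hT
  have hST : S ⊆ T := Finset.subset_insert q S
  have hqT : q ∈ T := Finset.mem_insert_self q S
  have hpT : pPrime p ∈ T := hST hS.p_mem
  have hpq : p ≠ (q : ℕ) := fun h => hqS (by rw [show q = pPrime p from Subtype.ext h.symm]; exact hS.p_mem)
  have hMT : (levelsS T).mem M := by
    obtain ⟨F, hF, hFM⟩ := hM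
    exact ⟨F, hF.mono hST, hFM⟩
  have hMμ : ∀ s ∈ M, cycloChar p s = 1 := fun s hs => hS.split.mu s (hMN hs)
  have hσ := hS.dual_trivial hρ
  have hI := permRep_eq_one (ρ := ρ) hMn hMN hρ
  have hd : IsCtsRep (levelsS T) (dualMu (permRep ρ (Γ ⧸ M))) :=
    ⟨M, hMT, fun s hs => GW.dualMu_eq_one _ (hMμ s hs) (hI _ (M.inv_mem hs))⟩
  let ι := placeLoc (Sum.inr q)
  have hιN : ∀ a, ι a ∈ N := hq
  -- the Kummer class
  set w : V := (cycloChar p g₀ : ZMod p) • ρ g₀⁻¹ v₀ with hw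
  let f : ↥M → V := fun s => kummer (p := p) y s • w
  have hf : f ∈ Z1 ((levelsS T).comap M.subtype) (ρ.comp M.subtype) := by
    refine mem_Z1_iff.mpr ⟨fun s t => ?_, ?_⟩
    · show kummer (p := p) y ((s : Γ) * t) • w = ρ (s : Γ) (kummer (p := p) y (t : Γ) • w) + _
      rw [kummer_mul hy0 (hyM _ s.2) (hyM _ t.2), hMμ _ s.2, hρ _ (hMN s.2), Units.val_one,
        one_mul, add_smul, Module.End.one_apply]
    · obtain ⟨U, hU, hUy⟩ := hyU
      refine ⟨U.comap M.subtype, ⟨U, hU, le_rfl⟩, fun s u hu => ?_⟩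
      show kummer (p := p) y ((s : Γ) * u) • w = kummer (p := p) y (s : Γ) • w
      rw [kummer, kummer, AlgEquiv.mul_apply, hUy (u : Γ) hu]
  have hρT : IsCtsRep (levelsS T) ρ := ⟨M, hMT, fun s hs => hρ s (hMN hs)⟩
  let b : ↥(Z1 (levelsS T) (permRep ρ (Γ ⧸ M))) :=
    ⟨lift₁ ρ M f, lift₁_mem_Z1 hρT hMT hf⟩
  -- the dual class
  have hxd : (fun t => permDual ρ (Γ ⧸ M) (x t)) ∈
      Z1 (levelsS T) (dualMu (permRep ρ (Γ ⧸ M))) := by
    obtain ⟨h1, U, ⟨F, hF, hFU⟩, h2⟩ := mem_Z1_iff.mp hx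
    refine mem_Z1_iff.mpr ⟨fun s t => ?_, U, ⟨F, hF.mono hST, hFU⟩, fun s u hu => ?_⟩
    · show permDual ρ (Γ ⧸ M) (x (s * t)) = _
      rw [h1, map_add, (permDual ρ (Γ ⧸ M)).isIntertwining]
    · show permDual ρ (Γ ⧸ M) (x (s * u)) = _
      rw [h2 s u hu]
  let xd : ↥(Z1 (levelsS T) (dualMu (permRep ρ (Γ ⧸ M)))) := ⟨_, hxd⟩
  have hrec := sum_localPairing_eq_zero T (permRep ρ (Γ ⧸ M)) hS.recip hpT hd
    (H1mk (levelsS T) (permRep ρ (Γ ⧸ M)) b) (H1mk (levelsS T) (dualMu (permRep ρ (Γ ⧸ M))) xd)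
  let u₀ : extArithIndex T := Sum.inr ⟨q, hqT⟩
  rw [Finset.sum_eq_single u₀ (fun u _ hu => ?_) fun h => absurd (Finset.mem_univ _) h] at hrec
  swap
  · have hz : resAt T (dualMu (permRep ρ (Γ ⧸ M))) u (H1mk (levelsS T) (dualMu (permRep ρ (Γ ⧸ M))) xd) = 0 := by
      rw [resAt, Mor.map₁_mk, H1mk_eq_zero_iff, mem_B1_iff]
      rcases u with u | ⟨r, hr⟩
      · obtain ⟨v, hv⟩ := hloc (Sum.inl u)
        refine ⟨permDual ρ _ v, fun a => ?_⟩
        show permDual ρ (Γ ⧸ M) (x (locAt S (Sum.inl u) a)) = _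
        rw [hv a, map_sub, (permDual ρ (Γ ⧸ M)).isIntertwining]
        rfl
      · have hrq : r ≠ q := fun h => hu (by subst h; rfl)
        obtain ⟨v, hv⟩ := hloc (Sum.inr ⟨r, (Finset.mem_insert.mp hr).resolve_left hrq⟩)
        refine ⟨permDual ρ _ v, fun a => ?_⟩
        show permDual ρ (Γ ⧸ M) (x (placeLoc (Sum.inr r) a)) = _
        rw [show x (placeLoc (Sum.inr r) a) = _ from hv a, map_sub,
          (permDual ρ (Γ ⧸ M)).isIntertwining]
        rfl
    rw [hz, map_zero]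
  -- the local cochains
  let Ll := localLevels ι
  have hA := Descent.primeLocalPlace_liesOver q
  have hIM : ∀ τ ∈ (primeLocalPlace q).inertiaSubgroupIn ℚ, τ ∈ M := fun τ hτ =>
    inertia_le_level hM hqS hA hτ
  set r := pRoot p ((q : ℕ) : Ω) with hr
  have hr0 : r ≠ 0 := pRoot_q_ne_zero p q
  have hrp : ∀ s : Γ, s (r ^ p) = r ^ p := fun s => by
    rw [hr, pRoot_pow (Fact.out : p.Prime).pos, map_natCast]
  let κ : placeGroup (Sum.inr q) → ZMod p := fun a => kummerQ p q (ι a)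
  have hκ : ∀ a c, κ (a * c) = κ a + κ c := fun a c => by
    show kummer (p := p) r (ι (a * c)) = _
    rw [map_mul, kummer_mul hr0 (hrp _) (hrp _), hS.split.mu _ (hιN a), Units.val_one, one_mul,
      add_comm]
    rfl
  have hκc : Ll.IsCts₁ κ := by
    have := IntermediateField.adjoin.finiteDimensional (Algebra.IsIntegral.isIntegral (R := ℚ) r)
    refine ⟨(IntermediateField.adjoin ℚ ({r} : Set Ω)).fixingSubgroup.comap ι,
      ⟨_, ⟨_, this, le_rfl⟩, le_rfl⟩, fun a s hs => ?_⟩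
    show kummer (p := p) r (ι (a * s)) = kummer (p := p) r (ι a)
    rw [map_mul, kummer, kummer, AlgEquiv.mul_apply,
      (IntermediateField.mem_fixingSubgroup_iff _ _).mp hs r
        (IntermediateField.mem_adjoin_simple_self ℚ r)]
  let ind : ZMod p → (Γ ⧸ M → V) := fun c z => if projQuot hMN z = g₀ then c • v₀ else 0
  have hind : ∀ t ∈ N, ∀ c, permRep ρ (Γ ⧸ M) t (ind c) = ind c := fun t ht c => funext fun z => by
    rw [permRep_apply, hρ t ht, Module.End.one_apply]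
    simp only [ind, map_smul, smul_eq_self_of_normal hS.split.normal le_rfl (N.inv_mem ht)]
  have hC0 : (fun a => ind (κ a)) ∈ Z1 Ll ((permRep ρ (Γ ⧸ M)).comp ι) := by
    refine mem_Z1_iff.mpr ⟨fun a c => ?_, hκc.comp ind⟩
    show ind (κ (a * c)) = permRep ρ (Γ ⧸ M) (ι a) (ind (κ c)) + ind (κ a)
    rw [hind _ (hιN a), hκ]
    funext z
    simp only [ind, Pi.add_apply]
    split_ifs <;> simp [add_smul, add_comm]
  let C0 : ↥(Z1 Ll ((permRep ρ (Γ ⧸ M)).comp ι)) := ⟨_, hC0⟩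
  let mb := Mor.res (levelsS T) Ll (permRep ρ (Γ ⧸ M)) ι (compat_locAt T u₀)
  let md := Mor.res (levelsS T) Ll (dualMu (permRep ρ (Γ ⧸ M))) ι (compat_locAt T u₀)
  let bq : ↥(Z1 Ll ((permRep ρ (Γ ⧸ M)).comp ι)) := ⟨_, mb.cochain₁_mem_Z1 b.2⟩
  let xq : ↥(Z1 Ll ((dualMu (permRep ρ (Γ ⧸ M))).comp ι)) := ⟨_, md.cochain₁_mem_Z1 xd.2⟩
  have hxI : ∀ a, ι a ∈ (primeLocalPlace q).inertiaSubgroupIn ℚ → x (ι a) = 0 := fun a ha => by
    obtain ⟨h1, U, hU, h2⟩ := mem_Z1_iff.mp hx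
    have := h2 1 (ι a) (inertia_le_level hU hqS hA ha)
    rwa [one_mul, Z1.map_one hx] at this
  have hbI : ∀ a, ι a ∈ (primeLocalPlace q).inertiaSubgroupIn ℚ →
      lift₁ ρ M f (ι a) = (e : ZMod p) • ind (κ a) := fun a ha => funext fun z => by
    set τ := ι a
    have hτM := hIM τ ha
    set g := cosetRep M z
    have hz : τ⁻¹ • z = z := smul_eq_self_of_normal hMn le_rfl (M.inv_mem hτM) z
    have hk : (kappa M τ z : Γ) = g⁻¹ * τ * g := by
      show (cosetRep M (τ • z))⁻¹ * τ * cosetRep M z = _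
      rw [smul_eq_self_of_normal hMn le_rfl hτM z]
    have hπ : projQuot hMN z = (g : Γ ⧸ N) := by
      conv_lhs => rw [← mk_cosetRep (H := M) z]
      rfl
    have hkum : kummer (p := p) y (g⁻¹ * τ * g) =
        (cycloChar p g⁻¹ : ZMod p) * kummer (p := p) (g y) τ := by
      have h1 : (g⁻¹ * τ * g) (y ^ p) = y ^ p := hyM _ (by
        have := hMn.conj_mem _ hτM g⁻¹
        simpa [mul_assoc] using this)
      have h2 : τ ((g y) ^ p) = (g y) ^ p := by
        have := congrArg g h1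
        simpa [AlgEquiv.mul_apply] using this
      refine Descent.mu_injective ?_
      rw [Descent.mu_kummer hy0 h1, ← Descent.apply_mu,
        Descent.mu_kummer (by simpa using hy0) h2, map_div₀]
      simp [AlgEquiv.mul_apply]
    show ρ g (f (kappa M τ (τ⁻¹ • z))) = (e : ZMod p) • ind (κ a) z
    rw [hz]
    show ρ g (kummer (p := p) y (kappa M τ z : Γ) • w) = _
    rw [hk, hkum]
    simp only [ind, hπ]
    by_cases hg : (g : Γ ⧸ N) = g₀
    · rw [if_pos hg, hy1 g hg τ ha, map_smul, hw, map_smul, smul_smul, smul_smul]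
      have hn : g₀⁻¹ * g ∈ N := QuotientGroup.eq.mp hg.symm
      have e1 : ρ g = ρ g₀ := by
        rw [← mul_inv_cancel_left g₀ g, map_mul, hρ _ hn, mul_one]
      have e2 : cycloChar p g = cycloChar p g₀ := by
        rw [← mul_inv_cancel_left g₀ g, map_mul, hS.split.mu _ hn, mul_one]
      rw [e1, ← Module.End.mul_apply, ← map_mul, mul_inv_cancel, map_one, Module.End.one_apply,
        map_inv, e2, mul_assoc, mul_comm ((e : ZMod p) * _), ← mul_assoc, Units.inv_mul, one_mul]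
    · rw [if_neg hg, hy2 g hg τ ha, mul_zero, zero_smul, map_zero, smul_zero]
  -- the unramified part pairs to zero
  have hd' : IsCtsRep Ll ((dualMu (permRep ρ (Γ ⧸ M))).comp ι) := hd.comp (compat_locAt T u₀)
  let P := (evPairing (permRep ρ (Γ ⧸ M))).res ι
  have hMfull : fullLevels.mem M := by simpa using compat_levelsS S hM
  have hur : P.cup hd' (H1mk Ll ((permRep ρ (Γ ⧸ M)).comp ι) (bq - (e : ZMod p) • C0)) (H1mk Ll ((dualMu (permRep ρ (Γ ⧸ M))).comp ι) xq) = 0 := by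
    refine cup_eq_zero_of_unramified q P (hMn.comap ι) ⟨M, hMfull, le_rfl⟩
      (fun a ha => hI _ ha) (fun a ha => GW.dualMu_eq_one _ (hMμ _ ha) (hI _ (M.inv_mem ha)))
      (fun a ha => hMμ _ ha) (fun a ha => hIM _ ha) hd' _ _ (fun a ha => ?_) fun a ha => ?_
    · show lift₁ ρ M f (ι a) - (e : ZMod p) • ind (κ a) = 0
      rw [hbI a ha, sub_self]
    · show permDual ρ (Γ ⧸ M) (x (ι a)) = 0
      rw [hxI a ha, map_zero]
  have hz : inv (Sum.inr q) (P.cup hd' (H1mk Ll ((permRep ρ (Γ ⧸ M)).comp ι) C0) (H1mk Ll ((dualMu (permRep ρ (Γ ⧸ M))).comp ι) xq)) = 0 := by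
    have h1 : inv (Sum.inr q) (P.cup hd' (H1mk Ll ((permRep ρ (Γ ⧸ M)).comp ι) bq) (H1mk Ll ((dualMu (permRep ρ (Γ ⧸ M))).comp ι) xq)) = 0 := hrec
    rw [show bq = (bq - (e : ZMod p) • C0) + (e : ZMod p) • C0 by abel, map_add, map_smul, map_add,
      LinearMap.add_apply, hur, zero_add, map_smul, LinearMap.smul_apply, map_smul,
      smul_eq_mul] at h1
    exact (mul_eq_zero.mp h1).resolve_left he
  have hB := (injective_iff_map_eq_zero _).mp (hS.recip.1 _) _ hz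
  rw [RepPairing.cup_mk] at hB
  have hB' := H2mk_eq_zero_iff.mp ((P.cupZ_apply hd' C0 xq).symm.trans hB)
  -- the homomorphism
  let χ : placeGroup (Sum.inr q) → ZMod p := fun a =>
    pushMap (dualMu ρ) (projQuot hMN) (x (ι a)) (g₀ : Γ ⧸ N) v₀
  have hχ : ∀ a c, χ (a * c) = χ a + χ c := fun a c => by
    show pushMap (dualMu ρ) (projQuot hMN) (x (ι (a * c))) (g₀ : Γ ⧸ N) v₀ = _
    rw [map_mul, (mem_Z1_iff.mp hx).1, map_add, (pushMap (dualMu ρ) (projQuot hMN)).isIntertwining,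
      Pi.add_apply, permRep_apply, hσ _ (hιN a),
      smul_eq_self_of_normal hS.split.normal le_rfl (N.inv_mem (hιN a)), LinearMap.add_apply,
      add_comm]
    rfl
  have hχc : Ll.IsCts₁ χ := ((mem_Z1_iff.mp hx).2.precomp
    ((compat_levelsS S).comp (fullLevels.compat_comap ι))).comp
      fun F => pushMap (dualMu ρ) (projQuot hMN) F (g₀ : Γ ⧸ N) v₀
  obtain ⟨τ₀, hτ₀, hτne⟩ := exists_kummerQ_ne_zero (p := p) q
  obtain ⟨a₀, ha₀⟩ := toStd_surjective q
    ⟨τ₀, ((FreyReducible.mem_inertiaSubgroupIn_iff _ τ₀).mp hτ₀).1⟩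
  have ha₀' : ι a₀ = τ₀ := congrArg Subtype.val ha₀
  refine eq_zero_of_mul_mem_B2 q hS.split hq hpq hχ hκ hχc hκc (fun a ha => ?_) (τ₀ := a₀)
    (by rw [ha₀']; exact hτ₀) (by show kummerQ p q (ι a₀) ≠ 0; rw [ha₀']; exact hτne) ?_ d
  · show pushMap (dualMu ρ) (projQuot hMN) (x (ι a)) (g₀ : Γ ⧸ N) v₀ = 0
    rw [hxI a ha, map_zero]
    rfl
  · convert hB' using 1
    funext ⟨a, c⟩
    show κ a * χ c = dualMu (permRep ρ (Γ ⧸ M)) (ι a) (permDual ρ (Γ ⧸ M) (x (ι c))) (ind (κ a))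
    rw [dualMu_apply, hS.split.mu _ (hιN a), Units.val_one, one_mul,
      hind _ (N.inv_mem (hιN a)), permDual_apply]
    simp only [χ, pushMap_apply, LinearMap.sum_apply, Finset.sum_filter, ind]
    rw [Finset.mul_sum]
    refine Finset.sum_congr rfl fun z _ => ?_
    split_ifs <;> simp

/-- **Capitulation.** -/
theorem Setup.exists_capitulation [FiniteDimensional (ZMod p) V] (hρ : ∀ x ∈ N, ρ x = 1)
    {U₀ : Subgroup Γ} (hU₀ : (levelsS S).mem U₀) :
    ∃ M, (levelsS S).mem M ∧ M.Normal ∧ M ≤ N ∧ M ≤ U₀ ∧ ∀ [Fintype (Γ ⧸ M)],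
      ∀ z ∈ sha1 S (permRep (dualMu ρ) (Γ ⧸ M)),
        (Mor.ofMap (levelsS S) (sumMap (dualMu ρ) (Γ ⧸ M))).map₁ z = 0 := by
  obtain ⟨M, hM, hMn, hMN, hMU, e, he, hk⟩ :=
    exists_kummer_level hS.p_mem hS.level hS.split.normal hU₀
  refine ⟨M, hM, hMn, hMN, hMU, fun {_} z hz => ?_⟩
  classical
  have hσ := hS.dual_trivial hρ
  have : Finite (Γ ⧸ N) := finite_quotient hS.level
  let _ : Fintype (Γ ⧸ N) := Fintype.ofFinite _
  obtain ⟨⟨x, hx⟩, rfl⟩ := H1mk_surjective z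
  have hloc : ∀ u : extArithIndex S, ∃ w, ∀ d, x (locAt S u d) =
      permRep (dualMu ρ) (Γ ⧸ M) (locAt S u d) w - w := fun u => by
    have h := (mem_sha1_iff S _).mp hz u
    rw [resAt, Mor.map₁_mk, H1mk_eq_zero_iff, mem_B1_iff] at h
    exact h
  let π := Mor.ofMap (levelsS S) (pushMap (dualMu ρ) (projQuot hMN))
  have ha := π.cochain₁_mem_Z1 hx
  obtain ⟨hcoc, U, hU, hcts⟩ := mem_Z1_iff.mp ha
  set a := π.cochain₁ x
  have hzero : ∀ n ∈ N, a n = 0 := fun n hn => by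
    have hUf : fullLevels.mem U := by simpa using compat_levelsS S hU
    obtain ⟨q, hqS, hq, g, d, hgd⟩ :=
      exists_frobenius_split hUf hS.split.mem hS.split.normal hn S
    set t := placeLoc (Sum.inr q) d
    have htN : t ∈ N := hq d
    have hperm : permRep (dualMu ρ) (Γ ⧸ N) t = 1 :=
      LinearMap.ext fun F => funext fun z => by
        rw [permRep_apply, hσ t htN,
          smul_eq_self_of_normal hS.split.normal le_rfl (N.inv_mem htN)]
        rfl
    have hat : a t = 0 := funext fun z => LinearMap.ext fun v₀ => by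
      obtain ⟨g₀, rfl⟩ := QuotientGroup.mk_surjective z
      obtain ⟨y, hy0, hyM, hyU, hy1, hy2⟩ := hk q hqS hq g₀
      exact hS.push_apply_eq_zero hρ hM hMn hMN he hqS hq hy0 hyM hyU hy1 hy2 hx hloc v₀ d
    have h1 : a (g * t * g⁻¹) = 0 := by
      have e1 := hcoc g g⁻¹
      rw [mul_inv_cancel, Z1.map_one ha] at e1
      rw [hcoc, hcoc, hat, map_zero, zero_add, map_mul, hperm, mul_one]
      exact e1.symm
    have := hcts n _ hgd
    rw [mul_inv_cancel_left, h1] at this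
    exact this.symm
  have hpush : π.map₁ (H1mk (levelsS S) (permRep (dualMu ρ) (Γ ⧸ M)) ⟨x, hx⟩) = 0 := by
    refine (evalMor_map₁_bijective (hS.isCtsRep hσ) hS.level).1 ?_
    rw [map_zero, Mor.map₁_mk, Mor.map₁_mk, H1mk_eq_zero_iff]
    refine mem_B1_iff.mpr ⟨0, fun n => ?_⟩
    show a (n : Γ) ((1 : Γ) : Γ ⧸ N) = _
    rw [hzero _ n.2]
    simp
  have h := congrArg (Mor.ofMap (levelsS S) (sumMap (dualMu ρ) (Γ ⧸ N))).map₁ hpush
  rw [map_zero] at h
  refine Eq.trans ?_ h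
  rw [Mor.map₁_mk, Mor.map₁_mk, Mor.map₁_mk]
  refine congrArg _ (Subtype.ext (funext fun t => ?_))
  exact (sumMap_pushMap (ρ := dualMu ρ) (projQuot hMN) (x t)).symm

end Fermat.Agent.RowS55
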