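import Fermat.Agent.RowS55.Capitulation
import Fermat.Agent.RowS55.ConstSes

/-!
# Everywhere locally trivial two-classes: their number
-/

noncomputable section

namespace Fermat.Agent.RowS55

open Fermat.Agent.GalCoh Module MulAction ExtCitation
open Representation (IntertwiningMap)

local notation "Γ" => (AlgebraicClosure ℚ ≃ₐ[ℚ] AlgebraicClosure ℚ)

section Ranks

variable {k : Type} [Field k] {G : Type} [Group G] {A B C : Type} [AddCommGroup A] [Module k A]
  [AddCommGroup B] [Module k B] [AddCommGroup C] [Module k C] {α : Representation k G A}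
  {β : Representation k G B} {γ : Representation k G C} {L : Levels G}
  [FiniteDimensional k A] [FiniteDimensional k B] [FiniteDimensional k C]

/-- The rank of the connecting map in degree zero. -/
theorem rank_δ₀ (Q : Ses α β γ) (hβ : IsCtsRep L β) :
    finrank k (LinearMap.range (Q.δ₀ hβ)) + finrank k (H0 β) =
      finrank k (H0 γ) + finrank k (H0 α) := by
  have e0 := LinearMap.finrank_range_add_finrank_ker (Q.mi L).map₀
  have e1 := LinearMap.finrank_range_add_finrank_ker (Q.mj L).map₀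
  have e2 := LinearMap.finrank_range_add_finrank_ker (Q.δ₀ hβ)
  rw [LinearMap.ker_eq_bot.mpr (Q.map₀_injective L), finrank_bot] at e0
  rw [Q.ker_map₀ L] at e1
  rw [Q.ker_δ₀ hβ] at e2
  omega

/-- The rank of `H¹(β) → H¹(γ)`. -/
theorem rank_map₁_j (Q : Ses α β γ) (hβ : IsCtsRep L β) [FiniteDimensional k (H1 L α)]
    [FiniteDimensional k (H1 L β)] :
    finrank k (LinearMap.range (Q.mj L).map₁) + finrank k (H1 L α) + finrank k (H0 β) =
      finrank k (H1 L β) + finrank k (H0 γ) + finrank k (H0 α) := by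
  have e0 := rank_δ₀ Q hβ
  have e3 := LinearMap.finrank_range_add_finrank_ker (Q.mi L).map₁
  have e4 := LinearMap.finrank_range_add_finrank_ker (Q.mj L).map₁
  rw [Q.ker_map₁_i hβ] at e3
  rw [Q.ker_map₁_j hβ] at e4
  omega

end Ranks

variable {p : ℕ} [Fact p.Prime] {S : Finset Nat.Primes} {inv : InvFamily p} {N : Subgroup Γ}
  {V : Type} [AddCommGroup V] [Module (ZMod p) V] {ρ : Representation (ZMod p) Γ V}

/-- Restriction of two-classes to a place. -/
def res₂At (S : Finset Nat.Primes) (ρ : Representation (ZMod p) Γ V) (u : extArithIndex S) :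
    GalCoh.H2 (levelsS S) ρ →ₗ[ZMod p] GalCoh.H2 (localLevels (locAt S u)) (ρ.comp (locAt S u)) :=
  (Mor.res (levelsS S) (localLevels (locAt S u)) ρ (locAt S u) (compat_locAt S u)).map₂

/-- The two-classes trivial at every place of `S ∪ {∞}`. -/
def sha2 (S : Finset Nat.Primes) (ρ : Representation (ZMod p) Γ V) :
    Submodule (ZMod p) (GalCoh.H2 (levelsS S) ρ) := ⨅ u, LinearMap.ker (res₂At S ρ u)

theorem mem_sha2_iff {z : GalCoh.H2 (levelsS S) ρ} :
    z ∈ sha2 S ρ ↔ ∀ u, res₂At S ρ u z = 0 := by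
  simp [sha2, Submodule.mem_iInf]

variable {W : Type} [AddCommGroup W] [Module (ZMod p) W] {σ : Representation (ZMod p) Γ W}

theorem resAt_map₁ (φ : IntertwiningMap ρ σ) (u : extArithIndex S) (x : GalCoh.H1 (levelsS S) ρ) :
    resAt S σ u ((Mor.ofMap (levelsS S) φ).map₁ x) =
      (Mor.ofMap (localLevels (locAt S u)) (resInt (locAt S u) φ)).map₁ (resAt S ρ u x) := by
  obtain ⟨c, rfl⟩ := H1mk_surjective x
  rfl

/-- The transport back to the permutation module of the dual. -/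
def permDualInv [FiniteDimensional (ZMod p) V] (ρ : Representation (ZMod p) Γ V) (X : Type)
    [MulAction Γ X] [Fintype X] : IntertwiningMap (dualMu (permRep ρ X)) (permRep (dualMu ρ) X) :=
  LinearMap.intertwiningMap_of_isIntertwiningMap _ _
    (LinearEquiv.ofBijective (permDual ρ X).toLinearMap (permDual_bijective ρ X)).symm.toLinearMap
    fun g f => (permDual_bijective ρ X).1 (by
      have e : ∀ h, permDual ρ X ((LinearEquiv.ofBijective (permDual ρ X).toLinearMap
          (permDual_bijective ρ X)).symm h) = h := fun h =>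
        (LinearEquiv.ofBijective (permDual ρ X).toLinearMap
          (permDual_bijective ρ X)).apply_symm_apply h
      simp only [LinearEquiv.coe_coe]
      rw [e, (permDual ρ X).isIntertwining, e])

theorem permDual_permDualInv [FiniteDimensional (ZMod p) V] (X : Type) [MulAction Γ X] [Fintype X]
    (h : Dual (ZMod p) (X → V)) : permDual ρ X (permDualInv ρ X h) = h :=
  (LinearEquiv.ofBijective (permDual ρ X).toLinearMap
    (permDual_bijective ρ X)).apply_symm_apply h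

theorem finrank_comap_of_le {A B : Type} [AddCommGroup A] [Module (ZMod p) A]
    [FiniteDimensional (ZMod p) A] [AddCommGroup B] [Module (ZMod p) B] (f : A →ₗ[ZMod p] B)
    (W : Submodule (ZMod p) B) (h : W ≤ LinearMap.range f) :
    finrank (ZMod p) (W.comap f) = finrank (ZMod p) (LinearMap.ker f) + finrank (ZMod p) W := by
  have e := LinearMap.finrank_range_add_finrank_ker (f.domRestrict (W.comap f))
  rw [LinearMap.range_domRestrict, Submodule.map_comap_eq, inf_eq_right.mpr h,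
    LinearMap.ker_domRestrict] at e
  rw [(Submodule.comapSubtypeEquivOfLe (p := LinearMap.ker f) (q := W.comap f)
    fun x hx => by simp [Submodule.mem_comap, LinearMap.mem_ker.mp hx]).finrank_eq] at e
  omega

section Sequence

variable {A B C : Type} [AddCommGroup A] [Module (ZMod p) A] [AddCommGroup B] [Module (ZMod p) B]
  [AddCommGroup C] [Module (ZMod p) C] {α : Representation (ZMod p) Γ A}
  {β : Representation (ZMod p) Γ B} {γ : Representation (ZMod p) Γ C}

/-- The conditions: images of the middle module. -/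
def imageConds (S : Finset Nat.Primes) (Q : Ses α β γ) : LocalConditions S γ := fun u =>
  LinearMap.range ((resSes (locAt S u) Q).mj (localLevels (locAt S u))).map₁

theorem res₂At_δ₁ (Q : Ses α β γ) (hβ : IsCtsRep (levelsS S) β) (u : extArithIndex S)
    (c : GalCoh.H1 (levelsS S) γ) :
    res₂At S α u (Q.δ₁ hβ c) =
      (resSes (locAt S u) Q).δ₁ (hβ.comp (compat_locAt S u)) (resAt S γ u c) := by
  obtain ⟨c, rfl⟩ := H1mk_surjective c
  rw [Q.δ₁_mk, res₂At, Mor.map₂_mk, resAt, Mor.map₁_mk, Ses.δ₁_mk]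
  refine congrArg _ (Subtype.ext (funext fun ⟨a, b⟩ => ?_))
  show Q.r (d1 β _ (locAt S u a, locAt S u b)) = Q.r (d1 (β.comp (locAt S u)) _ (a, b))
  rw [d1_apply, d1_apply, ← map_mul]
  rfl

theorem range_le_Sel_imageConds (Q : Ses α β γ) :
    LinearMap.range (Q.mj (levelsS S)).map₁ ≤ Sel S γ (imageConds S Q) := by
  rintro _ ⟨y, rfl⟩
  exact (mem_Sel_iff S γ (imageConds S Q) _).mpr fun u => ⟨resAt S β u y, (resAt_map₁ Q.j u y).symm⟩

theorem δ₁_mem_sha2_iff (Q : Ses α β γ) (hβ : IsCtsRep (levelsS S) β)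
    (c : GalCoh.H1 (levelsS S) γ) : Q.δ₁ hβ c ∈ sha2 S α ↔ c ∈ Sel S γ (imageConds S Q) := by
  rw [mem_sha2_iff, mem_Sel_iff]
  refine forall_congr' fun u => ?_
  rw [res₂At_δ₁, ← LinearMap.mem_ker, Ses.ker_δ₁]
  rfl

theorem finrank_killed_add (Q : Ses α β γ) (hβ : IsCtsRep (levelsS S) β)
    [FiniteDimensional (ZMod p) (Sel S γ (imageConds S Q))] :
    FiniteDimensional (ZMod p) ↥(sha2 S α ⊓ LinearMap.ker (Q.mi (levelsS S)).map₂) ∧
    finrank (ZMod p) ↥(sha2 S α ⊓ LinearMap.ker (Q.mi (levelsS S)).map₂) +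
        finrank (ZMod p) (LinearMap.range (Q.mj (levelsS S)).map₁) =
      finrank (ZMod p) (Sel S γ (imageConds S Q)) := by
  let g := (Q.δ₁ hβ).domRestrict (Sel S γ (imageConds S Q))
  have hg : LinearMap.range g = sha2 S α ⊓ LinearMap.ker (Q.mi (levelsS S)).map₂ := by
    rw [Q.ker_map₂_i hβ, LinearMap.range_domRestrict]
    ext z
    rw [Submodule.mem_map, Submodule.mem_inf]
    constructor
    · rintro ⟨c, hc, rfl⟩
      exact ⟨(δ₁_mem_sha2_iff Q hβ c).mpr hc, ⟨c, rfl⟩⟩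
    · rintro ⟨hz, c, rfl⟩
      exact ⟨c, (δ₁_mem_sha2_iff Q hβ c).mp hz, rfl⟩
  have eK := LinearMap.finrank_range_add_finrank_ker g
  have hker : finrank (ZMod p) (LinearMap.ker g) =
      finrank (ZMod p) (LinearMap.range (Q.mj (levelsS S)).map₁) := by
    rw [LinearMap.ker_domRestrict, Q.ker_δ₁ hβ]
    exact (Submodule.comapSubtypeEquivOfLe (range_le_Sel_imageConds Q)).finrank_eq
  rw [hker, hg] at eK
  exact ⟨hg ▸ Module.Finite.range g, eK⟩

theorem dualSel_imageConds (Q : Ses α β γ) (Q' : Ses (dualMu γ) (dualMu β) (dualMu α))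
    (he : ∀ (b : B) (c : Dual (ZMod p) C), c (Q.j b) = Q'.i c b)
    (hdβ : IsCtsRep (levelsS S) (dualMu β)) (hdγ : IsCtsRep (levelsS S) (dualMu γ))
    (hr : ∀ u, Function.Injective (localPairing S β inv hdβ u).flip) :
    Sel S (dualMu γ) (dualLocal S γ inv hdγ (imageConds S Q)) =
      (sha1 S (dualMu β)).comap (Q'.mi (levelsS S)).map₁ := by
  ext y
  rw [Submodule.mem_comap, mem_Sel_iff, mem_sha1_iff]
  refine forall_congr' fun u => ?_
  rw [mem_dualLocal_iff, resAt_map₁]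
  exact orth_range_iff (inv := inv (toPlace u)) ((evPairing β).res (locAt S u))
    ((evPairing γ).res (locAt S u)) (resInt (locAt S u) Q.j) (resInt (locAt S u) Q'.i) he
    (hdβ.comp (compat_locAt S u)) (hdγ.comp (compat_locAt S u)) (hr u) _

end Sequence

variable (hS : Setup p S inv N)
include hS

/-- The data at a deeper level. -/
theorem Setup.deeper {M : Subgroup Γ} (hM : (levelsS S).mem M) (hMn : M.Normal) (hMN : M ≤ N) :
    Setup p S inv M where
  odd := hS.odd
  cft := hS.cft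
  gw := hS.gw
  recip := hS.recip
  p_mem := hS.p_mem
  level := hM
  split := ⟨by simpa using compat_levelsS S hM, hMn, fun τ hτ => hS.split.mu τ (hMN hτ),
    fun h => hS.split.complex (hMN h)⟩

/-- `H¹` is finite, and the formula for the full conditions. -/
theorem Setup.gw_full [FiniteDimensional (ZMod p) V] (hρ : ∀ x ∈ N, ρ x = 1) :
    FiniteDimensional (ZMod p) (GalCoh.H1 (levelsS S) ρ) ∧
    FiniteDimensional (ZMod p) (sha1 S (dualMu ρ)) ∧
    finrank (ZMod p) (GalCoh.H1 (levelsS S) ρ) + finrank (ZMod p) (H0 (dualMu ρ))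
        + ∑ u, finrank (ZMod p) (H0 (ρ.comp (locAt S u)))
      = finrank (ZMod p) (sha1 S (dualMu ρ)) + finrank (ZMod p) (H0 ρ)
        + ∑ u, finrank (ZMod p) (GalCoh.H1 (localLevels (locAt S u)) (ρ.comp (locAt S u))) := by
  have hd := hS.isCtsRep (hS.dual_trivial hρ)
  obtain ⟨f1, f2, h⟩ := hS.gw_eq hρ hd fun _ => ⊤
  have hsel : Sel S ρ (fun _ => ⊤) = ⊤ := by ext; simp [mem_Sel_iff]
  have hdual : dualLocal S ρ inv hd (fun _ => ⊤) = fun _ => ⊥ := by
    funext u
    ext y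
    rw [mem_dualLocal_iff, Submodule.mem_bot]
    refine ⟨fun hy => (hS.perfect hρ hd u).2 ((LinearMap.ext fun x => ?_).trans (map_zero _).symm),
      fun hy x _ => by rw [hy, map_zero]⟩
    exact hy x trivial
  rw [hsel] at f1 h
  rw [hdual] at f2 h
  simp only [finrank_top] at h
  exact ⟨Module.Finite.equiv (Submodule.topEquiv (R := ZMod p)), f2, h⟩

/-- The classes killed by a level of capitulation are as many as `Ш¹` of the dual. -/
theorem Setup.finrank_killed [FiniteDimensional (ZMod p) V] (hρ : ∀ x ∈ N, ρ x = 1)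
    {M : Subgroup Γ} (hM : (levelsS S).mem M) (hMn : M.Normal) (hMN : M ≤ N) [Fintype (Γ ⧸ M)]
    (hcap : ∀ z ∈ sha1 S (permRep (dualMu ρ) (Γ ⧸ M)),
      (Mor.ofMap (levelsS S) (sumMap (dualMu ρ) (Γ ⧸ M))).map₁ z = 0) :
    FiniteDimensional (ZMod p) ↥(sha2 S ρ ⊓
      LinearMap.ker (Mor.ofMap (levelsS S) (constMap ρ (Γ ⧸ M))).map₂) ∧
    finrank (ZMod p) ↥(sha2 S ρ ⊓
      LinearMap.ker (Mor.ofMap (levelsS S) (constMap ρ (Γ ⧸ M))).map₂) =
      finrank (ZMod p) (sha1 S (dualMu ρ)) := by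
  classical
  have : Nonempty (Γ ⧸ M) := ⟨((1 : Γ) : Γ ⧸ M)⟩
  obtain ⟨Q, hQi, -⟩ := exists_const_ses ρ (Γ ⧸ M)
  obtain ⟨Q', hQ'i, hQ'j⟩ := exists_dual_ses Q
  have hSM := hS.deeper hM hMn hMN
  have hρM : ∀ x ∈ M, ρ x = 1 := fun x hx => hρ x (hMN hx)
  have hI := permRep_eq_one (ρ := ρ) hMn hMN hρ
  have hC : ∀ x ∈ M, cokerRep ρ (Γ ⧸ M) x = 1 := fun x hx => cokerRep_eq_one ρ _ (hI x hx)
  have hβ := hSM.isCtsRep hI
  have hdI := hSM.isCtsRep (hSM.dual_trivial hI)
  have hdC := hSM.isCtsRep (hSM.dual_trivial hC)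
  obtain ⟨fSel, -, gC⟩ := hSM.gw_eq hC hdC (imageConds S Q)
  obtain ⟨fV, -, gV⟩ := hSM.gw_full hρM
  obtain ⟨fI, fShaI, gI⟩ := hSM.gw_full hI
  obtain ⟨fC', -, -⟩ := hSM.gw_full (hSM.dual_trivial hC)
  have := fun u => hSM.finiteDimensional_local hρM u
  have := fun u => hSM.finiteDimensional_local hI u
  obtain ⟨fK, eK⟩ := finrank_killed_add Q hβ
  have hmi : Q.mi (levelsS S) = Mor.ofMap (levelsS S) (constMap ρ (Γ ⧸ M)) :=
    congrArg (Mor.ofMap (levelsS S)) hQi
  rw [hmi] at fK eK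
  refine ⟨fK, ?_⟩
  have hrange : sha1 S (dualMu (permRep ρ (Γ ⧸ M))) ≤ LinearMap.range (Q'.mi (levelsS S)).map₁ := by
    rw [← Q'.ker_map₁_j hdI]
    intro z hz
    obtain ⟨⟨c, hc⟩, rfl⟩ := H1mk_surjective z
    have hx : (Mor.ofMap (levelsS S) (permDualInv ρ (Γ ⧸ M))).map₁
        (H1mk (levelsS S) (dualMu (permRep ρ (Γ ⧸ M))) ⟨c, hc⟩) ∈
        sha1 S (permRep (dualMu ρ) (Γ ⧸ M)) := by
      rw [mem_sha1_iff]
      intro u
      rw [resAt_map₁, (mem_sha1_iff S _).mp hz u, map_zero]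
    rw [LinearMap.mem_ker]
    refine Eq.trans ?_ (hcap _ hx)
    rw [Mor.map₁_mk, Mor.map₁_mk, Mor.map₁_mk]
    refine congrArg _ (Subtype.ext (funext fun t => LinearMap.ext fun v => ?_))
    show Q'.j (c t) v = sumMap (dualMu ρ) (Γ ⧸ M) (permDualInv ρ (Γ ⧸ M) (c t)) v
    rw [hQ'j, dualMap_apply, hQi]
    conv_lhs => rw [← permDual_permDualInv (ρ := ρ) (Γ ⧸ M) (c t)]
    rw [permDual_apply, sumMap_apply, LinearMap.sum_apply]
    rfl
  rw [dualSel_imageConds Q Q' (fun b c => by rw [hQ'i]; rfl) hdI hdC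
      (fun u => (hSM.perfect hI hdI u).2),
    finrank_comap_of_le _ _ hrange, Q'.ker_map₁_i hdI] at gC
  have r1 := rank_map₁_j Q hβ
  have r2 := rank_δ₀ Q' hdI
  have r3 : (∑ u, finrank (ZMod p) (imageConds S Q u)) +
      (∑ u, finrank (ZMod p) (GalCoh.H1 (localLevels (locAt S u)) (ρ.comp (locAt S u)))) +
      (∑ u, finrank (ZMod p) (H0 ((permRep ρ (Γ ⧸ M)).comp (locAt S u)))) =
      (∑ u, finrank (ZMod p)
        (GalCoh.H1 (localLevels (locAt S u)) ((permRep ρ (Γ ⧸ M)).comp (locAt S u)))) +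
      (∑ u, finrank (ZMod p) (H0 ((cokerRep ρ (Γ ⧸ M)).comp (locAt S u)))) +
      ∑ u, finrank (ZMod p) (H0 (ρ.comp (locAt S u))) := by
    simp only [← Finset.sum_add_distrib]
    exact Finset.sum_congr rfl fun u _ =>
      rank_map₁_j (resSes (locAt S u) Q) (hβ.comp (compat_locAt S u))
  omega

/-- A class dies in a deep enough permutation module. -/
theorem Setup.exists_killing_level (hρ : ∀ x ∈ N, ρ x = 1) (z : GalCoh.H2 (levelsS S) ρ) :
    ∃ U, (levelsS S).mem U ∧ ∀ M : Subgroup Γ, (levelsS S).mem M → M ≤ U → M ≤ N →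
      (Mor.ofMap (levelsS S) (constMap ρ (Γ ⧸ M))).map₂ z = 0 := by
  obtain ⟨F, rfl⟩ := H2mk_surjective z
  obtain ⟨-, U, hU, hc⟩ := mem_Z2_iff.mp F.2
  refine ⟨U, hU, fun M hM hMU hMN => (evalMor_map₂_bijective (hS.isCtsRep hρ) hM).1 ?_⟩
  rw [map_zero, Mor.map₂_mk, Mor.map₂_mk, H2mk_eq_zero_iff, mem_B2_iff]
  refine ⟨fun _ => (F : Γ × Γ → V) (1, 1), Levels.isCts₁_const _, funext fun ⟨a, b⟩ => ?_⟩
  show d1 (ρ.comp M.subtype) _ (a, b) = (F : Γ × Γ → V) (a, b)
  have := hc 1 1 (a : Γ) (hMU a.2) (b : Γ) (hMU b.2)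
  rw [one_mul, one_mul] at this
  rw [this, d1_apply, MonoidHom.comp_apply, Subgroup.coe_subtype, hρ _ (hMN a.2)]
  simp

/-- **`Ш²` has the dimension of `Ш¹` of the dual.** -/
theorem Setup.finrank_sha2 [FiniteDimensional (ZMod p) V] (hρ : ∀ x ∈ N, ρ x = 1) :
    FiniteDimensional (ZMod p) (sha1 S (dualMu ρ)) ∧ FiniteDimensional (ZMod p) (sha2 S ρ) ∧
      finrank (ZMod p) (sha2 S ρ) = finrank (ZMod p) (sha1 S (dualMu ρ)) := by
  classical
  refine ⟨(hS.gw_full hρ).2.1, ?_⟩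
  have hlev : ∀ (s : Finset (GalCoh.H2 (levelsS S) ρ)), ∃ U, (levelsS S).mem U ∧ ∀ M : Subgroup Γ,
      (levelsS S).mem M → M ≤ U → M ≤ N → ∀ z ∈ s,
        (Mor.ofMap (levelsS S) (constMap ρ (Γ ⧸ M))).map₂ z = 0 := fun s => by
    induction s using Finset.induction with
    | empty => exact ⟨⊤, (levelsS S).top_mem, fun M _ _ _ z hz => absurd hz (Finset.notMem_empty z)⟩
    | @insert a s _ ih =>
      obtain ⟨U, hU, h⟩ := ih
      obtain ⟨U', hU', h'⟩ := hS.exists_killing_level hρ a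
      refine ⟨U ⊓ U', (levelsS S).inf_mem hU hU', fun M hM hle hN z hz => ?_⟩
      rcases Finset.mem_insert.mp hz with rfl | hz
      · exact h' M hM (hle.trans inf_le_right) hN
      · exact h M hM (hle.trans inf_le_left) hN z hz
  have hstep : ∀ (s : Finset (GalCoh.H2 (levelsS S) ρ)),
      ∃ K : Submodule (ZMod p) (GalCoh.H2 (levelsS S) ρ),
        FiniteDimensional (ZMod p) K ∧ finrank (ZMod p) K = finrank (ZMod p) (sha1 S (dualMu ρ)) ∧
        K ≤ sha2 S ρ ∧ ∀ z ∈ s, z ∈ sha2 S ρ → z ∈ K := fun s => by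
    obtain ⟨U, hU, h⟩ := hlev s
    obtain ⟨M, hM, hMn, hMN, hMU, hcap⟩ := hS.exists_capitulation hρ hU
    have : Finite (Γ ⧸ M) := finite_quotient hM
    let _ : Fintype (Γ ⧸ M) := Fintype.ofFinite _
    obtain ⟨h1, h2⟩ := hS.finrank_killed hρ hM hMn hMN hcap
    exact ⟨_, h1, h2, inf_le_left, fun z hz hz' => ⟨hz', h M hM hMU hMN z hz⟩⟩
  obtain ⟨K₀, hK₀, hc₀, hle₀, -⟩ := hstep ∅
  have : Finite K₀ := Module.finite_of_finite (ZMod p)
  have hK : sha2 S ρ ≤ K₀ := fun z hz => by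
    obtain ⟨K, hK, hc, -, hmem⟩ := hstep (insert z (Set.Finite.toFinset (Set.toFinite (K₀ : Set _))))
    have hsub : K₀ ≤ K := fun w hw =>
      hmem w (Finset.mem_insert_of_mem ((Set.Finite.mem_toFinset _).mpr hw)) (hle₀ hw)
    rw [Submodule.eq_of_le_of_finrank_eq hsub (hc₀.trans hc.symm)]
    exact hmem z (Finset.mem_insert_self z _) hz
  rw [show sha2 S ρ = K₀ from le_antisymm hK hle₀]
  exact ⟨hK₀, hc₀⟩

end Fermat.Agent.RowS55
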