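import Fermat.Agent.RowS55.LocalTheory

/-!
# Local duality in degree one

For modules trivial on the level, with a perfect pairing into `τ`, the cup product followed by the
invariant is a perfect pairing of first cohomology groups.
-/

noncomputable section

namespace Fermat.Agent.RowS55

open Fermat.Agent.GalCoh Module
open Representation (IntertwiningMap)

variable {p : ℕ} [Fact p.Prime] {G : Type} [Group G] {L : Levels G}
  {τ : Representation (ZMod p) G (ZMod p)} {inv : H2 L τ →ₗ[ZMod p] ZMod p} {H : Subgroup G}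
  {V W : Type} [AddCommGroup V] [Module (ZMod p) V] [AddCommGroup W] [Module (ZMod p) W]
  {ρ : Representation (ZMod p) G V} {σ : Representation (ZMod p) G W}

/-- The flipped pairing. -/
def flipPairing (P : RepPairing ρ σ τ) : RepPairing σ ρ τ where
  e := P.e.flip
  comm g w v := P.comm g v w

variable (inv) in
/-- The invariant of the cup product. -/
def cupInv (P : RepPairing ρ σ τ) (hσ : IsCtsRep L σ) :
    H1 L ρ →ₗ[ZMod p] H1 L σ →ₗ[ZMod p] ZMod p :=
  (P.cup hσ).compr₂ inv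

theorem cupInv_mk (P : RepPairing ρ σ τ) (hσ : IsCtsRep L σ) (x : ↥(Z1 L ρ)) (y : ↥(Z1 L σ)) :
    cupInv inv P hσ (H1mk L ρ x) (H1mk L σ y) =
      inv (H2mk L τ ⟨_, P.cupFun_mem_Z2 hσ x.2 y.2⟩) := rfl

/-- Graded commutativity. -/
theorem cupInv_flip (P : RepPairing ρ σ τ) (hρ : IsCtsRep L ρ) (hσ : IsCtsRep L σ)
    (x : H1 L ρ) (y : H1 L σ) :
    cupInv inv (flipPairing P) hρ y x = -cupInv inv P hσ x y := by
  obtain ⟨⟨x, hx⟩, rfl⟩ := H1mk_surjective x
  obtain ⟨⟨y, hy⟩, rfl⟩ := H1mk_surjective y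
  rw [cupInv_mk, cupInv_mk, eq_neg_iff_add_eq_zero, ← map_add, ← map_add]
  refine (congrArg inv (H2mk_eq_zero_iff.mpr (mem_B2_iff.mpr
    ⟨fun g => -P.e (x g) (y g), ?_, ?_⟩))).trans (map_zero inv)
  · exact (mem_Z1_iff.mp hx).2.map₂ (mem_Z1_iff.mp hy).2 fun a b => -P.e a b
  funext z
  obtain ⟨g, h⟩ := z
  show d1 τ (fun g => -P.e (x g) (y g)) (g, h) =
    (flipPairing P).cupFun y x (g, h) + P.cupFun x y (g, h)
  simp only [d1_apply, RepPairing.cupFun_apply, flipPairing, LinearMap.flip_apply,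
    (mem_Z1_iff.mp hx).1, (mem_Z1_iff.mp hy).1, map_neg, map_add, LinearMap.add_apply, P.comm]
  abel

/-- The pairing into functions on `G ⧸ H`. -/
def permPairing (P : RepPairing ρ σ τ) (H : Subgroup G) :
    RepPairing ρ (permRep σ (G ⧸ H)) (permRep τ (G ⧸ H)) where
  e := LinearMap.mk₂ (ZMod p) (fun v F x => P.e v (F x))
    (fun v v' F => funext fun x => by simp) (fun c v F => funext fun x => by simp)
    (fun v F F' => funext fun x => by simp) (fun c v F => funext fun x => by simp)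
  comm g v F := funext fun x => by
    simp only [LinearMap.mk₂_apply, permRep_apply]
    exact P.comm g v (F (g⁻¹ • x))

/-- The functions with zero sum. -/
abbrev sumKer [Fintype (G ⧸ H)] (σ : Representation (ZMod p) G W) :
    Submodule (ZMod p) (G ⧸ H → W) :=
  LinearMap.ker (sumMap σ (G ⧸ H)).toLinearMap

theorem mem_sumKer [Fintype (G ⧸ H)] {F : G ⧸ H → W} :
    F ∈ sumKer (H := H) σ ↔ ∑ x, F x = 0 := by
  show sumMap σ (G ⧸ H) F = 0 ↔ _
  rw [sumMap_apply]

/-- The representation on the functions with zero sum. -/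
def sumKerRep [Fintype (G ⧸ H)] (σ : Representation (ZMod p) G W) :
    Representation (ZMod p) G ↥(sumKer (H := H) σ) where
  toFun g := (permRep σ (G ⧸ H) g).restrict fun F hF => by
    show sumMap σ (G ⧸ H) (permRep σ (G ⧸ H) g F) = 0
    rw [(sumMap σ (G ⧸ H)).isIntertwining, show sumMap σ (G ⧸ H) F = 0 from hF, map_zero]
  map_one' := LinearMap.ext fun F => Subtype.ext (by simp)
  map_mul' g h := LinearMap.ext fun F => Subtype.ext (by simp [map_mul])

/-- The inclusion. -/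
def sumKerIncl [Fintype (G ⧸ H)] (σ : Representation (ZMod p) G W) :
    IntertwiningMap (sumKerRep (H := H) σ) (permRep σ (G ⧸ H)) :=
  LinearMap.intertwiningMap_of_isIntertwiningMap _ _ (sumKer (H := H) σ).subtype fun _ _ => rfl

namespace LocalTheory

variable (hT : LocalTheory L τ inv H)
include hT

theorem finiteDimensional_Z1 [FiniteDimensional (ZMod p) W] (hσ : ∀ h ∈ H, σ h = 1) :
    FiniteDimensional (ZMod p) ↥(Z1 L σ) := by
  have := finite_quotient hT.mem
  let b := Module.finBasis (ZMod p) W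
  let M : Submodule (ZMod p) (↥H → ZMod p) :=
    { carrier := {χ | IsHom L H χ}
      zero_mem' := ⟨fun _ _ => by simp, (L.comap H.subtype).isCts₁_const 0⟩
      add_mem' := fun {χ κ} hχ hκ => ⟨fun a c => by
        simp only [Pi.add_apply, hχ.1, hκ.1]; abel, hχ.2.add hκ.2⟩
      smul_mem' := fun c χ hχ => ⟨fun a b => by simp [hχ.1, mul_add], hχ.2.comp (c • ·)⟩ }
  have := hT.homs_finite M fun χ hχ => hχ
  let Φ : ↥(Z1 L σ) →ₗ[ZMod p] (Fin (finrank (ZMod p) W) → M) × (G ⧸ H → W) :=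
    LinearMap.prod (LinearMap.pi fun i =>
      (((b.coord i).compLeft ↥H) ∘ₗ LinearMap.funLeft (ZMod p) W H.subtype ∘ₗ
        (Z1 L σ).subtype).codRestrict M fun c => ⟨fun a d => by
          obtain ⟨hc, -⟩ := mem_Z1_iff.mp c.2
          show b.coord i ((c : G → W) (a * d : ↥H)) =
            b.coord i ((c : G → W) a) + b.coord i ((c : G → W) d)
          rw [Subgroup.coe_mul, hc, hσ _ a.2, Module.End.one_apply, add_comm, map_add],
          (((mem_Z1_iff.mp c.2).2).precomp (L.compat_comap H.subtype)).comp (b.coord i)⟩)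
      (LinearMap.funLeft (ZMod p) W (cosetRep H) ∘ₗ (Z1 L σ).subtype)
  refine Module.Finite.of_injective Φ ((injective_iff_map_eq_zero Φ).mpr fun c hc => ?_)
  obtain ⟨hcoc, -⟩ := mem_Z1_iff.mp c.2
  refine Subtype.ext (funext fun g => ?_)
  have h1 : ∀ h : ↥H, (c : G → W) h = 0 := fun h => b.forall_coord_eq_zero_iff.mp fun i =>
    congrFun (congrArg Subtype.val (congrFun (congrArg Prod.fst hc) i)) h
  have h2 : ∀ x, (c : G → W) (cosetRep H x) = 0 := fun x => congrFun (congrArg Prod.snd hc) x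
  have hk : (cosetRep H (g : G ⧸ H))⁻¹ * g ∈ H := QuotientGroup.eq.mp (mk_cosetRep _)
  have e := hcoc (cosetRep H (g : G ⧸ H)) ((cosetRep H (g : G ⧸ H))⁻¹ * g)
  rw [mul_inv_cancel_left, h2, h1 ⟨_, hk⟩, map_zero, add_zero] at e
  exact e

theorem finiteDimensional_H1 [FiniteDimensional (ZMod p) W] (hσ : ∀ h ∈ H, σ h = 1) :
    FiniteDimensional (ZMod p) (H1 L σ) :=
  have := hT.finiteDimensional_Z1 hσ
  Module.Finite.of_surjective _ H1mk_surjective

/-- A class orthogonal to everything vanishes on `H`. -/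
theorem apply_eq_zero_of_orthogonal (P : RepPairing ρ σ τ) (hρH : ∀ h ∈ H, ρ h = 1)
    (hσH : ∀ h ∈ H, σ h = 1) (hsurj : Function.Surjective P.e.flip) (x : ↥(Z1 L ρ))
    (horth : ∀ y, cupInv inv P (hT.isCtsRep_of_trivial hσH) (H1mk L ρ x) y = 0) :
    ∀ h : ↥H, (x : G → V) h = 0 := by
  obtain ⟨ft⟩ := hT.fintype_quot
  obtain ⟨hxc, hxcts⟩ := mem_Z1_iff.mp x.2
  intro h₀
  refine (Module.forall_dual_apply_eq_zero_iff (ZMod p) _).mp fun f => by_contra fun hne => ?_
  obtain ⟨w, rfl⟩ := hsurj f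
  let χ : ↥H → ZMod p := fun h => P.e ((x : G → V) h) w
  have hχ : IsHom L H χ := ⟨fun a b => by
    show P.e ((x : G → V) ((a * b : ↥H) : G)) w = _
    rw [Subgroup.coe_mul, hxc, hρH _ a.2, Module.End.one_apply, map_add, LinearMap.add_apply,
      add_comm], (hxcts.precomp (L.compat_comap H.subtype)).comp fun v => P.e v w⟩
  obtain ⟨κ, hκ, hB⟩ := hT.exists_cup χ hχ ⟨h₀, hne⟩
  have hσc := hT.isCtsRep_of_trivial hσH
  have hline : (fun h : ↥H => κ h • w) ∈ Z1 (L.comap H.subtype) (σ.comp H.subtype) :=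
    mem_Z1_iff.mpr ⟨fun a b => by
      simp only [hκ.1, MonoidHom.comp_apply, Subgroup.coe_subtype, hσH _ a.2,
        Module.End.one_apply]
      rw [add_smul, add_comm], hκ.2.comp (· • w)⟩
  have hY := lift₁_mem_Z1 hσc hT.mem hline
  set Y := lift₁ σ H fun h : ↥H => κ h • w
  have hP' := isCtsRep_permRep hσc hT.mem
  have hy : (Mor.ofMap L (sumMap σ (G ⧸ H))).cochain₁ Y ∈ Z1 L σ := Mor.cochain₁_mem_Z1 _ hY
  have h1 := horth (H1mk L σ ⟨_, hy⟩)
  rw [cupInv_mk] at h1
  have e : P.cupFun (x : G → V) ((Mor.ofMap L (sumMap σ (G ⧸ H))).cochain₁ Y) =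
      (Mor.ofMap L (sumMap τ (G ⧸ H))).cochain₂ ((permPairing P H).cupFun (x : G → V) Y) := by
    funext z
    obtain ⟨g, g'⟩ := z
    show P.e ((x : G → V) g) (σ g (sumMap σ (G ⧸ H) (Y g'))) =
      sumMap τ (G ⧸ H) ((permPairing P H).e ((x : G → V) g) (permRep σ (G ⧸ H) g (Y g')))
    rw [← (sumMap σ (G ⧸ H)).isIntertwining, sumMap_apply, sumMap_apply, map_sum]
    rfl
  have h2 : inv ((Mor.ofMap L (sumMap τ (G ⧸ H))).map₂
      (H2mk L (permRep τ (G ⧸ H)) ⟨_, (permPairing P H).cupFun_mem_Z2 hP' x.2 hY⟩)) = 0 := by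
    rw [Mor.map₂_mk]
    exact (congrArg (fun c => inv (H2mk L τ c)) (Subtype.ext e.symm)).trans h1
  have h3 := congrArg (evalMor L τ H).map₂ (hT.inv_sum ft _ h2)
  rw [map_zero, Mor.map₂_mk, H2mk_eq_zero_iff] at h3
  refine hB ?_
  convert h3 using 1
  funext z
  obtain ⟨a, b⟩ := z
  show χ a * κ b = P.e ((x : G → V) a) (permRep σ (G ⧸ H) (a : G) (Y (b : G)) ((1 : G) : G ⧸ H))
  rw [permRep_apply, ← Subgroup.coe_inv, smul_one_of_mem, hσH _ a.2, Module.End.one_apply]
  have hYb : Y (b : G) ((1 : G) : G ⧸ H) = κ b • w :=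
    evalMor_lift₁ (L := L) (ρ := σ) (fun h : ↥H => κ h • w) b
  rw [hYb, map_smul, smul_eq_mul, mul_comm]

/-- **Left non-degeneracy.** -/
theorem eq_zero_of_orthogonal [FiniteDimensional (ZMod p) W] (P : RepPairing ρ σ τ)
    (hρH : ∀ h ∈ H, ρ h = 1) (hσH : ∀ h ∈ H, σ h = 1) (hinj : Function.Injective P.e)
    (hsurj : Function.Surjective P.e) (hsurj' : Function.Surjective P.e.flip) (x : H1 L ρ)
    (horth : ∀ y, cupInv inv P (hT.isCtsRep_of_trivial hσH) x y = 0) : x = 0 := by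
  classical
  obtain ⟨ft⟩ := hT.fintype_quot
  obtain ⟨x, rfl⟩ := H1mk_surjective x
  have hx0 := hT.apply_eq_zero_of_orthogonal P hρH hσH hsurj' x horth
  obtain ⟨hxc, hxcts⟩ := mem_Z1_iff.mp x.2
  have hσc := hT.isCtsRep_of_trivial hσH
  have hxcoset : ∀ g g' : G, (g : G ⧸ H) = g' → (x : G → V) g = (x : G → V) g' := fun g g' e => by
    have hh := QuotientGroup.eq.mp e
    have := hxc g (g⁻¹ * g')
    rw [mul_inv_cancel_left, hx0 ⟨_, hh⟩, map_zero, zero_add] at this
    exact this.symm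
  let xb : G ⧸ H → V := fun c => (x : G → V) (cosetRep H c)
  have hxb : ∀ g : G, xb (g : G ⧸ H) = (x : G → V) g := fun g => hxcoset _ _ (mk_cosetRep _)
  let Φ : (G ⧸ H → W) →ₗ[ZMod p] ZMod p := ∑ c, P.e (xb c) ∘ₗ LinearMap.proj c
  have hΦ : ∀ F, Φ F = ∑ c, P.e (xb c) (F c) := fun F => by simp [Φ, LinearMap.sum_apply]
  have hequiv : ∀ g F, Φ (permRep σ (G ⧸ H) g F) =
      P.e ((x : G → V) g) (σ g (∑ c, F c)) + τ g (Φ F) := fun g F => by
    rw [hΦ, hΦ, map_sum, map_sum, map_sum, ← Finset.sum_add_distrib]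
    refine Fintype.sum_equiv (MulAction.toPerm g⁻¹) _ _ fun c => ?_
    show P.e (xb c) (permRep σ (G ⧸ H) g F c) =
      P.e ((x : G → V) g) (σ g (F (g⁻¹ • c))) + τ g (P.e (xb (g⁻¹ • c)) (F (g⁻¹ • c)))
    obtain ⟨a, ha⟩ := QuotientGroup.mk_surjective (g⁻¹ • c)
    have hc : c = ((g * a : G) : G ⧸ H) := by
      rw [← smul_eq_mul, ← MulAction.Quotient.smul_coe, ha, smul_inv_smul]
    rw [permRep_apply, ← P.comm, ← ha, hxb, hc, hxb, hxc, map_add, LinearMap.add_apply, add_comm]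
  let φ : IntertwiningMap (sumKerRep (H := H) σ) τ :=
    LinearMap.intertwiningMap_of_isIntertwiningMap _ _ (Φ ∘ₗ (sumKer (H := H) σ).subtype) fun g F => by
      show Φ (permRep σ (G ⧸ H) g (F : G ⧸ H → W)) = τ g (Φ (F : G ⧸ H → W))
      rw [hequiv, mem_sumKer.mp F.2, map_zero, map_zero, zero_add]
  let i := (Mor.ofMap L (sumKerIncl (H := H) σ)).map₂
  -- the functional of `φ` vanishes on the classes dying in the permutation module
  have hker : intFunctional inv φ ∈ (LinearMap.ker i).dualAnnihilator := by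
    rw [Submodule.mem_dualAnnihilator]
    intro z hz
    obtain ⟨w, rfl⟩ := H2mk_surjective z
    rw [LinearMap.mem_ker] at hz
    obtain ⟨u, hu, hdu⟩ := mem_B2_iff.mp (H2mk_eq_zero_iff.mp hz)
    have hdu' : ∀ g g', ((w : G × G → ↥(sumKer (H := H) σ)) (g, g') : G ⧸ H → W) =
        d1 (permRep σ (G ⧸ H)) u (g, g') := fun g g' => (congrFun hdu (g, g')).symm
    have hy : (fun g => ∑ c, u g c) ∈ Z1 L σ := by
      refine mem_Z1_iff.mpr ⟨fun g g' => ?_, hu.comp fun F => ∑ c, F c⟩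
      have := mem_sumKer.mp ((w : G × G → ↥(sumKer (H := H) σ)) (g, g')).2
      rw [hdu'] at this
      simp only [d1_apply, Pi.add_apply, Pi.sub_apply, Finset.sum_add_distrib,
        Finset.sum_sub_distrib] at this
      have e : ∑ c, permRep σ (G ⧸ H) g (u g') c = σ g (∑ c, u g' c) := by
        have e' := (sumMap σ (G ⧸ H)).isIntertwining _ _ g (u g')
        rwa [sumMap_apply, sumMap_apply] at e'
      rw [e] at this
      rw [← sub_eq_zero, ← neg_eq_zero, ← this]
      abel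
    have h1 := horth (H1mk L σ ⟨_, hy⟩)
    rw [cupInv_mk] at h1
    rw [intFunctional_apply, Mor.map₂_mk, ← h1]
    refine congrArg inv (H2mk_eq_iff.mpr (mem_B2_iff.mpr ⟨fun g => Φ (u g), hu.comp Φ, ?_⟩))
    funext z
    obtain ⟨g, g'⟩ := z
    show d1 τ (fun g => Φ (u g)) (g, g') =
      Φ ((w : G × G → ↥(sumKer (H := H) σ)) (g, g') : G ⧸ H → W) -
        P.e ((x : G → V) g) (σ g (∑ c, u g' c))
    rw [hdu', d1_apply, d1_apply, map_add, map_sub, hequiv]
    abel
  rw [← LinearMap.range_dualMap_eq_dualAnnihilator_ker] at hker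
  obtain ⟨θ, hθ⟩ := hker
  obtain ⟨Φ', hΦ'⟩ := hT.exists_intFunctional_eq hσH θ
  have hC0 : ∀ h ∈ H, sumKerRep (H := H) σ h = 1 := fun h hh =>
    LinearMap.ext fun F => Subtype.ext (funext fun c => by
      show permRep σ (G ⧸ H) h (F : G ⧸ H → W) c = _
      rw [permRep_apply, hσH h hh, smul_eq_self_of_normal hT.normal le_rfl (H.inv_mem hh)]
      rfl)
  let ψ : IntertwiningMap (sumKerRep (H := H) σ) τ :=
    LinearMap.intertwiningMap_of_isIntertwiningMap _ _
      (φ.toLinearMap - Φ'.toLinearMap ∘ₗ (sumKer (H := H) σ).subtype) fun g F => by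
      show φ (sumKerRep (H := H) σ g F) - Φ' (permRep σ (G ⧸ H) g (F : G ⧸ H → W)) =
        τ g (φ F - Φ' (F : G ⧸ H → W))
      rw [φ.isIntertwining, Φ'.isIntertwining, map_sub]
  have hψ : ψ.toLinearMap = 0 := by
    by_contra hne
    obtain ⟨z, hz⟩ := hT.exists_intFunctional_ne_zero hC0 ψ hne
    refine hz ?_
    let Φi : IntertwiningMap (sumKerRep (H := H) σ) τ :=
      LinearMap.intertwiningMap_of_isIntertwiningMap _ _
        (Φ'.toLinearMap ∘ₗ (sumKer (H := H) σ).subtype) fun g F =>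
          Φ'.isIntertwining _ _ g (F : G ⧸ H → W)
    rw [intFunctional_sub φ Φi ψ rfl z, sub_eq_zero, ← hθ]
    show θ (i z) = _
    rw [← hΦ', intFunctional_apply, intFunctional_apply]
    refine congrArg inv ?_
    obtain ⟨F, rfl⟩ := H2mk_surjective z
    rfl
  have hagree : ∀ F, (∑ c, F c = 0) → Φ' F = Φ F := fun F hF =>
    (sub_eq_zero.mp (LinearMap.congr_fun hψ ⟨F, mem_sumKer.mpr hF⟩)).symm
  let o : G ⧸ H := ((1 : G) : G ⧸ H)
  obtain ⟨v₀, hv₀⟩ := hsurj ((Φ - Φ'.toLinearMap) ∘ₗ LinearMap.single (ZMod p) (fun _ : G ⧸ H => W) o)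
  have hform : ∀ F, Φ' F = Φ F - P.e v₀ (∑ c, F c) := fun F => by
    have h0 := hagree (F - Pi.single o (∑ c, F c)) (by
      simp [Finset.sum_sub_distrib, Finset.sum_pi_single'])
    rw [hv₀, LinearMap.comp_apply, LinearMap.sub_apply, LinearMap.single_apply]
    rw [map_sub, map_sub] at h0
    show Φ' F = Φ F - (Φ (Pi.single o _) - Φ' (Pi.single o _))
    linear_combination h0
  refine H1mk_eq_zero_iff.mpr (mem_B1_iff.mpr ⟨-v₀, fun g => ?_⟩)
  refine hinj (LinearMap.ext fun w => ?_)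
  have h1 := Φ'.isIntertwining _ _ g (Pi.single o (σ g⁻¹ w))
  have esum : ∑ c, (Pi.single o (σ g⁻¹ w) : G ⧸ H → W) c = σ g⁻¹ w := by
    simp [Finset.sum_pi_single']
  have esum' : ∑ c, permRep σ (G ⧸ H) g (Pi.single o (σ g⁻¹ w)) c = w := by
    have e' := (sumMap σ (G ⧸ H)).isIntertwining _ _ g (Pi.single o (σ g⁻¹ w))
    rw [sumMap_apply, sumMap_apply, esum, ← Module.End.mul_apply, ← map_mul, mul_inv_cancel,
      map_one] at e'
    exact e'
  rw [hform, hform, hequiv, esum, esum', map_sub, ← P.comm, ← Module.End.mul_apply (f := σ g),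
    ← map_mul, mul_inv_cancel, map_one, Module.End.one_apply] at h1
  rw [map_neg, sub_neg_eq_add, map_add, map_neg, LinearMap.add_apply, LinearMap.neg_apply]
  linear_combination h1

omit [Group G] hT in
/-- Surjectivity of a perfect pairing. -/
theorem surjective_of_injective {A B : Type} [AddCommGroup A] [Module (ZMod p) A]
    [FiniteDimensional (ZMod p) A] [AddCommGroup B] [Module (ZMod p) B]
    [FiniteDimensional (ZMod p) B] (e : A →ₗ[ZMod p] B →ₗ[ZMod p] ZMod p)
    (hl : Function.Injective e) (hr : Function.Injective e.flip) :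
    Function.Surjective e ∧ Function.Surjective e.flip ∧
      finrank (ZMod p) A = finrank (ZMod p) B := by
  have h1 := LinearMap.finrank_le_finrank_of_injective hl
  have h2 := LinearMap.finrank_le_finrank_of_injective hr
  rw [Subspace.dual_finrank_eq] at h1 h2
  have e1 : finrank (ZMod p) A = finrank (ZMod p) B := le_antisymm h1 h2
  exact ⟨(LinearMap.injective_iff_surjective_of_finrank_eq_finrank
      (e1.trans Subspace.dual_finrank_eq.symm)).mp hl,
    (LinearMap.injective_iff_surjective_of_finrank_eq_finrank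
      (e1.symm.trans Subspace.dual_finrank_eq.symm)).mp hr, e1⟩

/-- **Local duality in degree one.** -/
theorem cupInv_perfect [FiniteDimensional (ZMod p) V] [FiniteDimensional (ZMod p) W]
    (P : RepPairing ρ σ τ) (hρH : ∀ h ∈ H, ρ h = 1) (hσH : ∀ h ∈ H, σ h = 1)
    (hl : Function.Injective P.e) (hr : Function.Injective P.e.flip) (hσ : IsCtsRep L σ) :
    Function.Injective (cupInv inv P hσ) ∧ Function.Injective (cupInv inv P hσ).flip := by
  obtain ⟨hs, hs', -⟩ := surjective_of_injective P.e hl hr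
  refine ⟨(injective_iff_map_eq_zero _).mpr fun x hx =>
    hT.eq_zero_of_orthogonal P hρH hσH hl hs hs' x fun y => LinearMap.congr_fun hx y,
    (injective_iff_map_eq_zero _).mpr fun y hy => ?_⟩
  refine hT.eq_zero_of_orthogonal (flipPairing P) hσH hρH hr hs' hs y fun x => ?_
  rw [cupInv_flip P _ hσ, show cupInv inv P hσ x y = 0 from LinearMap.congr_fun hy x, neg_zero]

end LocalTheory

end Fermat.Agent.RowS55
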