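import Fermat.Agent.RowS55.UnramCup
import Fermat.Agent.GalCoh.Descent.Divisor
import Fermat.Agent.GalCoh.Descent.Principal
import Fermat.Agent.GalCoh.Descent.OutPlaces
import Fermat.Agent.Deform.Hermite

/-!
# Roots of generators of the ideals of a level

A prime splitting completely in the level `N` becomes, after multiplication by an integer prime to
`p`, principal outside `S` at a bounded level `M`; the `p`-th roots of the generators give Kummer
homomorphisms of `M` with prescribed inertia values.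
-/

noncomputable section

namespace Fermat.Agent.RowS55

open Fermat.Agent.GalCoh Fermat.Agent.GalCoh.Descent
open ExtCitation (primeLocalPlace pPrime)
open scoped Pointwise NumberField

local notation "Ω" => AlgebraicClosure ℚ
local notation "Γ" => (AlgebraicClosure ℚ ≃ₐ[ℚ] AlgebraicClosure ℚ)

local instance isAlgebraicQbar_kb : Algebra.IsAlgebraic ℚ (AlgebraicClosure ℚ) :=
  AlgebraicClosure.isAlgebraic ℚ
local instance isAlgClosureQbar_kb : IsAlgClosure ℚ (AlgebraicClosure ℚ) :=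
  ⟨inferInstance, inferInstance⟩
local instance isGaloisQbar_kb : IsGalois ℚ (AlgebraicClosure ℚ) :=
  have : Normal ℚ (AlgebraicClosure ℚ) := IsAlgClosure.normal ℚ (AlgebraicClosure ℚ)
  have : Algebra.IsSeparable ℚ (AlgebraicClosure ℚ) :=
    Algebra.IsAlgebraic.isSeparable_of_perfectField
  IsGalois.mk

/-- An element with bounded orbit lying in a Galois field unramified outside `S` is fixed by a
level depending on the bound. -/
theorem exists_level_fixing (S : Finset Nat.Primes) (B : ℕ) :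
    ∃ U, (levelsS S).mem U ∧ ∀ (y : Ω) (F : IntermediateField ℚ Ω), F.IsUnramifiedOutside S →
      Normal ℚ F → y ∈ F → (MulAction.orbit Γ y).ncard ≤ B → ∀ s ∈ U, s y = y := by
  obtain ⟨U, hU, hle⟩ := Deform.exists_level_le_of_index_le S B.factorial
  refine ⟨U, hU, fun y F hF hFn hyF hB s hs => ?_⟩
  have := hF.1
  have : Normal ℚ F := hFn
  set K := MulAction.stabilizer Γ y
  have hFK : F.fixingSubgroup ≤ K := fun g hg =>
    (IntermediateField.mem_fixingSubgroup_iff _ _).mp hg y hyF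
  have hn : F.fixingSubgroup.Normal :=
    (InfiniteGalois.normal_iff_isGalois F).mpr
      (have : IsGalois ℚ F := IsGalois.mk; this)
  have hKmem : (levelsS S).mem K := ⟨F, hF, hFK⟩
  have : K.FiniteIndex := (levelsS S).finiteIndex hKmem
  have : Finite (Γ ⧸ K) := Subgroup.finite_quotient_of_finiteIndex
  refine K.normalCore_le (hle K.normalCore K.normalCore_normal
    ⟨F, hF, Subgroup.normal_le_normalCore.mpr hFK⟩ ?_ hs)
  rw [Subgroup.normalCore_eq_ker, Subgroup.index_ker]
  refine (Subgroup.card_le_card_group _).trans ?_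
  rw [Nat.card_perm]
  exact Nat.factorial_le (by rw [← Subgroup.index_eq_card, MulAction.index_stabilizer]; exact hB)

/-- The inertia groups outside `S` lie in an `S`-level. -/
theorem inertia_le_level {S : Finset Nat.Primes} {U : Subgroup Γ} (hU : (levelsS S).mem U)
    {q : Nat.Primes} (hq : q ∉ S) {A : ValuationSubring Ω} (hA : A.LiesOverPrime (q : ℕ)) :
    A.inertiaSubgroupIn ℚ ≤ U := by
  obtain ⟨F, hF, hFU⟩ := hU
  exact (hF.2 q hq A hA).trans hFU

/-- The orbit of a `P`-th root of an element of `fixedField N` is bounded. -/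
theorem orbit_ncard_le {N : Subgroup Γ} [Finite (Γ ⧸ N)] {P : ℕ} (hP : 0 < P) {y : Ω}
    (hy : ∀ n ∈ N, n (y ^ P) = y ^ P) :
    (MulAction.orbit Γ y).ncard ≤ N.index * P := by
  classical
  let _ : Fintype (Γ ⧸ N) := Fintype.ofFinite _
  let Z : Finset Ω := Finset.univ.biUnion fun x : Γ ⧸ N =>
    (Polynomial.nthRoots P (x.out (y ^ P))).toFinset
  have hsub : MulAction.orbit Γ y ⊆ ↑Z := by
    rintro _ ⟨g, rfl⟩
    refine Finset.mem_biUnion.mpr ⟨(g : Γ ⧸ N), Finset.mem_univ _, ?_⟩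
    rw [Multiset.mem_toFinset, Polynomial.mem_nthRoots hP]
    obtain ⟨⟨n, hn⟩, he⟩ := QuotientGroup.mk_out_eq_mul N g
    rw [he, AlgEquiv.mul_apply, hy n hn, map_pow]
    rfl
  refine (Set.ncard_le_ncard hsub Z.finite_toSet).trans ?_
  rw [Set.ncard_coe_finset, Subgroup.index_eq_card, Nat.card_eq_fintype_card]
  exact Finset.card_biUnion_le_card_mul _ _ _ fun x _ =>
    (Multiset.toFinset_card_le _).trans (Polynomial.card_nthRoots _ _)

variable {p : ℕ} [Fact p.Prime]

/-- The Kummer homomorphism of `q` at the place over `q`. -/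
def kummerQ (p : ℕ) [Fact p.Prime] (q : Nat.Primes) (s : Γ) : ZMod p :=
  kummer (p := p) (pRoot p ((q : ℕ) : Ω)) s

theorem pRoot_q_ne_zero (p : ℕ) [Fact p.Prime] (q : Nat.Primes) :
    pRoot p ((q : ℕ) : Ω) ≠ 0 := fun h => by
  have := pRoot_pow (Fact.out : p.Prime).pos ((q : ℕ) : Ω)
  rw [h, zero_pow (Fact.out : p.Prime).ne_zero] at this
  exact q.2.ne_zero (Nat.cast_eq_zero.mp this.symm)

/-- Inertia moves the root of `q`. -/
theorem exists_kummerQ_ne_zero (q : Nat.Primes) :
    ∃ τ ∈ (primeLocalPlace q).inertiaSubgroupIn ℚ, kummerQ p q τ ≠ 0 := by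
  by_contra! h
  set y := pRoot p ((q : ℕ) : Ω)
  have hA := primeLocalPlace_liesOver q
  have hy0 := pRoot_q_ne_zero p q
  have hyp : y ^ p = ((q : ℕ) : Ω) := pRoot_pow (Fact.out : p.Prime).pos _
  obtain ⟨m, hm⟩ := exists_int_nu_eq q.2 hA hy0 fun σ hσ => by
    have h1 := mu_kummer (p := p) hy0 (s := σ) (by rw [hyp, map_natCast])
    rw [show kummer (p := p) y σ = 0 from h σ hσ, mu_zero, eq_comm, div_eq_one_iff_eq hy0] at h1
    exact h1
  have h1 := nu_pow q.2 hA hy0 p
  rw [hyp, nu_natCast_self q.2 hA, hm] at h1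
  have h2 : (p : ℤ) * m = 1 := by exact_mod_cast h1.symm
  have := Int.eq_one_of_dvd_one (by positivity) (Dvd.intro m h2)
  exact (Fact.out : p.Prime).ne_one (by exact_mod_cast this)

/-- **The level of principalisation.** -/
theorem exists_kummer_level {S : Finset Nat.Primes} (hpS : pPrime p ∈ S) {N : Subgroup Γ}
    (hN : (levelsS S).mem N) (hNn : N.Normal) {U₀ : Subgroup Γ} (hU₀ : (levelsS S).mem U₀) :
    ∃ M, (levelsS S).mem M ∧ M.Normal ∧ M ≤ N ∧ M ≤ U₀ ∧ ∃ e : ℕ, (e : ZMod p) ≠ 0 ∧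
      ∀ q : Nat.Primes, q ∉ S → SplitIn N q → ∀ g₀ : Γ, ∃ y : Ω, y ≠ 0 ∧
        (∀ s ∈ M, s (y ^ p) = y ^ p) ∧
        (∃ U, (levelsS (insert q S)).mem U ∧ ∀ u ∈ U, u y = y) ∧
        (∀ g : Γ, (g : Γ ⧸ N) = g₀ → ∀ τ ∈ (primeLocalPlace q).inertiaSubgroupIn ℚ,
          kummer (p := p) (g y) τ = (e : ZMod p) * kummerQ p q τ) ∧
        ∀ g : Γ, (g : Γ ⧸ N) ≠ g₀ → ∀ τ ∈ (primeLocalPlace q).inertiaSubgroupIn ℚ,
          kummer (p := p) (g y) τ = 0 := by
  classical
  have hNf : fullLevels.mem N := by simpa using compat_levelsS S hN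
  set E := IntermediateField.fixedField N
  have hEfix : E.fixingSubgroup = N := fixingSubgroup_fixedField_of_mem hNf
  have hfinE : FiniteDimensional ℚ E := finiteDimensional_fixedField hNf
  have hE : E.IsUnramifiedOutside S := ⟨hfinE, fun q hq A hA τ hτ => by
    rw [hEfix]; exact inertia_le_level hN hq hA hτ⟩
  have hEgal : IsGalois ℚ E := (InfiniteGalois.normal_iff_isGalois E).mp (by rw [hEfix]; exact hNn)
  have : NumberField E := { to_charZero := inferInstance, to_finiteDimensional := hfinE }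
  have : Finite (Γ ⧸ N) := Descent.finite_quotient hNf
  have hp : p.Prime := Fact.out
  obtain ⟨m, e, he, hcl⟩ := Nat.exists_eq_pow_mul_and_not_dvd
    (Fintype.card_ne_zero (α := ClassGroup (𝓞 E))) p hp.ne_one
  obtain ⟨U, hU, hUfix⟩ := exists_level_fixing S (N.index * p ^ m)
  obtain ⟨M, hM, hMn, hMle⟩ :=
    (levelsS S).exists_normal ((levelsS S).inf_mem ((levelsS S).inf_mem hU hN) hU₀)
  refine ⟨M, hM, hMn, fun x hx => (hMle hx).1.2, fun x hx => (hMle hx).2, e,
    fun h => he ((ZMod.natCast_eq_zero_iff _ _).mp h), fun q hqS hq g₀ => ?_⟩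
  have hA := primeLocalPlace_liesOver q
  -- the divisor
  let Dv : ValuationSubring Ω → ℤ := fun B =>
    if ∃ g : Γ, (g : Γ ⧸ N) = g₀ ∧ g⁻¹ • primeLocalPlace q = B then 1 else 0
  have hDv : ∀ g : Γ, Dv (g⁻¹ • primeLocalPlace q) = if (g : Γ ⧸ N) = g₀ then 1 else 0 := fun g => by
    refine if_congr ⟨fun ⟨g', hg', he⟩ => ?_, fun h => ⟨g, h, rfl⟩⟩ rfl rfl
    have hdec : g * g'⁻¹ ∈ (primeLocalPlace q).decompositionSubgroup ℚ := by
      show (g * g'⁻¹) • primeLocalPlace q = primeLocalPlace q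
      rw [mul_smul, he, smul_inv_smul]
    obtain ⟨a, ha⟩ := toStd_surjective q ⟨_, hdec⟩
    have hmem : g * g'⁻¹ ∈ N := by
      have := congrArg Subtype.val ha
      rw [coe_toStd] at this
      have h2 : g * g'⁻¹ = placeLoc (Sum.inr q) a := this.symm
      exact h2.symm ▸ hq a
    rw [← hg', QuotientGroup.eq]
    have := hNn.conj_mem _ (N.inv_mem hmem) g⁻¹
    simpa [mul_assoc] using this
  have hinv : ∀ n ∈ E.fixingSubgroup, ∀ (r : Nat.Primes) A, r ∉ S → A.LiesOverPrime (r : ℕ) →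
      Dv (n • A) = Dv A := fun n hn r A _ _ => by
    rw [hEfix] at hn
    refine if_congr ⟨fun ⟨g, hg, he⟩ => ⟨g * n, ?_, ?_⟩, fun ⟨g, hg, he⟩ => ⟨g * n⁻¹, ?_, ?_⟩⟩
      rfl rfl
    · rw [QuotientGroup.mk_mul_of_mem _ hn, hg]
    · rw [mul_inv_rev, mul_smul, he, inv_smul_smul]
    · rw [QuotientGroup.mk_mul_of_mem _ (N.inv_mem hn), hg]
    · rw [mul_inv_rev, inv_inv, mul_smul, he]
  have hzero : ∀ (r : Nat.Primes) A, r ≠ q → A.LiesOverPrime (r : ℕ) → Dv A = 0 :=
    fun r A hr hA' => if_neg fun ⟨g, _, he⟩ =>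
      hr (liesOverPrime_unique hA' (he ▸ liesOverPrime_smul hA g⁻¹))
  obtain ⟨α, hαE, hα0, hα⟩ := exists_elem_nu hE Dv hinv
    ⟨{q}, fun r A _ hr hA' => hzero r A (by simpa using hr) hA'⟩
  set P := p ^ m with hPdef
  have hP : 0 < P := Nat.pow_pos hp.pos
  let z := pRoot P α
  have hz : z ^ P = α := pRoot_pow hP α
  have hz0 : z ≠ 0 := fun h => hα0 (by rw [← hz, h, zero_pow hP.ne'])
  have hnuz : ∀ (r : Nat.Primes) A, r ∉ S → A.LiesOverPrime (r : ℕ) →
      nu r A z = (e : ℚ) * Dv A := fun r A hr hA' => by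
    have h := hα r A hr hA'
    rw [← hz, nu_pow r.2 hA' hz0, hcl] at h
    push_cast at h
    rw [mul_assoc] at h
    exact mul_left_cancel₀ (Nat.cast_ne_zero.mpr hP.ne') h
  -- `z` is fixed by `M`
  have hzM : ∀ s ∈ M, s z = z := by
    obtain ⟨F, hF, hFn, -, hyF⟩ := exists_root_level (p := pPrime p) (E := E) hpS hE m
      (fun _ : Unit => z) (fun _ => hz0) (fun _ => by show z ^ P ∈ E; rw [hz]; exact hαE)
      fun _ r A hr hA' => by
        obtain ⟨b, hbE, hb0, hb⟩ := exists_mem_nu_eq hE hr hA' ((e : ℤ) * Dv A)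
        refine ⟨b, hbE, hb0, ?_⟩
        show nu r A (z ^ P) = (P : ℚ) * nu r A b
        rw [nu_pow r.2 hA' hz0, hnuz r A hr hA', hb]
        push_cast
        ring
    intro s hs
    refine hUfix z F hF hFn (hyF ()) (orbit_ncard_le hP fun n hn => ?_) s (hMle hs).1.1
    rw [hz]
    exact (IntermediateField.mem_fixingSubgroup_iff _ _).mp (hEfix ▸ hn) α hαE
  let y := pRoot p z
  have hy : y ^ p = z := pRoot_pow hp.pos z
  have hy0 : y ≠ 0 := fun h => hz0 (by rw [← hy, h, zero_pow hp.ne_zero])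
  have hkey : ∀ g : Γ, ∀ τ ∈ (primeLocalPlace q).inertiaSubgroupIn ℚ,
      kummer (p := p) (g y) τ =
        (((if (g : Γ ⧸ N) = g₀ then e else 0 : ℕ)) : ZMod p) * kummerQ p q τ := by
    intro g τ hτ
    set n : ℕ := if (g : Γ ⧸ N) = g₀ then e else 0
    have hτM : τ ∈ M := inertia_le_level hM hqS hA hτ
    have hnu : nu q (primeLocalPlace q) (g z) = n := by
      rw [show primeLocalPlace q = g • (g⁻¹ • primeLocalPlace q) from (smul_inv_smul g _).symm,
        nu_smul q.2 (liesOverPrime_smul hA g⁻¹) g hz0, hnuz q _ hqS (liesOverPrime_smul hA g⁻¹),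
        hDv]
      simp only [n]
      split_ifs <;> simp
    set r := pRoot p ((q : ℕ) : Ω)
    have hr : r ^ p = ((q : ℕ) : Ω) := pRoot_pow hp.pos _
    have hr0 : r ≠ 0 := pRoot_q_ne_zero p q
    have hq0 : ((q : ℕ) : Ω) ≠ 0 := Nat.cast_ne_zero.mpr q.2.ne_zero
    have hgy : g y ≠ 0 := by simpa using hy0
    have hτgz : τ (g z) = g z := by
      have := congrArg g (hzM _ (hMn.conj_mem _ hτM g⁻¹))
      simpa [AlgEquiv.mul_apply] using this
    have hw : τ (g y / r ^ n) = g y / r ^ n := by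
      refine apply_root_eq (k := 1) (a := g z / ((q : ℕ) : Ω) ^ n) (b := 1) q.2 hA hp
        (fun h => hqS (by rwa [show q = pPrime p from Subtype.ext h.symm])) hτ
        (div_ne_zero hgy (pow_ne_zero _ hr0)) ?_ ?_ one_ne_zero (map_one τ) ?_
      · rw [pow_one, div_pow, ← map_pow, hy, ← pow_mul, mul_comm, pow_mul, hr]
      · rw [map_div₀, map_pow, map_natCast, hτgz]
      · rw [nu_div q.2 hA (by simpa using hz0) (pow_ne_zero _ hq0), nu_pow q.2 hA hq0,
          nu_natCast_self q.2 hA, hnu, nu_one q.2 hA]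
        ring
    have hτr : τ (r ^ p) = r ^ p := by rw [hr, map_natCast]
    have hτy : τ ((g y) ^ p) = (g y) ^ p := by rw [← map_pow, hy, hτgz]
    refine mu_injective ?_
    rw [mu_kummer hgy hτy, mu_natCast_mul, kummerQ, mu_kummer hr0 hτr, div_pow]
    rw [map_div₀, map_pow, div_eq_iff (pow_ne_zero _ (by simpa using hr0))] at hw
    rw [hw, div_eq_div_iff hgy (pow_ne_zero _ hr0), div_mul_eq_mul_div,
      div_mul_cancel₀ _ (pow_ne_zero _ hr0)]
    ring
  refine ⟨y, hy0, fun s hs => by rw [hy]; exact hzM s hs, ?_, fun g hg τ hτ => ?_,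
    fun g hg τ hτ => ?_⟩
  · have hMf : fullLevels.mem M := by simpa using compat_levelsS S hM
    have hMfix := Descent.fixingSubgroup_fixedField_of_mem hMf
    have hE' : (IntermediateField.fixedField M).IsUnramifiedOutside (insert q S) :=
      (show (IntermediateField.fixedField M).IsUnramifiedOutside S from
        ⟨finiteDimensional_fixedField hMf,
          fun r hr A hA' τ hτ => by rw [hMfix]; exact inertia_le_level hM hr hA' hτ⟩).mono
        (Finset.subset_insert q S)
    obtain ⟨F, hF, -, -, hyF⟩ := exists_root_level (p := pPrime p)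
      (E := IntermediateField.fixedField M) (Finset.mem_insert_of_mem hpS) hE' 1
      (fun _ : Unit => y) (fun _ => hy0) (fun _ => by
        show y ^ p ^ 1 ∈ _
        rw [pow_one, hy]
        exact (IntermediateField.mem_fixedField_iff _ _).mpr hzM)
      fun _ r A hr hA' => by
        refine ⟨1, one_mem _, one_ne_zero, ?_⟩
        rw [Finset.mem_insert, not_or] at hr
        show nu r A (y ^ p ^ 1) = _
        rw [pow_one, hy, hnuz r A hr.2 hA', hzero r A hr.1 hA', nu_one r.2 hA']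
        simp
    exact ⟨F.fixingSubgroup, ⟨F, hF, le_rfl⟩, fun u hu =>
      (IntermediateField.mem_fixingSubgroup_iff _ _).mp hu y (hyF ())⟩
  · rw [hkey g τ hτ, if_pos hg]
  · rw [hkey g τ hτ, if_neg hg, Nat.cast_zero, zero_mul]

end Fermat.Agent.RowS55
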