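import Fermat.Agent.CFT.Brauer.LocalBrauer
import Fermat.Agent.CFT.Brauer.Mu
import Mathlib.NumberTheory.Padics.RingHoms
import Mathlib.LinearAlgebra.Dimension.Finite

/-!
# The index of the `p`-th powers in an algebraic henselian local field

For `H` open normal of index `n` in `Γ`, the fixed field of `Γ` lying in `ℚ_q`, the `p`-th powers
have index at most `p ^ (2 + n)` (`p ^ 2` when `p ≠ q`) in the fixed units of `H`.
-/

noncomputable section

namespace Fermat.Agent.RowS55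

open Fermat.Agent.CFT.Brauer

variable {q : ℕ} [Fact q.Prime] {j : Qb →+* PadicAlgCl q} {p : ℕ} [hp : Fact p.Prime]

theorem norm_natCast_prime_pos : 0 < ‖j (p : Qb)‖ :=
  norm_pos_iff.mpr ((map_ne_zero_iff j j.injective).mpr (Nat.cast_ne_zero.mpr hp.out.ne_zero))

theorem finite_card_le_of_rank_le {M : Type} [AddCommGroup M] [Module (ZMod p) M] {n : ℕ}
    (h : Module.rank (ZMod p) M ≤ n) : Finite M ∧ Nat.card M ≤ p ^ n := by
  have : Module.Finite (ZMod p) M :=
    Module.rank_lt_aleph0_iff.mp (h.trans_lt Cardinal.natCast_lt_aleph0)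
  refine ⟨Module.finite_of_finite (ZMod p), ?_⟩
  rw [Module.natCard_eq_pow_finrank (K := ZMod p), Nat.card_zmod]
  exact Nat.pow_le_pow_right hp.out.pos (Module.finrank_le_of_rank_le h)

/-- Near `1` the `p`-th power multiplies distances to `1` by `|p|`. -/
theorem norm_pow_sub_one {t : Qb} (ht : ‖j t‖ ^ (p - 1) < ‖j (p : Qb)‖) :
    ‖j ((1 + t) ^ p - 1)‖ = ‖j (p : Qb)‖ * ‖j t‖ := by
  rcases eq_or_ne t 0 with rfl | ht0
  · simp
  have hP0 := norm_natCast_prime_pos (j := j) (p := p)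
  have hP1 : ‖j (p : Qb)‖ ≤ 1 := norm_natCast_le_one p
  have htp : 0 < ‖j t‖ := norm_pos_iff.mpr ((map_ne_zero_iff j j.injective).mpr ht0)
  have h2 := hp.out.two_le
  have ht1 : ‖j t‖ < 1 := by
    by_contra! h
    linarith [one_le_pow₀ (n := p - 1) h]
  set R : Qb := ∑ k ∈ Finset.range (p - 1), t ^ (k + 2) * (p.choose (k + 2) : Qb) with hR
  have e : (1 + t) ^ p - 1 = (p : Qb) * t + R := by
    conv_lhs => rw [add_comm, add_pow]
    rw [show p + 1 = (p - 1) + 1 + 1 by omega, Finset.sum_range_succ', Finset.sum_range_succ']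
    simp only [one_pow, mul_one, pow_zero, Nat.choose_zero_right, Nat.cast_one, pow_one, zero_add,
      Nat.choose_one_right, add_sub_cancel_right]
    rw [add_comm, mul_comm (p : Qb)]
  have hlt : ‖j R‖ < ‖j (p : Qb)‖ * ‖j t‖ := by
    let b := max (‖j (p : Qb)‖ * ‖j t‖ ^ 2) (‖j t‖ ^ p)
    have hb : b < ‖j (p : Qb)‖ * ‖j t‖ := max_lt
      (by rw [pow_two]; exact mul_lt_mul_of_pos_left (mul_lt_of_lt_one_left htp ht1) hP0)
      (by
        rw [show p = p - 1 + 1 by omega, pow_succ]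
        conv_rhs => rw [← show p = p - 1 + 1 by omega]
        exact mul_lt_mul_of_pos_right ht htp)
    refine lt_of_le_of_lt (norm_map_sum_le _ _ (le_max_of_le_right (by positivity)) fun k hk => ?_) hb
    rw [map_mul, norm_mul, map_pow, norm_pow]
    rw [Finset.mem_range] at hk
    rcases eq_or_lt_of_le (show k + 2 ≤ p by omega) with he | hlt
    · rw [he, Nat.choose_self, Nat.cast_one, map_one, norm_one, mul_one]
      exact le_max_right _ _
    · obtain ⟨c, hc⟩ := hp.out.dvd_choose_self (by omega) hlt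
      refine le_max_of_le_left ?_
      rw [hc, Nat.cast_mul, map_mul, norm_mul, mul_comm (‖j (p : Qb)‖) (‖j t‖ ^ 2)]
      refine mul_le_mul (pow_le_pow_of_le_one htp.le ht1.le (by omega))
        (mul_le_of_le_one_right hP0.le (norm_natCast_le_one c)) (by positivity) (by positivity)
  rw [e, map_add, IsUltrametricDist.norm_add_eq_max_of_norm_ne_norm
    (by rw [map_mul, norm_mul]; exact hlt.ne'), map_mul, norm_mul, max_eq_left hlt.le]

variable (j) in
/-- The units congruent to `1` within `r`. -/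
def ballU (H : Subgroup GQ) {r : ℝ} (hr0 : 0 ≤ r) : Subgroup Qbˣ where
  carrier := {u | u ∈ unitsAt j H ∧ ‖j ((u : Qb) - 1)‖ ≤ r}
  one_mem' := ⟨one_mem _, by simpa using hr0⟩
  mul_mem' := fun {a b} ⟨ha, ha'⟩ ⟨hb, hb'⟩ => ⟨mul_mem ha hb, by
    rw [Units.val_mul, show (a : Qb) * b - 1 = (a : Qb) * ((b : Qb) - 1) + ((a : Qb) - 1) by ring]
    refine (norm_map_add_le _ _).trans (max_le ?_ ha')
    rw [map_mul, norm_mul, ha.2, one_mul]
    exact hb'⟩
  inv_mem' := fun {a} ⟨ha, ha'⟩ => ⟨inv_mem ha, by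
    rw [Units.val_inv_eq_inv_val, show (a : Qb)⁻¹ - 1 = -((a : Qb)⁻¹ * ((a : Qb) - 1)) by
      field_simp; ring, map_neg, norm_neg, map_mul, norm_mul, map_inv₀, norm_inv, ha.2, inv_one,
      one_mul]
    exact ha'⟩

variable (j) in
/-- The fixed elements within `r` of `0`. -/
def ballA (H : Subgroup GQ) {r : ℝ} (hr0 : 0 ≤ r) : AddSubgroup Qb where
  carrier := {x | x ∈ fixF H ∧ ‖j x‖ ≤ r}
  zero_mem' := ⟨zero_mem _, by simpa using hr0⟩
  add_mem' := fun ⟨ha, ha'⟩ ⟨hb, hb'⟩ => ⟨add_mem ha hb, (norm_map_add_le _ _).trans (max_le ha' hb')⟩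
  neg_mem' := fun ⟨ha, ha'⟩ => ⟨neg_mem ha, by rwa [map_neg, norm_neg]⟩

theorem mem_ballA {H : Subgroup GQ} {r : ℝ} {hr0 : 0 ≤ r} {x : Qb} :
    x ∈ ballA j H hr0 ↔ x ∈ fixF H ∧ ‖j x‖ ≤ r := Iff.rfl

variable {Γ H : Subgroup GQ} {ι : Type} [Fintype ι] [DecidableEq ι] {rep : ι → GQ}
  (R : RepSystem Γ H rep)
  (hbase : ∀ x ∈ fixF Γ, j x ∈ (⊥ : IntermediateField ℚ_[q] (PadicAlgCl q)))

include R hbase in
/-- Any `n + 1` small elements are dependent modulo `q`. -/
theorem exists_int_relation {r : ℝ} (hr : 0 ≤ r) {m : Type} [Fintype m]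
    (hm : Fintype.card ι < Fintype.card m) (b : m → Qb) (hb : ∀ i, b i ∈ ballA j H hr) :
    ∃ a : m → ℕ, (∃ i, a i = 1) ∧ ‖j (∑ i, (a i : Qb) * b i)‖ ≤ (q : ℝ)⁻¹ * r := by
  classical
  obtain ⟨θ, hθ, hdet⟩ := R.exists_det_ne_zero
  have hspec := fun i => R.coord_spec hdet hθ (hb i).1
  choose c hc using fun (i : m) (k : ι) => IntermediateField.mem_bot.mp (hbase _ ((hspec i).2 k))
  have hdep : ¬ LinearIndependent ℚ_[q] c := fun hli => by
    have := hli.fintype_card_le_finrank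
    rw [Module.finrank_pi] at this
    omega
  obtain ⟨g, hg, i₀, hi₀⟩ := Fintype.not_linearIndependent_iff.mp hdep
  obtain ⟨i₁, -, hmax⟩ := Finset.univ.exists_max_image (fun i => ‖g i‖) ⟨i₀, Finset.mem_univ _⟩
  have hg1 : g i₁ ≠ 0 := fun h0 => by
    have := hmax i₀ (Finset.mem_univ _)
    rw [h0, norm_zero, norm_le_zero_iff] at this
    exact hi₀ this
  let u : m → ℤ_[q] := fun i => ⟨g i / g i₁, by
    rw [norm_div, div_le_one (norm_pos_iff.mpr hg1)]
    exact hmax i (Finset.mem_univ _)⟩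
  refine ⟨fun i => (PadicInt.toZMod (u i)).val, ⟨i₁, ?_⟩, ?_⟩
  · have : u i₁ = 1 := Subtype.ext (div_self hg1)
    simp only [this, map_one, ZMod.val_one]
  have hzero : ∑ i, (algebraMap ℚ_[q] (PadicAlgCl q) (u i : ℚ_[q])) * j (b i) = 0 := by
    have hk : ∀ k, ∑ i, g i * c i k = 0 := fun k => by
      have := congrFun hg k
      simpa using this
    calc ∑ i, (algebraMap ℚ_[q] (PadicAlgCl q) (u i : ℚ_[q])) * j (b i)
        = ∑ i, ∑ k, algebraMap ℚ_[q] (PadicAlgCl q) (g i / g i₁ * c i k) * j (rep k θ) := by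
          refine Finset.sum_congr rfl fun i _ => ?_
          conv_lhs => rw [(hspec i).1]
          rw [map_sum, Finset.mul_sum]
          refine Finset.sum_congr rfl fun k _ => ?_
          rw [map_mul, ← mul_assoc, ← hc i k, ← map_mul]
      _ = 0 := by
          rw [Finset.sum_comm]
          refine Finset.sum_eq_zero fun k _ => ?_
          rw [← Finset.sum_mul, ← map_sum,
            show ∑ i, g i / g i₁ * c i k = (∑ i, g i * c i k) / g i₁ by
              rw [Finset.sum_div]; exact Finset.sum_congr rfl fun i _ => by ring,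
            hk k, zero_div, map_zero, zero_mul]
  rw [map_sum, ← sub_zero (∑ i, j _), ← hzero, ← Finset.sum_sub_distrib]
  refine IsUltrametricDist.norm_sum_le_of_forall_le_of_nonneg (by positivity) fun i _ => ?_
  rw [map_mul, map_natCast, ← map_natCast (algebraMap ℚ_[q] (PadicAlgCl q)), ← sub_mul, norm_mul,
    ← map_sub, norm_algebraMap']
  refine mul_le_mul ?_ (hb i).2 (norm_nonneg _) (by positivity)
  set a := (PadicInt.toZMod (u i)).val
  have h0 : PadicInt.toZMod ((a : ℤ_[q]) - u i) = 0 := by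
    rw [map_sub, map_natCast, ZMod.natCast_zmod_val, sub_self]
  rw [← RingHom.mem_ker, PadicInt.ker_toZMod, PadicInt.maximalIdeal_eq_span_p,
    Ideal.mem_span_singleton] at h0
  obtain ⟨w, hw⟩ := h0
  have hw' : (a : ℚ_[q]) - (u i : ℚ_[q]) = (q : ℚ_[q]) * (w : ℚ_[q]) := by
    exact_mod_cast congrArg ((↑) : ℤ_[q] → ℚ_[q]) hw
  rw [hw', norm_mul, Padic.norm_p]
  exact mul_le_of_le_one_right (by positivity) w.2

include R hbase in
/-- The small elements modulo `|p|` times smaller ones. -/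
theorem card_ballA_le {r : ℝ} (hr : 0 ≤ r) :
    (ballA j H (mul_nonneg (norm_nonneg (j (p : Qb))) hr)).relIndex (ballA j H hr) ≠ 0 ∧
    (ballA j H (mul_nonneg (norm_nonneg (j (p : Qb))) hr)).relIndex (ballA j H hr)
      ≤ p ^ (if p = q then Fintype.card ι else 0) := by
  classical
  set s := ‖j (p : Qb)‖ * r with hs
  by_cases hpq : p = q
  swap
  · rw [if_neg hpq, pow_zero]
    have h1 : ‖j (p : Qb)‖ = 1 := by
      rw [map_natCast, ← map_natCast (algebraMap ℚ_[q] (PadicAlgCl q)), norm_algebraMap']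
      exact Padic.norm_natCast_eq_one_iff.mpr ((Nat.coprime_primes (Fact.out : q.Prime) hp.out).mpr
        (Ne.symm hpq))
    have : (ballA j H (mul_nonneg (norm_nonneg (j (p : Qb))) hr)) = ballA j H hr := by
      ext x
      simp only [mem_ballA, h1, one_mul]
    rw [this, AddSubgroup.relIndex_self]
    exact ⟨one_ne_zero, le_rfl⟩
  rw [if_pos hpq]
  set B := ballA j H hr
  set B' := (ballA j H (mul_nonneg (norm_nonneg (j (p : Qb))) hr)).addSubgroupOf B
  have hexp : ∀ x : B ⧸ B', p • x = 0 := fun x => by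
    obtain ⟨⟨y, hy⟩, rfl⟩ := QuotientAddGroup.mk_surjective x
    rw [← QuotientAddGroup.mk_nsmul, QuotientAddGroup.eq_zero_iff]
    refine ⟨nsmul_mem hy.1 p, ?_⟩
    show ‖j (p • y)‖ ≤ s
    rw [nsmul_eq_mul, map_mul, norm_mul]
    exact mul_le_mul_of_nonneg_left hy.2 (norm_nonneg _)
  let : Module (ZMod p) (B ⧸ B') := AddCommGroup.zmodModule hexp
  have hrank : Module.rank (ZMod p) (B ⧸ B') ≤ (Fintype.card ι : ℕ) := by
    refine rank_le fun T hT => ?_
    by_contra! hlt
    obtain ⟨a, ⟨i₁, hi₁⟩, ha⟩ := exists_int_relation R hbase hr (m := T)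
      (by rwa [Fintype.card_coe]) (fun x => ((x : B ⧸ B').out : B)) (fun x => (x : B ⧸ B').out.2)
    have hsum : ∑ x : T, ((a x : ℕ) : ZMod p) • ((x : B ⧸ B')) = 0 := by
      have e : ∀ x : T, ((a x : ℕ) : ZMod p) • ((x : B ⧸ B')) =
          (((a x) • ((x : B ⧸ B').out : B) : B) : B ⧸ B') := fun x => by
        rw [Nat.cast_smul_eq_nsmul, QuotientAddGroup.mk_nsmul, QuotientAddGroup.out_eq']
      rw [Finset.sum_congr rfl fun x _ => e x, ← QuotientAddGroup.mk_sum,
        QuotientAddGroup.eq_zero_iff]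
      refine ⟨(∑ x : T, (a x) • ((x : B ⧸ B').out : B) : B).2.1, ?_⟩
      show ‖j ((∑ x : T, (a x) • ((x : B ⧸ B').out : B) : B) : Qb)‖ ≤ s
      rw [hs, hpq, norm_map_q]
      refine le_trans (le_of_eq ?_) ha
      congr 2
      push_cast
      simp [nsmul_eq_mul]
    have := Fintype.linearIndependent_iff.mp hT _ hsum i₁
    rw [hi₁, Nat.cast_one] at this
    exact one_ne_zero this
  obtain ⟨hF, hcard⟩ := finite_card_le_of_rank_le hrank
  exact ⟨Nat.card_ne_zero.mpr ⟨⟨0⟩, hF⟩, hcard⟩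

variable (hΓ : LocalAt j H)

include R hbase hΓ in
/-- The `p`-th powers of the units have finite index, bounded by the degree. -/
theorem relIndex_units_pow_le :
    ((unitsAt j H).map (powMonoidHom p)).relIndex (unitsAt j H) ≠ 0 ∧
      ((unitsAt j H).map (powMonoidHom p)).relIndex (unitsAt j H)
        ≤ p * p ^ (if p = q then Fintype.card ι else 0) := by
  classical
  set U := unitsAt j H with hU
  set P := ‖j (p : Qb)‖ with hP
  have hP0 : 0 < P := norm_natCast_prime_pos (j := j) (p := p)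
  have hP1 : P ≤ 1 := norm_natCast_le_one p
  have h2 := hp.out.two_le
  obtain ⟨ρ, hρ0, hρ1, hρ⟩ := exists_radius (j := j) hp.out.pos
  -- a small radius
  set ε := min (min (P ^ p) (ρ ^ p)) (1 / 2) with hε
  have hε0 : 0 < ε := lt_min (lt_min (pow_pos hP0 _) (pow_pos hρ0 _)) (by norm_num)
  obtain ⟨r, hr0, hrε, hr1⟩ : ∃ r : ℝ, 0 < r ∧ r < ε ∧ r < 1 :=
    ⟨ε / 2, by positivity, by linarith, by linarith [min_le_right (min (P ^ p) (ρ ^ p)) (1 / 2 : ℝ)]⟩
  have hrP : r < P ^ p := hrε.trans_le ((min_le_left _ _).trans (min_le_left _ _))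
  have hrρ : r < ρ ^ p := hrε.trans_le ((min_le_left _ _).trans (min_le_right _ _))
  set s := P * r with hs
  have hsr : s ≤ r := mul_le_of_le_one_left hr0.le hP1
  have hs0 : 0 ≤ s := mul_nonneg hP0.le hr0.le
  have hsmall : ∀ t : ℝ, 0 ≤ t → t ^ p ≤ r → t ^ (p - 1) < P := by
    intro t ht hle
    refine lt_of_pow_lt_pow_left₀ p hP0.le ?_
    rw [← pow_mul, mul_comm, pow_mul]
    calc (t ^ p) ^ (p - 1) ≤ t ^ p :=
          pow_le_of_le_one (by positivity) (hle.trans hr1.le) (by omega)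
      _ < P ^ p := hle.trans_lt hrP
  -- roots
  have hroot : ∀ u ∈ ballU j H hs0, ∃ z ∈ ballU j H hr0.le, z ^ p = u := by
    rintro u ⟨hu, hu'⟩
    obtain ⟨z, hz, hzu, hzle⟩ := hΓ.exists_root hp.out.pos hρ1 hρ (mem_fixU.mp hu.1)
      (Units.ne_zero u) hρ0.le ((hu'.trans hsr).trans_lt hrρ)
    have hz0 : z ≠ 0 := fun h => Units.ne_zero u (by rw [← hzu, h, zero_pow hp.out.ne_zero])
    have hz1 : ‖j z‖ = 1 := by
      have h1 := congrArg (fun x => ‖j x‖) hzu
      simp only [map_pow, norm_pow, hu.2] at h1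
      exact (pow_eq_one_iff_of_nonneg (norm_nonneg _) hp.out.ne_zero).mp h1
    refine ⟨Units.mk0 z hz0, ⟨⟨mem_fixU.mpr hz, hz1⟩, ?_⟩, Units.ext (by simpa using hzu)⟩
    have hexact := norm_pow_sub_one (j := j) (p := p) (t := z - 1)
      (hsmall _ (norm_nonneg _) ((hzle.trans hu').trans hsr))
    rw [add_sub_cancel, hzu] at hexact
    show ‖j (z - 1)‖ ≤ r
    refine le_of_mul_le_mul_left ?_ hP0
    rw [← hexact]
    exact hu'
  have hpow : ∀ u ∈ ballU j H hr0.le, u ^ p ∈ ballU j H hs0 := by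
    rintro u ⟨hu, hu'⟩
    refine ⟨pow_mem hu p, ?_⟩
    rw [Units.val_pow_eq_pow_val]
    have hexact := norm_pow_sub_one (j := j) (p := p) (t := (u : Qb) - 1)
      (hsmall _ (norm_nonneg _) ((pow_le_of_le_one (norm_nonneg _) (hu'.trans hr1.le)
        hp.out.ne_zero).trans hu'))
    rw [add_sub_cancel] at hexact
    rw [hexact]
    exact mul_le_mul_of_nonneg_left hu' hP0.le
  set Ur := ballU j H hr0.le with hUr
  set Us := ballU j H hs0 with hUs
  set Up := U.map (powMonoidHom p) with hUp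
  set A := U ⊓ Us.comap (powMonoidHom p) with hA
  have hUsUp : Us ≤ Up := fun u hu => by
    obtain ⟨z, hz, hzu⟩ := hroot u hu
    exact ⟨z, hz.1, hzu⟩
  have hUpU : Up ≤ U := by
    rintro _ ⟨u, hu, rfl⟩
    exact pow_mem hu p
  have hUrA : Ur ≤ A := fun u hu => ⟨hu.1, hpow u hu⟩
  have hUsr : Us ≤ Ur := fun u hu => ⟨hu.1, hu.2.trans hsr⟩
  have hUrU : Ur ≤ U := fun u hu => hu.1
  -- the finite index of `Ur`
  have hfin : Ur.relIndex U ≠ 0 := by
    obtain ⟨T, -, hcov⟩ := hΓ.exists_finite_cover hr0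
    let pick : Qb → Qbˣ := fun t =>
      if ht : ∃ u ∈ U, ‖j ((u : Qb) - t)‖ < r then ht.choose else 1
    refine (relIndex_le_card_of_cover (T.image pick) ?_ fun x hx => ?_).1
    · intro t ht
      obtain ⟨t, -, rfl⟩ := Finset.mem_image.mp ht
      simp only [pick]
      split_ifs with h1
      · exact h1.choose_spec.1
      · exact one_mem _
    · obtain ⟨t, ht, hxt⟩ := hcov (x : Qb) (mem_fixU.mp hx.1) hx.2.le
      have h1 : ∃ u ∈ U, ‖j ((u : Qb) - t)‖ < r := ⟨x, hx, hxt⟩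
      refine ⟨pick t, Finset.mem_image_of_mem _ ht, ?_⟩
      simp only [pick, dif_pos h1]
      obtain ⟨hu, hut⟩ := h1.choose_spec
      set u := h1.choose
      refine ⟨mul_mem (inv_mem hu) hx, ?_⟩
      rw [Units.val_mul, Units.val_inv_eq_inv_val,
        show (u : Qb)⁻¹ * (x : Qb) - 1 = (u : Qb)⁻¹ * (((x : Qb) - t) + -((u : Qb) - t)) by
          field_simp; ring, map_mul, norm_mul, map_inv₀, norm_inv, hu.2, inv_one, one_mul]
      refine (norm_map_add_le _ _).trans (max_le hxt.le ?_)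
      rw [map_neg, norm_neg]
      exact hut.le
  -- `A` is generated by `Ur` and roots of unity
  have hAr : Ur.relIndex A ≤ p := by
    let T := (Finset.univ.image (muU p)).filter fun z => z ∈ A
    refine le_trans (relIndex_le_card_of_cover (H := Ur) (K := A) T (fun t ht =>
      (Finset.mem_filter.mp ht).2) fun x hx => ?_).2 ?_
    · obtain ⟨z, hz, hzx⟩ := hroot _ hx.2
      refine ⟨x / z, Finset.mem_filter.mpr ⟨?_, div_mem hx (hUrA hz)⟩, ?_⟩
      · refine Finset.mem_image.mpr ⟨_, Finset.mem_univ _, muU_muLog (p := p) ?_⟩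
        rw [div_pow, hzx, powMonoidHom_apply, div_self']
      · rwa [inv_div, div_mul_cancel]
    · exact (Finset.card_filter_le _ _).trans (Finset.card_image_le.trans (by simp))
  -- the small quotient
  obtain ⟨hB0, hB⟩ := card_ballA_le (p := p) R hbase hr0.le
  have hrs : Us.relIndex Ur ≤ (ballA j H (mul_nonneg (norm_nonneg (j (p : Qb))) hr0.le)).relIndex
      (ballA j H hr0.le) := by
    set B := ballA j H hr0.le
    set B' := (ballA j H (mul_nonneg (norm_nonneg (j (p : Qb))) hr0.le)).addSubgroupOf B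
    let sub : Ur → B := fun u => ⟨((u : Qbˣ) : Qb) - 1,
      sub_mem (mem_fixU.mp u.2.1.1) (one_mem _), u.2.2⟩
    let φ : Ur ⧸ Us.subgroupOf Ur → B ⧸ B' := fun x => ((sub x.out : B) : B ⧸ B')
    have hφ : Function.Injective φ := fun x y hxy => by
      rw [← QuotientGroup.out_eq' x, ← QuotientGroup.out_eq' y, QuotientGroup.eq]
      obtain ⟨-, h⟩ := (QuotientAddGroup.eq).mp hxy
      refine ⟨mul_mem (inv_mem x.out.2.1) y.out.2.1, ?_⟩
      have hx1 := x.out.2.1.2
      simp only [sub, AddSubgroup.subtype_apply, AddSubgroup.coe_add, NegMemClass.coe_neg] at h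
      show ‖j ((((x.out : Qbˣ))⁻¹ * (y.out : Qbˣ) : Qbˣ) - 1)‖ ≤ s
      rw [Units.val_mul, Units.val_inv_eq_inv_val, show ((x.out : Qbˣ) : Qb)⁻¹ * ((y.out : Qbˣ) : Qb) - 1 =
        ((x.out : Qbˣ) : Qb)⁻¹ * (-(((x.out : Qbˣ) : Qb) - 1) + (((y.out : Qbˣ) : Qb) - 1)) by
        field_simp; ring, map_mul, norm_mul, map_inv₀, norm_inv, hx1, inv_one, one_mul]
      exact h
    have : Finite (B ⧸ B') := (Nat.card_ne_zero.mp hB0).2
    exact Nat.card_le_card_of_injective φ hφ
  have e1 := Subgroup.relIndex_mul_relIndex Us Up U hUsUp hUpU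
  have e2 := Subgroup.relIndex_mul_relIndex Us Ur U hUsr hUrU
  have e3 := Subgroup.relIndex_mul_relIndex Ur A U hUrA inf_le_left
  have e4 : Us.relIndex Up = A.relIndex U := by
    rw [hA, inf_comm, Subgroup.inf_relIndex_right, Subgroup.relIndex_comap]
  rw [← e3] at e2
  rw [← e2, e4, ← mul_assoc, mul_comm (A.relIndex U) (Up.relIndex U)] at e1
  have hA0 : A.relIndex U ≠ 0 := fun h0 => hfin (by rw [← e3, h0, mul_zero])
  have hrs0 : Us.relIndex Ur ≠ 0 := by
    obtain ⟨T, -, hcov⟩ := hΓ.exists_finite_cover (show 0 < s from mul_pos hP0 hr0)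
    let pick : Qb → Qbˣ := fun t =>
      if ht : ∃ u ∈ Ur, ‖j ((u : Qb) - t)‖ < s then ht.choose else 1
    refine (relIndex_le_card_of_cover (T.image pick) ?_ fun x hx => ?_).1
    · intro t ht
      obtain ⟨t, -, rfl⟩ := Finset.mem_image.mp ht
      simp only [pick]
      split_ifs with h1
      · exact h1.choose_spec.1
      · exact one_mem _
    · obtain ⟨t, ht, hxt⟩ := hcov (x : Qb) (mem_fixU.mp hx.1.1) hx.1.2.le
      have h1 : ∃ u ∈ Ur, ‖j ((u : Qb) - t)‖ < s := ⟨x, hx, hxt⟩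
      refine ⟨pick t, Finset.mem_image_of_mem _ ht, ?_⟩
      simp only [pick, dif_pos h1]
      obtain ⟨hu, hut⟩ := h1.choose_spec
      set u := h1.choose
      refine ⟨mul_mem (inv_mem hu.1) hx.1, ?_⟩
      rw [Units.val_mul, Units.val_inv_eq_inv_val,
        show (u : Qb)⁻¹ * (x : Qb) - 1 = (u : Qb)⁻¹ * (((x : Qb) - t) + -((u : Qb) - t)) by
          field_simp; ring, map_mul, norm_mul, map_inv₀, norm_inv, hu.1.2, inv_one, one_mul]
      refine (norm_map_add_le _ _).trans (max_le hxt.le ?_)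
      rw [map_neg, norm_neg]
      exact hut.le
  have e5 : Up.relIndex U = Us.relIndex Ur * Ur.relIndex A :=
    Nat.eq_of_mul_eq_mul_right (Nat.pos_of_ne_zero hA0) (by linarith [e1])
  refine ⟨?_, ?_⟩
  · rw [e5]
    exact mul_ne_zero hrs0 fun h0 => hfin (by rw [← e3, h0, zero_mul])
  · rw [e5, mul_comm p]
    exact Nat.mul_le_mul (hrs.trans hB) hAr

include R hbase hΓ in
/-- The `p`-th powers have index at most `p ^ (2 + n)`. -/
theorem relIndex_pow_le :
    ((fixU H).map (powMonoidHom p)).relIndex (fixU H) ≠ 0 ∧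
      ((fixU H).map (powMonoidHom p)).relIndex (fixU H)
        ≤ p ^ (2 + if p = q then Fintype.card ι else 0) := by
  classical
  obtain ⟨π, hπ, hπ0, hπ1, hgen⟩ := hΓ.exists_uniformizer
  have hπne : π ≠ 0 := fun h0 => by simp [h0] at hπ0
  set X := fixU H
  set Xp := X.map (powMonoidHom p)
  set U := unitsAt j H
  have hUX : U ≤ X := fun u hu => hu.1
  set P := Units.mk0 π hπne
  have hPX : P ∈ X := mem_fixU.mpr hπ
  obtain ⟨h1, h2⟩ := relIndex_le_card_of_cover (H := Xp ⊔ U) (K := X)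
    ((Finset.range p).image fun i => P ^ i) (by
      intro t ht
      obtain ⟨i, -, rfl⟩ := Finset.mem_image.mp ht
      exact pow_mem hPX i) (fun x hx => by
    obtain ⟨k, hk⟩ := hgen (x : Qb) (mem_fixU.mp hx) (Units.ne_zero _)
    have hm0 : 0 ≤ k % (p : ℤ) := Int.emod_nonneg _ (by exact_mod_cast hp.out.ne_zero)
    have hmlt := Int.emod_lt_of_pos k (show (0 : ℤ) < p by exact_mod_cast hp.out.pos)
    refine ⟨P ^ (k % (p : ℤ)).toNat, Finset.mem_image_of_mem _ (Finset.mem_range.mpr (by omega)), ?_⟩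
    have hxu : x / P ^ k ∈ U := ⟨div_mem hx (zpow_mem hPX k), by
      simp only [Units.val_div_eq_div_val, Units.val_zpow_eq_zpow_val, P, Units.val_mk0, map_div₀,
        map_zpow₀, norm_div, norm_zpow, hk, div_self (zpow_ne_zero k hπ0.ne')]⟩
    have hkk : (P ^ (k % (p : ℤ)).toNat)⁻¹ * x =
        (P ^ (k / (p : ℤ))) ^ p * (x / P ^ k) := by
      rw [← zpow_natCast P, Int.toNat_of_nonneg hm0, ← zpow_natCast (P ^ (k / (p : ℤ))) p,
        ← zpow_mul, div_eq_mul_inv, mul_comm x, ← mul_assoc, ← zpow_neg P k, ← zpow_add,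
        ← zpow_neg]
      congr 2
      linarith [Int.emod_add_mul_ediv k (p : ℤ)]
    rw [hkk]
    exact mul_mem (Subgroup.mem_sup_left ⟨_, zpow_mem hPX _, rfl⟩) (Subgroup.mem_sup_right hxu))
  obtain ⟨u0, u1⟩ := relIndex_units_pow_le (p := p) R hbase hΓ
  have hle : (U.map (powMonoidHom p)) ≤ Xp := Subgroup.map_mono hUX
  have e := Subgroup.relIndex_mul_relIndex Xp (Xp ⊔ U) X le_sup_left
    (sup_le (fun x hx => by obtain ⟨y, hy, rfl⟩ := hx; exact pow_mem hy p) hUX)
  rw [sup_comm Xp U, Subgroup.relIndex_sup_right] at e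
  have hXU0 : Xp.relIndex U ≠ 0 := fun h0 => u0 (Subgroup.relIndex_eq_zero_of_le_left hle h0)
  rw [← e, sup_comm U Xp]
  refine ⟨mul_ne_zero hXU0 h1, ?_⟩
  calc Xp.relIndex U * (Xp ⊔ U).relIndex X
      ≤ (p * p ^ (if p = q then Fintype.card ι else 0)) * p :=
        Nat.mul_le_mul ((Subgroup.relIndex_le_of_le_left hle u0).trans u1)
          (h2.trans (Finset.card_image_le.trans (Finset.card_range p).le))
    _ = p ^ (2 + if p = q then Fintype.card ι else 0) := by ring

end Fermat.Agent.RowS55
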