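import Fermat.Agent.RowS55.NonNorm
import Fermat.Agent.RowS55.UnitIndex
import Fermat.Agent.GalCoh.GlobalLevels

/-!
# Homomorphisms to `ℤ/p` of an algebraic henselian local field containing `μ_p`

Every non-zero one has a Kummer homomorphism with non-zero cup product, and their number is
bounded by the index of the `p`-th powers.
-/

noncomputable section

namespace Fermat.Agent.RowS55

open ExtCitation
open Fermat.Agent.GalCoh (Levels fullLevels localLevels muRep)
open Fermat.Agent.CFT.Brauer (GQ Qb LocalAt Pulled pulled_comap CyclicOver fixU muU toQ IsOpenIn rootP)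

variable {p : ℕ} [Fact p.Prime] {G : Type} [Group G] {r : G →* GQ}

omit [Fact (Nat.Prime p)] in
/-- A continuous homomorphism only depends on the image. -/
theorem hom_congr {χ : G → ZMod p} (hcts : (localLevels r).IsCts₁ χ) {x y : G} (h : r x = r y) :
    χ x = χ y := by
  obtain ⟨U, hU, hχ⟩ := hcts
  simpa using (hχ x _ ((pulled_comap r).mem_of_eq hU h)).symm

/-- The kernel of an additive function. -/
def addKer (χ : G → ZMod p) (hadd : ∀ a b, χ (a * b) = χ a + χ b) : Subgroup G where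
  carrier := {x | χ x = 0}
  one_mem' := by
    have := hadd 1 1
    simpa using this
  mul_mem' := fun {a b} ha hb => by simp only [Set.mem_ofPred_eq] at *; rw [hadd, ha, hb, add_zero]
  inv_mem' := fun {a} ha => by
    simp only [Set.mem_ofPred_eq] at *
    have h1 : χ 1 = 0 := by simpa using hadd 1 1
    have h2 := hadd a⁻¹ a
    rw [inv_mul_cancel, h1, ha, add_zero] at h2
    exact h2.symm

theorem mem_addKer {χ : G → ZMod p} {hadd : ∀ a b, χ (a * b) = χ a + χ b} {x : G} :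
    x ∈ addKer χ hadd ↔ χ x = 0 := Iff.rfl

theorem map_inv_of_add {χ : G → ZMod p} (hadd : ∀ a b, χ (a * b) = χ a + χ b) (a : G) :
    χ a⁻¹ = -χ a := by
  have h1 : χ 1 = 0 := by simpa using hadd 1 1
  have h2 := hadd a⁻¹ a
  rw [inv_mul_cancel, h1] at h2
  exact eq_neg_of_add_eq_zero_left h2.symm

theorem map_pow_of_add {χ : G → ZMod p} (hadd : ∀ a b, χ (a * b) = χ a + χ b) (a : G) (i : ℕ) :
    χ (a ^ i) = i * χ a := by
  induction i with
  | zero => simpa using hadd 1 1
  | succ i ih => rw [pow_succ, hadd, ih]; push_cast; ring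

/-- The cyclic quotient cut out by a non-zero homomorphism. -/
theorem exists_cyclicOver_ker {χ : G → ZMod p} (hadd : ∀ a b, χ (a * b) = χ a + χ b)
    (hcts : (localLevels r).IsCts₁ χ) {g : G} (hg : χ g = 1) :
    ∃ (Δ : Subgroup GQ) (h : CyclicOver r.range Δ (r g) p), ∀ x, h.idx (r x) = (χ x).val := by
  set K := addKer χ hadd
  have hker : r.ker ≤ K := fun x hx => by
    rw [mem_addKer, hom_congr hcts (hx.trans (map_one r).symm)]
    simpa using hadd 1 1
  have hmem : ∀ x, r x ∈ K.map r ↔ χ x = 0 := fun x =>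
    ⟨fun ⟨y, hy, e⟩ => (hom_congr hcts e).symm.trans hy, fun h => ⟨x, h, rfl⟩⟩
  have hcover : ∀ x, g ^ (χ x).val * ((g ^ (χ x).val)⁻¹ * x) = x ∧
      (g ^ (χ x).val)⁻¹ * x ∈ K := fun x => ⟨mul_inv_cancel_left _ _, by
    rw [mem_addKer, hadd, map_inv_of_add hadd, map_pow_of_add hadd, hg, ZMod.natCast_zmod_val,
      mul_one, neg_add_cancel]⟩
  have hopen : IsOpenIn (K.map r) r.range := by
    refine ⟨Subgroup.map_le_range _ _, ?_⟩
    obtain ⟨U, hU, hχ⟩ := hcts
    obtain ⟨F, hF, hFU⟩ := ((pulled_comap r).mem_iff U).mp hU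
    refine ⟨F, hF, ?_⟩
    rintro _ ⟨x, rfl⟩ hx
    refine (hmem x).mpr ?_
    have h := hχ 1 x (hFU hx)
    rw [one_mul] at h
    rw [h]
    simpa using hadd 1 1
  have hnormal : ∀ a ∈ r.range, ∀ s ∈ K.map r, a⁻¹ * s * a ∈ K.map r := by
    rintro _ ⟨a, rfl⟩ _ ⟨s, hs, rfl⟩
    rw [← map_inv, ← map_mul, ← map_mul, hmem, hadd, hadd, mem_addKer.mp hs, map_inv_of_add hadd]
    ring
  have hidx : (K.map r).relIndex r.range = p := by
    rw [MonoidHom.range_eq_map, Subgroup.relIndex_map_map, sup_eq_left.mpr hker, top_sup_eq,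
      Subgroup.relIndex_top_right]
    let φ : G →* Multiplicative (ZMod p) :=
      { toFun := fun x => Multiplicative.ofAdd (χ x)
        map_one' := by simpa using congrArg Multiplicative.ofAdd (show χ 1 = 0 by simpa using hadd 1 1)
        map_mul' := fun a b => congrArg Multiplicative.ofAdd (hadd a b) }
    have hφ : φ.ker = K := by
      ext x
      simp [φ, K, mem_addKer]
    have hsurj : Function.Surjective φ := fun c => ⟨g ^ c.toAdd.val, by
      show Multiplicative.ofAdd (χ (g ^ c.toAdd.val)) = c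
      rw [map_pow_of_add hadd, hg, ZMod.natCast_zmod_val, mul_one, ofAdd_toAdd]⟩
    rw [← hφ, Subgroup.index_ker, MonoidHom.range_eq_top.mpr hsurj]
    simp
  have hgΔ : r g ∉ K.map r := fun h => by simp [(hmem g).mp h] at hg
  have h : CyclicOver r.range (K.map r) (r g) p :=
    CFT.Brauer.cyclicOver_of_relIndex_prime hopen hnormal hidx ⟨g, rfl⟩ hgΔ
  refine ⟨_, h, fun x => ?_⟩
  rw [h.idx_eq ⟨x, rfl⟩ (i := (χ x).val)
    (by rw [← map_pow, ← map_inv, ← map_mul]; exact ⟨_, (hcover x).2, rfl⟩),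
    Nat.mod_eq_of_lt (ZMod.val_lt _)]

variable (hmu : ∀ x, cycloChar p (r x) = 1)

include hmu in
theorem muRep_comp_apply (x : G) (c : ZMod p) : ((muRep p).comp r) x c = c := by
  simp [GalCoh.muRep_apply, hmu x]

include hmu in
theorem smul_muU_self (x : G) (c : ZMod p) : r x • muU p c = muU p c := by
  rw [CFT.Brauer.smul_muU, hmu x]; simp

include hmu in
theorem mul_mem_Z2 {χ κ : G → ZMod p} (hχ : ∀ a b, χ (a * b) = χ a + χ b)
    (hκ : ∀ a b, κ (a * b) = κ a + κ b) (hχc : (localLevels r).IsCts₁ χ)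
    (hκc : (localLevels r).IsCts₁ κ) :
    (fun x : G × G => χ x.1 * κ x.2) ∈ GalCoh.Z2 (localLevels r) ((muRep p).comp r) := by
  refine GalCoh.mem_Z2_iff.mpr ⟨fun a b c => ?_, hχc.comp_fst.map₂ hκc.comp_snd (· * ·)⟩
  rw [muRep_comp_apply hmu]
  simp only [hχ, hκ]
  ring

include hmu in
/-- **The homomorphisms are at most as many as the classes modulo `p`-th powers.** -/
theorem finrank_homs_le {b : ℕ}
    (h0 : ((fixU r.range).map (powMonoidHom p)).relIndex (fixU r.range) ≠ 0)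
    (hb : ((fixU r.range).map (powMonoidHom p)).relIndex (fixU r.range) ≤ p ^ b)
    (M : Submodule (ZMod p) (G → ZMod p))
    (hM : ∀ χ ∈ M, (∀ a b, χ (a * b) = χ a + χ b) ∧ (localLevels r).IsCts₁ χ) :
    FiniteDimensional (ZMod p) M ∧ Module.finrank (ZMod p) M ≤ b := by
  have hex : ∀ χ : M, ∃ c : Qbˣ, ∀ x, muU p ((χ : G → ZMod p) x) = r x • c / c := by
    rintro ⟨χ, hχ⟩
    obtain ⟨hadd, hcts⟩ := hM χ hχ
    have hz : ∀ x, muU p (χ (Function.invFun r (r x))) = muU p (χ x) := fun x =>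
      congrArg (muU p) (hom_congr hcts (Function.invFun_eq ⟨x, rfl⟩))
    obtain ⟨U, hU, hχU⟩ := id hcts
    obtain ⟨F, hF, hFU⟩ := ((pulled_comap r).mem_iff U).mp hU
    obtain ⟨c, hc⟩ := CFT.Brauer.hilbert90 (Γ := r.range)
      (z := fun b => muU p (χ (Function.invFun r b))) ⟨F, hF, by
        rintro _ ⟨x, rfl⟩ _ ⟨s, rfl⟩ hs
        simp only [← map_mul, hz, hχU x s (hFU hs)]⟩ (by
        rintro _ ⟨x, rfl⟩ _ ⟨y, rfl⟩
        simp only [← map_mul, hz, hadd, CFT.Brauer.muU_add, smul_muU_self hmu]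
        rw [mul_comm])
    exact ⟨c, fun x => (hz x).symm.trans (hc _ ⟨x, rfl⟩)⟩
  choose c hc using hex
  set P := ((fixU r.range).map (powMonoidHom p)).subgroupOf (fixU r.range)
  have hcp : ∀ χ : M, c χ ^ p ∈ fixU r.range := by
    rintro χ _ ⟨x, rfl⟩
    rw [smul_pow', ← div_eq_one, ← div_pow, ← hc, CFT.Brauer.muU_pow]
  let φ : M → ↥(fixU r.range) ⧸ P := fun χ => QuotientGroup.mk ⟨c χ ^ p, hcp χ⟩
  have hφ : Function.Injective φ := by
    intro χ χ' h
    obtain ⟨u, hu, hup⟩ := QuotientGroup.eq.mp h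
    refine Subtype.ext (funext fun x => CFT.Brauer.muU_injective (p := p) ?_)
    set ζ := c χ' / (c χ * u)
    have hζ : ζ ^ p = 1 := by
      change u ^ p = (c χ ^ p)⁻¹ * c χ' ^ p at hup
      rw [div_pow, mul_pow, hup, mul_inv_cancel_left, div_self']
    have hζfix : r x • ζ = ζ := by
      rw [← CFT.Brauer.muU_muLog hζ, smul_muU_self hmu]
    have e : c χ' = c χ * u * ζ := (mul_div_cancel _ _).symm
    rw [hc, hc, e, smul_mul', smul_mul', hu _ ⟨x, rfl⟩, hζfix, mul_assoc, mul_assoc,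
      mul_div_mul_comm, div_self', mul_one]
  have hfin : Finite (↥(fixU r.range) ⧸ P) := Nat.finite_of_card_ne_zero h0
  have := Finite.of_injective φ hφ
  have : FiniteDimensional (ZMod p) M := Module.Finite.of_finite
  refine ⟨this, (Nat.pow_le_pow_iff_right (Fact.out : p.Prime).one_lt).mp ?_⟩
  have hcard := (Nat.card_le_card_of_injective φ hφ).trans hb
  rwa [Module.natCard_eq_pow_finrank (K := ZMod p), Nat.card_zmod] at hcard

variable {q : ℕ} [Fact q.Prime] {j : Qb →+* PadicAlgCl q}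

include hmu in
/-- **A non-zero homomorphism is not orthogonal to all Kummer homomorphisms.** -/
theorem exists_cup_notMem_B2 (hloc : LocalAt j r.range) {χ : G → ZMod p}
    (hadd : ∀ a b, χ (a * b) = χ a + χ b) (hcts : (localLevels r).IsCts₁ χ) (hne : ∃ x, χ x ≠ 0) :
    ∃ κ : G → ZMod p, (∀ a b, κ (a * b) = κ a + κ b) ∧ (localLevels r).IsCts₁ κ ∧
      (fun x : G × G => χ x.1 * κ x.2) ∉ GalCoh.B2 (localLevels r) ((muRep p).comp r) := by
  obtain ⟨x₀, hx₀⟩ := hne
  set g := x₀ ^ ((χ x₀)⁻¹).val with hg_def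
  have hg : χ g = 1 := by
    rw [hg_def, map_pow_of_add hadd, ZMod.natCast_zmod_val, inv_mul_cancel₀ hx₀]
  obtain ⟨Δ, h, hidx⟩ := exists_cyclicOver_ker hadd hcts hg
  obtain ⟨a, ha, hfa⟩ := exists_fa_notMem_B2 hloc h
  set β := rootP p a with hβ
  have hβp : β ^ p = a := CFT.Brauer.rootP_pow a
  let κ : G → ZMod p := fun x => GalCoh.Descent.muLog p ((r x • β / β : Qbˣ) : Qb)
  have hκ : ∀ x, muU p (κ x) = r x • β / β := fun x => CFT.Brauer.muU_muLog (by
    rw [div_pow, ← smul_pow', hβp, ha _ ⟨x, rfl⟩, div_self'])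
  have hκadd : ∀ x y, κ (x * y) = κ x + κ y := fun x y =>
    CFT.Brauer.muU_injective (p := p) (by
      rw [CFT.Brauer.muU_add, hκ, map_mul, mul_smul]
      conv_rhs => rw [mul_comm, ← smul_muU_self hmu x (κ y)]
      rw [hκ, hκ, smul_div', div_mul_div_cancel])
  have hκcts : (localLevels r).IsCts₁ κ := by
    obtain ⟨F, hF, hFβ⟩ := CFT.Brauer.cts₁_smul r.range β
    refine ⟨F.fixingSubgroup.comap r, ((pulled_comap r).mem_iff _).mpr ⟨F, hF, le_rfl⟩,
      fun x s hs => ?_⟩
    simp only [κ, map_mul, hFβ _ ⟨x, rfl⟩ _ ⟨s, rfl⟩ hs]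
  refine ⟨κ, hκadd, hκcts, fun hB => hfa ?_⟩
  -- pass to the symmetric product
  have hB' : (fun x : G × G => κ x.1 * χ x.2) ∈ GalCoh.B2 (localLevels r) ((muRep p).comp r) := by
    have hsum : GalCoh.d1 ((muRep p).comp r) (-fun x => κ x * χ x) ∈
        GalCoh.B2 (localLevels r) ((muRep p).comp r) :=
      GalCoh.mem_B2_iff.mpr ⟨_, (hκcts.map₂ hcts (· * ·)).comp Neg.neg, rfl⟩
    convert sub_mem hsum hB using 1
    funext x
    obtain ⟨x, y⟩ := x
    simp only [Pi.sub_apply, GalCoh.d1_apply, Pi.neg_apply, muRep_comp_apply hmu, hadd, hκadd]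
    ring
  have hf := mul_mem_Z2 hmu hκadd hadd hκcts hcts
  have hq := ((pulled_comap r).mem_B2_iff hf).mp hB'
  let z : GQ → Qbˣ := fun b => β ^ h.idx b
  have hz : CFT.Brauer.d1 z ∈ CFT.Brauer.B2 r.range :=
    CFT.Brauer.d1_mem_B2 (h.cts₁_comp fun i => β ^ i)
  have key : ∀ b ∈ r.range, ∀ c ∈ r.range,
      (CFT.Brauer.d1 z / toQ r fun x : G × G => κ x.1 * χ x.2) b c = h.fa a b c := by
    rintro _ ⟨x, rfl⟩ _ ⟨y, rfl⟩
    rw [Pi.div_apply, Pi.div_apply,
      (pulled_comap r).toQ_apply (GalCoh.mem_Z2_iff.mp hf).2, div_eq_iff_eq_mul]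
    simp only [CFT.Brauer.d1, z, CyclicOver.fa, smul_pow', ← map_mul, hidx, hadd]
    rw [mul_comm (κ x), CFT.Brauer.muU_smul_eq_pow, hκ, div_pow, ZMod.val_add]
    set i := (χ x).val
    set k := (χ y).val
    have hi : i < p := ZMod.val_lt _
    have hk : k < p := ZMod.val_lt _
    split_ifs with hc
    · have e : (i + k) % p = i + k - p := by
        rw [Nat.mod_eq_sub_mod hc, Nat.mod_eq_of_lt (by omega)]
      rw [e, ← hβp, div_eq_iff_eq_mul]
      calc (r x • β) ^ k * β ^ i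
          = (r x • β) ^ k / β ^ k * β ^ (i + k) := by
            rw [pow_add, mul_comm (β ^ i), ← mul_assoc, div_mul_cancel]
        _ = _ := by
            rw [mul_comm (β ^ p) _, mul_assoc, ← pow_add]
            congr 2
            omega
    · rw [Nat.mod_eq_of_lt (by omega), one_mul, div_eq_iff_eq_mul, pow_add, mul_comm (β ^ i),
        ← mul_assoc, div_mul_cancel]
  exact (CFT.Brauer.mem_B2_congr key).mp (div_mem hz hq)

end Fermat.Agent.RowS55
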