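import Fermat.Agent.CFT.Brauer.LocalBrauer

/-!
# The local norm index is non-trivial

For a cyclic extension of prime degree `p` of an algebraic henselian local field, the unramified
class of a uniformizer dies, so it is the class of a non-norm.
-/

noncomputable section

namespace Fermat.Agent.RowS55

open Fermat.Agent.CFT.Brauer

variable {q : ℕ} [Fact q.Prime] {j : Qb →+* PadicAlgCl q}

/-- Over a subgroup the residue extension generated by `ζ` is trivial once its degree is a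
multiple of the degree. -/
theorem le_stabilizer_of_dvd {Γ Δ : Subgroup GQ} (hΔ : LocalAt j Δ)
    {p f : ℕ} (hQ : resCard j Δ = resCard j Γ ^ f) (hf : p ∣ f) {ζ : Qb}
    (hm : ¬ q ∣ resCard j Γ ^ p - 1) (hζ : ζ ^ (resCard j Γ ^ p - 1) = 1) :
    Δ ≤ MulAction.stabilizer GQ ζ := by
  intro g hg
  obtain ⟨i, hi⟩ := exists_pow_frobenius hΔ hm hζ hg
  rw [MulAction.mem_stabilizer_iff, AlgEquiv.smul_def, hi, hQ]
  obtain ⟨c, rfl⟩ := hf
  set P := resCard j Γ ^ p with hP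
  have h1 : ζ ^ P = ζ := by
    have hpos : 0 < P := Nat.pos_of_ne_zero fun h0 => hm (by rw [h0]; exact dvd_zero q)
    conv_lhs => rw [← Nat.sub_add_cancel hpos, pow_succ, hζ, one_mul]
  rw [pow_mul, ← hP, ← pow_mul]
  generalize c * i = k
  induction k with
  | zero => rw [pow_zero, pow_one]
  | succ k ih => rw [pow_succ, pow_mul, ih, h1]

/-- In a cyclic extension of prime degree some fixed element is not a norm. -/
theorem exists_fa_notMem_B2 {Γ Δ : Subgroup GQ} {σ : GQ} {p : ℕ} [hp : Fact p.Prime]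
    (hΓ : LocalAt j Γ) (h : CyclicOver Γ Δ σ p) :
    ∃ a ∈ fixU Γ, h.fa a ∉ B2 Γ := by
  obtain ⟨ζ, σ₀, hζ, hm, -, hN⟩ := exists_unramified hΓ hp.out.pos
  obtain ⟨π, hπ, hπ0, hπ1, hgen⟩ := hΓ.exists_uniformizer
  have hπne : π ≠ 0 := fun h0 => by simp [h0] at hπ0
  set P := Units.mk0 π hπne
  have hP : P ∈ fixU Γ := mem_fixU.mpr hπ
  have hkP : ‖j (P : Qb)‖ = ‖j π‖ ^ (1 : ℤ) := by simp [P]
  have hne : hN.fa P ∉ B2 Γ := fun hmem => by
    have h1 := (fa_mem_B2_iff_dvd hΓ hm hζ.pow_eq_one hN hπ hπ0 hπ1 hgen hP hkP).mp hmem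
    exact hp.out.one_lt.ne' (by exact_mod_cast Int.eq_one_of_dvd_one (by positivity) h1)
  -- it dies on `Δ`
  have hΔ := hΓ.of_isOpenIn h.isOpen
  obtain ⟨-, π', e, f, hπ', hπ'0, hπ'1, hgen', he, hee, hQ, hdvd⟩ :=
    prime_step hp.out hΓ h hπ hπ0 hπ1 hgen
  have hdie : hN.fa P ∈ B2 Δ := by
    obtain ⟨d, τ, hd, h', hidx, hfa⟩ := hN.exists_inf h.le
    obtain ⟨z, hz, hzeq⟩ : h'.fa P ∈ B2 Δ := by
      have hPΔ : P ∈ fixU Δ := fixU_anti h.le hP
      have hinf : Δ ⊓ (Γ ⊓ MulAction.stabilizer GQ ζ) = Δ ⊓ MulAction.stabilizer GQ ζ := by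
        rw [← inf_assoc, inf_eq_left.mpr h.le]
      rcases (Nat.dvd_prime hp.out).mp hd with rfl | rfl
      swap
      · refine (h'.fa_mem_B2_iff hPΔ).mpr ⟨P, fun s hs => hPΔ s hs.1, ?_⟩
        rw [Nat.div_self hp.out.pos, Finset.prod_range_one, pow_zero, one_smul]
      by_cases hpe : p ∣ e
      · revert h'
        rw [hinf, Nat.div_one]
        intro h' _ _
        exact (fa_mem_B2_iff_dvd hΔ hm hζ.pow_eq_one h' hπ' hπ'0 hπ'1 hgen' hPΔ
          (k := (e : ℤ)) (by rw [zpow_natCast, ← hee]; rfl)).mpr (by exact_mod_cast hpe)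
      · exfalso
        have hle := le_stabilizer_of_dvd hΔ hQ ((Nat.Prime.dvd_mul hp.out).mp hdvd |>.resolve_left hpe)
          hm hζ.pow_eq_one
        have hτ : τ ^ 1 ∈ Δ ⊓ (Γ ⊓ MulAction.stabilizer GQ ζ) := by
          rw [pow_one]
          exact ⟨h'.mem, h.le h'.mem, hle h'.mem⟩
        have := (h'.pow_mem_iff 1).mp hτ
        rw [Nat.div_one, Nat.dvd_one] at this
        exact hp.out.one_lt.ne' this
    exact ⟨z, hz, fun g hg g' hg' => (hfa P g hg g' hg').trans (hzeq g hg g' hg')⟩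
  obtain ⟨a, ha, hfa⟩ := h.exists_eq_fa (hN.fa_mem_Z2 hP) hdie
  refine ⟨a, ha, fun hmem => hne ?_⟩
  rw [← div_mul_cancel (hN.fa P) (h.fa a)]
  exact mul_mem hfa hmem

end Fermat.Agent.RowS55
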