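import Fermat.Agent.RowS55.Count
import Fermat.Prelude.Def_GroupCohomology_ContinuousUnramified

/-!
# The translation to the cohomology of `Rep`s
-/

noncomputable section

namespace Fermat.Agent.RowS55

open CategoryTheory Fermat.Agent.GalCoh ExtCitation
open groupCohomology (cocycles₁ H1π H1π_eq_zero_iff coboundaries₁ d₀₁ d₁₂ d₀₁_hom_apply d₁₂_hom_apply
  mem_cocycles₁_iff mem_cocycles₂_iff levelCocyclesS₂ levelCoboundariesS₂ continuousH2S sha₁ sha₂)

local notation "Γ" => (AlgebraicClosure ℚ ≃ₐ[ℚ] AlgebraicClosure ℚ)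

variable {p : ℕ} [Fact p.Prime] (S : Finset Nat.Primes) (A : Rep (ZMod p) Γ)

/-- A continuous cocycle as a cocycle of the representation. -/
def toCocycle : ↥(GalCoh.Z1 (levelsS S) A.ρ) →ₗ[ZMod p] ↥(cocycles₁ A) where
  toFun c := ⟨c.1, (mem_cocycles₁_iff _).mpr (GalCoh.mem_Z1_iff.mp c.2).1⟩
  map_add' _ _ := rfl
  map_smul' _ _ := rfl

theorem H1π_toCocycle_eq_zero_iff (c : ↥(GalCoh.Z1 (levelsS S) A.ρ)) :
    (H1π A).hom (toCocycle S A c) = 0 ↔ (c : Γ → A) ∈ GalCoh.B1 A.ρ := by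
  rw [show (H1π A).hom (toCocycle S A c) = H1π A (toCocycle S A c) from rfl, H1π_eq_zero_iff,
    GalCoh.mem_B1_iff]
  constructor
  · rintro ⟨v, hv⟩
    exact ⟨v, fun g => (congrFun hv g).symm⟩
  · rintro ⟨v, hv⟩
    exact ⟨v, funext fun g => (hv g).symm⟩

/-- Continuous cohomology inside cohomology. -/
def toH1 : GalCoh.H1 (levelsS S) A.ρ →ₗ[ZMod p] groupCohomology.H1 A :=
  Submodule.liftQ _ ((H1π A).hom ∘ₗ toCocycle S A) fun c hc =>
    LinearMap.mem_ker.mpr ((H1π_toCocycle_eq_zero_iff S A c).mpr hc)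

theorem toH1_injective : Function.Injective (toH1 S A) := by
  refine (injective_iff_map_eq_zero _).mpr fun x hx => ?_
  obtain ⟨c, rfl⟩ := GalCoh.H1mk_surjective x
  exact GalCoh.H1mk_eq_zero_iff.mpr ((H1π_toCocycle_eq_zero_iff S A c).mp hx)

theorem locRes_eq_zero_iff (v : extArithIndex S) (c : ↥(GalCoh.Z1 (levelsS S) A.ρ)) :
    (groupCohomology.locRes (extArithLoc S) A v).hom ((H1π A).hom (toCocycle S A c)) = 0 ↔
      resAt S A.ρ v (GalCoh.H1mk (levelsS S) A.ρ c) = 0 := by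
  have h := groupCohomology.H1π_comp_map_apply (extArithLoc S v)
    (𝟙 (Rep.res (extArithLoc S v) A)) (toCocycle S A c)
  rw [show (groupCohomology.locRes (extArithLoc S) A v).hom ((H1π A).hom (toCocycle S A c)) =
    _ from h, H1π_eq_zero_iff, resAt, Mor.map₁_mk, GalCoh.H1mk_eq_zero_iff, GalCoh.mem_B1_iff]
  cases v <;> constructor <;> rintro ⟨w, hw⟩
  · exact ⟨w, fun g => (congrFun hw g).symm⟩
  · exact ⟨w, funext fun g => (hw g).symm⟩
  · exact ⟨w, fun g => (congrFun hw g).symm⟩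
  · exact ⟨w, funext fun g => (hw g).symm⟩

theorem map_sha1 : (sha1 S A.ρ).map (toH1 S A) = sha₁ S A := by
  refine Submodule.ext fun x => ⟨?_, ?_⟩
  · rintro ⟨y, hy, rfl⟩
    obtain ⟨c, rfl⟩ := GalCoh.H1mk_surjective y
    refine ⟨(groupCohomology.mem_continuousH1S_iff S A _).mpr ⟨toCocycle S A c,
      (isCts₁_levelsS_iff S _).mp (GalCoh.mem_Z1_iff.mp c.2).2, rfl⟩, funext fun v => ?_⟩
    exact (locRes_eq_zero_iff S A v c).mpr ((mem_sha1_iff S _).mp hy v)
  · rintro ⟨h1, h2⟩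
    obtain ⟨c, hc, rfl⟩ := (groupCohomology.mem_continuousH1S_iff S A x).mp h1
    let c' : ↥(GalCoh.Z1 (levelsS S) A.ρ) := ⟨c.1, GalCoh.mem_Z1_iff.mpr
      ⟨(mem_cocycles₁_iff _).mp c.2, (isCts₁_levelsS_iff S _).mpr hc⟩⟩
    exact ⟨GalCoh.H1mk (levelsS S) A.ρ c', (mem_sha1_iff S _).mpr fun v =>
      (locRes_eq_zero_iff S A v c').mp (congrFun (LinearMap.mem_ker.mp h2) v), rfl⟩

/-- The two `Ш¹`s. -/
def sha1Equiv : sha1 S A.ρ ≃ₗ[ZMod p] sha₁ S A :=
  (Submodule.equivMapOfInjective (toH1 S A) (toH1_injective S A) _).trans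
    (LinearEquiv.ofEq _ _ (map_sha1 S A))

theorem Z2_eq : GalCoh.Z2 (levelsS S) A.ρ = levelCocyclesS₂ S A := by
  refine Submodule.ext fun f => ?_
  rw [GalCoh.mem_Z2_iff, groupCohomology.mem_levelCocyclesS₂_iff, mem_cocycles₂_iff,
    isCts₂_levelsS_iff]

theorem d1_eq (x : Γ → A) : GalCoh.d1 A.ρ x = (d₁₂ A).hom x := by
  funext ⟨g, h⟩
  rw [GalCoh.d1_apply, d₁₂_hom_apply]

theorem B2_eq : GalCoh.B2 (levelsS S) A.ρ = levelCoboundariesS₂ S A := by
  refine Submodule.ext fun f => ?_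
  rw [GalCoh.mem_B2_iff, groupCohomology.mem_levelCoboundariesS₂_iff]
  exact exists_congr fun x => and_congr (isCts₁_levelsS_iff S x) (by rw [d1_eq])

/-- Continuous two-cohomology, both ways. -/
def H2Equiv : GalCoh.H2 (levelsS S) A.ρ ≃ₗ[ZMod p] continuousH2S S A :=
  Submodule.Quotient.equiv _ _ (LinearEquiv.ofEq _ _ (Z2_eq S A)) (by
    ext c
    simp only [Submodule.mem_map, Submodule.mem_comap]
    constructor
    · rintro ⟨d, hd, rfl⟩
      show (d : Γ × Γ → A) ∈ levelCoboundariesS₂ S A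
      rw [← B2_eq]
      exact hd
    · intro hc
      refine ⟨⟨c.1, (Z2_eq S A).symm ▸ c.2⟩, ?_, rfl⟩
      show (c : Γ × Γ → A) ∈ GalCoh.B2 (levelsS S) A.ρ
      rw [B2_eq]
      exact hc)

theorem local_B2_iff {G : Type} [Group G] (r : G →* Γ) (F : G × G → A) :
    F ∈ GalCoh.B2 (localLevels r) (A.ρ.comp r) ↔
      F ∈ groupCohomology.levelCoboundaries₂ r (Rep.res r A) := by
  rw [GalCoh.mem_B2_iff, groupCohomology.mem_levelCoboundaries₂_iff]
  refine exists_congr fun x => and_congr (isCts₁_localLevels_iff r x) ?_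
  refine ⟨fun h => ?_, fun h => ?_⟩
  · rw [← h]
    funext ⟨g, g'⟩
    rw [GalCoh.d1_apply, d₁₂_hom_apply]
  · rw [← h]
    funext ⟨g, g'⟩
    rw [GalCoh.d1_apply, d₁₂_hom_apply]

theorem locRes₂S_eq_zero_iff (v : extArithIndex S) (z : GalCoh.H2 (levelsS S) A.ρ) :
    groupCohomology.locRes₂S S A (extArithLoc S v) (H2Equiv S A z) = 0 ↔
      res₂At S A.ρ v z = 0 := by
  obtain ⟨F, rfl⟩ := GalCoh.H2mk_surjective z
  rw [res₂At, Mor.map₂_mk, GalCoh.H2mk_eq_zero_iff]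
  refine Iff.trans (groupCohomology.continuousH2π_eq_zero_iff _ _ _) ?_
  cases v with
  | inl v => exact (local_B2_iff A (placeLoc (Sum.inl v)) _).symm
  | inr v => exact (local_B2_iff A (placeLoc (Sum.inr v.1)) _).symm

/-- The two descriptions of `Ш²_S` agree under the isomorphism of second cohomologies. -/
theorem map_sha2 : (sha2 S A.ρ).map (H2Equiv S A).toLinearMap = sha₂ S A := by
  refine Submodule.ext fun x => ⟨?_, ?_⟩
  · rintro ⟨z, hz, rfl⟩
    exact LinearMap.mem_ker.mpr (funext fun v =>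
      (locRes₂S_eq_zero_iff S A v z).mpr (mem_sha2_iff.mp hz v))
  · intro hx
    refine ⟨(H2Equiv S A).symm x, mem_sha2_iff.mpr fun v => ?_, (H2Equiv S A).apply_symm_apply x⟩
    refine (locRes₂S_eq_zero_iff S A v _).mp ?_
    rw [(H2Equiv S A).apply_symm_apply]
    exact congrFun (LinearMap.mem_ker.mp hx) v

/-- The two `Ш²`s. -/
def sha2Equiv : sha2 S A.ρ ≃ₗ[ZMod p] sha₂ S A :=
  ((H2Equiv S A).submoduleMap _).trans (LinearEquiv.ofEq _ _ (map_sha2 S A))

end Fermat.Agent.RowS55
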