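import Fermat.Agent.RowS55.LocalBase
import Fermat.Agent.TameInertia.Frobenius
import Fermat.Agent.BigImage.RootsOfUnity
import Fermat.Agent.GalCoh.Unramified
import Fermat.Agent.GalCoh.GW.Unramified

/-!
# Unramified two-classes vanish; homomorphisms orthogonal to a ramified Kummer homomorphism
-/

noncomputable section

namespace Fermat.Agent.RowS55

open ExtCitation Module
open Fermat.Agent.GalCoh

local notation "Ω" => AlgebraicClosure ℚ
local notation "Γ" => (AlgebraicClosure ℚ ≃ₐ[ℚ] AlgebraicClosure ℚ)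

variable {p : ℕ} [Fact p.Prime] (q : Nat.Primes)

local notation "D" => placeGroup (Sum.inr q)
local notation "ι" => placeLoc (Sum.inr q)
local notation "A₀" => ExtCitation.primeLocalPlace q

/-- A cocycle that vanishes on a set inside a level with trivial action is constant modulo a normal
level containing the set. -/
theorem exists_kernel {W : Type} [AddCommGroup W] [Module (ZMod p) W] {G : Type} [Group G]
    {L : Levels G} {σ : Representation (ZMod p) G W} {N₀ : Subgroup G} (hN₀n : N₀.Normal)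
    (hN₀ : L.mem N₀) (hσ : ∀ d ∈ N₀, σ d = 1) {c : G → W} (hc : c ∈ Z1 L σ) (I : Set G)
    (hI : ∀ d ∈ I, d ∈ N₀ ∧ c d = 0) :
    ∃ N : Subgroup G, N.Normal ∧ L.mem N ∧ N ≤ N₀ ∧ (∀ d ∈ I, d ∈ N) ∧
      (∀ d ∈ N, c d = 0) ∧ ∀ a, ∀ s ∈ N, c (a * s) = c a := by
  obtain ⟨hcoc, hcts⟩ := mem_Z1_iff.mp hc
  have h1 : c 1 = 0 := Z1.map_one hc
  have hmul : ∀ a, ∀ s ∈ N₀, c s = 0 → c (a * s) = c a := fun a s _ hs' => by
    rw [hcoc, hs', map_zero, zero_add]
  let N : Subgroup G :=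
    { carrier := {d | d ∈ N₀ ∧ c d = 0}
      one_mem' := ⟨N₀.one_mem, h1⟩
      mul_mem' := fun {a b} ha hb => ⟨N₀.mul_mem ha.1 hb.1, by rw [hmul a b hb.1 hb.2, ha.2]⟩
      inv_mem' := fun {a} ha => ⟨N₀.inv_mem ha.1, by
        have h := hcoc a⁻¹ a
        rw [inv_mul_cancel, h1, ha.2, map_zero, zero_add] at h
        exact h.symm⟩ }
  refine ⟨N, ⟨fun d hd g => ⟨hN₀n.conj_mem _ hd.1 g, ?_⟩⟩, ?_, fun d hd => hd.1, hI,
    fun d hd => hd.2, fun a s hs => hmul a s hs.1 hs.2⟩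
  · have e := hcoc g g⁻¹
    rw [mul_inv_cancel, h1] at e
    rw [hcoc (g * d) g⁻¹, hmul g d hd.1 hd.2, map_mul, Module.End.mul_apply, hσ d hd.1,
      Module.End.one_apply]
    exact e.symm
  · obtain ⟨U, hU, hUc⟩ := hcts
    refine L.mono (L.inf_mem hU hN₀) fun d hd => ⟨hd.2, ?_⟩
    have := hUc 1 d hd.1
    rwa [one_mul, h1] at this

/-- **A two-class constant modulo an unramified level is zero.** -/
theorem H2_eq_zero_of_unramified {N : Subgroup D} (hNn : N.Normal)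
    (hN : (localLevels ι).mem N)
    (hI : ∀ d : D, ι d ∈ (A₀).inertiaSubgroupIn ℚ → d ∈ N)
    (hμ : ∀ d ∈ N, cycloChar p (ι d) = 1)
    (F : ↥(Z2 (localLevels ι) ((muRep p).comp ι)))
    (hF : ∀ a b, ∀ s ∈ N, ∀ t ∈ N,
      (F : D × D → ZMod p) (a * s, b * t) = (F : D × D → ZMod p) (a, b)) :
    H2mk (localLevels ι) ((muRep p).comp ι) F = 0 := by
  classical
  obtain ⟨hcoc, -⟩ := mem_Z2_iff.mp F.2
  have hFN : ∀ a b a' b', a⁻¹ * a' ∈ N → b⁻¹ * b' ∈ N →
      (F : D × D → ZMod p) (a', b') = (F : D × D → ZMod p) (a, b) := fun a b a' b' ha hb => by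
    have := hF a b _ ha _ hb
    simpa using this
  have hA : (A₀).LiesOverPrime (q : ℕ) := Descent.primeLocalPlace_liesOver q
  obtain ⟨Φ, hΦ⟩ := Frobenius.exists_isFrobeniusAt_qbar q.2 hA
  obtain ⟨φ, hφ⟩ : ∃ φ : D, ι φ = Φ := by
    obtain ⟨a, ha⟩ := toStd_surjective q ⟨Φ, hΦ.mem_decompositionSubgroup⟩
    exact ⟨a, congrArg Subtype.val ha⟩
  have := (localLevels ι).finiteIndex hN
  have hn0 : 0 < N.index := Nat.pos_of_ne_zero Subgroup.FiniteIndex.index_ne_zero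
  let P := p * N.index
  have hp2 := (Fact.out : p.Prime).two_le
  have hP2 : 2 ≤ 1 * P := by
    rw [one_mul]; exact le_trans hp2 (Nat.le_mul_of_pos_right _ hn0)
  set m := (q : ℕ) ^ (1 * P) - 1 with hmdef
  have hpow : 1 < (q : ℕ) ^ (1 * P) := Nat.one_lt_pow (by omega) q.2.one_lt
  have : NeZero m := ⟨by omega⟩
  have hqm : ¬ (q : ℕ) ∣ m := fun h => by
    have h1 : (q : ℕ) ∣ (q : ℕ) ^ (1 * P) := dvd_pow_self _ (by omega)
    have h2 := Nat.dvd_sub h1 h
    rw [hmdef, Nat.sub_sub_self hpow.le] at h2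
    exact q.2.one_lt.ne' (Nat.dvd_one.mp h2)
  obtain ⟨ζ, hζ⟩ : ∃ ζ : Ω, IsPrimitiveRoot ζ m := HasEnoughRootsOfUnity.exists_primitiveRoot Ω m
  obtain ⟨U, ⟨L, hL, hLU⟩, hUN⟩ := id hN
  have := hL
  have := IntermediateField.adjoin.finiteDimensional (Algebra.IsIntegral.isIntegral (R := ℚ) ζ)
  let F₀ : IntermediateField ℚ Ω := L ⊔ IntermediateField.adjoin ℚ {ζ}
  have hF₀ : ∀ d : D, ι d ∈ F₀.fixingSubgroup → d ∈ N ∧ ι d ζ = ζ := fun d hd =>
    ⟨hUN (hLU (IntermediateField.fixingSubgroup_antitone le_sup_left hd)),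
      (IntermediateField.mem_fixingSubgroup_iff _ _).mp hd ζ
        ((le_sup_right : _ ≤ F₀) (IntermediateField.mem_adjoin_simple_self ℚ ζ))⟩
  let IsExp : D → ℕ → Prop := fun d j => (φ ^ j)⁻¹ * d ∈ N ∧ ι d ζ = ζ ^ (q : ℕ) ^ (1 * j)
  have hexp : ∀ d, ∃ j, IsExp d j := fun d => by
    obtain ⟨i, τ, hτ, hi⟩ :=
      TameInertia.exists_eq_frobenius_pow_mul q.2 hA hΦ (placeLoc_mem_stdDecomp q d) F₀
    obtain ⟨t, ht⟩ : ∃ t : D, ι t = τ := by
      obtain ⟨a, ha⟩ := toStd_surjective q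
        ⟨τ, ((FreyReducible.mem_inertiaSubgroupIn_iff _ τ).mp hτ).1⟩
      exact ⟨a, congrArg Subtype.val ha⟩
    have hr : ι ((φ ^ i * t)⁻¹ * d) ∈ F₀.fixingSubgroup := by
      rwa [map_mul, map_inv, map_mul, map_pow, hφ, ht]
    obtain ⟨hrN, hrζ⟩ := hF₀ _ hr
    refine ⟨i, ?_, ?_⟩
    · have := N.mul_mem (hI t (ht ▸ hτ)) hrN
      simpa [mul_assoc] using this
    · rw [map_mul, map_inv, map_mul, map_pow, hφ, ht] at hrζ
      have h := congrArg (Φ ^ i * τ) hrζ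
      rw [← AlgEquiv.mul_apply, mul_inv_cancel_left, AlgEquiv.mul_apply,
        BigImage.inertia_root_of_unity q.2 hA hτ hqm hζ.pow_eq_one] at h
      rw [h, TameInertia.frobenius_pow_root_of_unity q.2 hA hΦ hqm hζ.pow_eq_one, one_mul]
  let s : ℕ → ZMod p := fun j => ∑ t ∈ Finset.range j, (F : D × D → ZMod p) (φ ^ t, φ)
  have hper : ∀ i j, i ≡ j [MOD P] → s i = s j := by
    have hstep : ∀ j, s (j + P) = s j := fun j => by
      have := sum_range_periodic (fun t => (F : D × D → ZMod p) (φ ^ t, φ)) N.index (fun t => ?_) p j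
      · simpa [s, P, nsmul_eq_mul] using this
      · exact hFN _ _ _ _ (by simpa [pow_add] using Subgroup.pow_index_mem N φ) (by simp)
    have hmul : ∀ c j, s (j + P * c) = s j := fun c => by
      induction c with
      | zero => simp
      | succ c ih => intro j; rw [mul_add, mul_one, ← add_assoc, hstep, ih]
    intro i j hij
    rw [← Nat.mod_add_div i P, ← Nat.mod_add_div j P, hmul, hmul, hij]
  have huniq : ∀ d i j, IsExp d i → IsExp d j → s i = s j := fun d i j hi hj =>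
    hper i j (modEq_of_zeta q.2.two_le hP2 hζ (hi.2.symm.trans hj.2))
  let c₀ : ZMod p := (F : D × D → ZMod p) (1, 1)
  let x : D → ZMod p := fun d => c₀ - s (hexp d).choose
  have hx : ∀ d j, IsExp d j → x d = c₀ - s j := fun d j hj => by
    show c₀ - _ = c₀ - _
    rw [huniq d _ j (hexp d).choose_spec hj]
  rw [H2mk_eq_zero_iff, mem_B2_iff]
  refine ⟨x, ⟨F₀.fixingSubgroup.comap ι, ⟨_, ⟨F₀, inferInstance, le_rfl⟩, le_rfl⟩,
    fun d u hu => ?_⟩, ?_⟩
  · obtain ⟨j, hj⟩ := hexp d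
    obtain ⟨huN, huζ⟩ := hF₀ u hu
    rw [hx d j hj, hx (d * u) j ⟨?_, ?_⟩]
    · simpa [mul_assoc] using N.mul_mem hj.1 huN
    · rw [map_mul, AlgEquiv.mul_apply, huζ, hj.2]
  · funext ⟨a, b⟩
    obtain ⟨i, hi⟩ := hexp a
    obtain ⟨j, hj⟩ := hexp b
    have hab : IsExp (a * b) (i + j) := by
      refine ⟨?_, ?_⟩
      · have h1 := N.mul_mem (hNn.conj_mem _ hi.1 (φ ^ j)⁻¹) hj.1
        simpa [pow_add, mul_assoc] using h1
      · rw [map_mul, AlgEquiv.mul_apply, hj.2, map_pow, hi.2, ← pow_mul, ← pow_add, mul_add]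
    rw [d1_apply, hx a i hi, hx b j hj, hx (a * b) (i + j) hab,
      hFN (φ ^ i) (φ ^ j) a b hi.1 hj.1, cocycle_pow_eq ((muRep p).comp ι) hcoc φ i j]
    have hact : ∀ w, (muRep p).comp ι a w = (muRep p).comp ι (φ ^ i) w := fun w => by
      have e : (muRep p).comp ι ((φ ^ i)⁻¹ * a) w = w := by
        rw [MonoidHom.comp_apply, muRep_apply, hμ _ hi.1, Units.val_one, one_mul]
      rw [← mul_inv_cancel_left (φ ^ i) a, map_mul, Module.End.mul_apply, e]
    rw [hact, map_sub]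
    simp only [s, c₀]
    abel

/-- **The cup product of two unramified classes is zero.** -/
theorem cup_eq_zero_of_unramified {V W : Type} [AddCommGroup V] [Module (ZMod p) V] [AddCommGroup W]
    [Module (ZMod p) W] {ρ : Representation (ZMod p) D V} {σ : Representation (ZMod p) D W}
    (P : RepPairing ρ σ ((muRep p).comp ι)) {N₀ : Subgroup D} (hN₀n : N₀.Normal)
    (hN₀ : (localLevels ι).mem N₀) (hρ : ∀ d ∈ N₀, ρ d = 1) (hσ : ∀ d ∈ N₀, σ d = 1)
    (hμ : ∀ d ∈ N₀, cycloChar p (ι d) = 1)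
    (hI : ∀ d : D, ι d ∈ (A₀).inertiaSubgroupIn ℚ → d ∈ N₀)
    (hσc : IsCtsRep (localLevels ι) σ)
    (x : ↥(Z1 (localLevels ι) ρ)) (y : ↥(Z1 (localLevels ι) σ))
    (hx : ∀ d : D, ι d ∈ (A₀).inertiaSubgroupIn ℚ → (x : D → V) d = 0)
    (hy : ∀ d : D, ι d ∈ (A₀).inertiaSubgroupIn ℚ → (y : D → W) d = 0) :
    P.cup hσc (H1mk (localLevels ι) ρ x) (H1mk (localLevels ι) σ y) = 0 := by
  set I : Set D := {d | ι d ∈ (A₀).inertiaSubgroupIn ℚ}
  obtain ⟨N₁, h1n, h1, h1le, h1I, -, h1c⟩ :=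
    exists_kernel hN₀n hN₀ hρ x.2 I fun d hd => ⟨hI d hd, hx d hd⟩
  obtain ⟨N₂, h2n, h2, h2le, h2I, -, h2c⟩ :=
    exists_kernel h1n h1 (fun d hd => hσ d (h1le hd)) y.2 I fun d hd => ⟨h1I d hd, hy d hd⟩
  rw [RepPairing.cup_mk, RepPairing.cupZ_apply]
  refine H2_eq_zero_of_unramified q h2n h2 h2I (fun d hd => hμ d (h1le (h2le hd))) _
    fun a b s hs t ht => ?_
  show P.cupFun (x : D → V) (y : D → W) (a * s, b * t) =
    P.cupFun (x : D → V) (y : D → W) (a, b)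
  simp only [RepPairing.cupFun_apply, h1c a s (h2le hs), h2c b t ht, map_mul,
    hσ s (h1le (h2le hs)), mul_one]

variable {N : Subgroup Γ}

/-- **An unramified homomorphism orthogonal to a ramified one is zero.** -/
theorem eq_zero_of_mul_mem_B2 (hN : IsSplittingLevel p N) (hq : SplitIn N q) (hpq : p ≠ (q : ℕ))
    {χ κ₀ : D → ZMod p} (hχ : ∀ a b, χ (a * b) = χ a + χ b)
    (hκ₀ : ∀ a b, κ₀ (a * b) = κ₀ a + κ₀ b) (hχc : (localLevels ι).IsCts₁ χ)
    (hκ₀c : (localLevels ι).IsCts₁ κ₀)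
    (hχI : ∀ d : D, ι d ∈ (A₀).inertiaSubgroupIn ℚ → χ d = 0) {τ₀ : D}
    (hτ₀ : ι τ₀ ∈ (A₀).inertiaSubgroupIn ℚ) (hκτ : κ₀ τ₀ ≠ 0)
    (h : (fun x : D × D => κ₀ x.1 * χ x.2) ∈ B2 (localLevels ι) ((muRep p).comp ι)) (d : D) :
    χ d = 0 := by
  classical
  have : Fact (q : ℕ).Prime := ⟨q.2⟩
  by_contra hd
  have hmu : ∀ x, cycloChar p (ι x) = 1 := fun x => hN.mu _ (hq x)
  obtain ⟨κ, hκ, hκc, hB⟩ :=
    exists_cup_notMem_B2 hmu (localAt_placeLoc q).1 hχ hχc ⟨d, hd⟩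
  set a := κ τ₀ / κ₀ τ₀
  set κ' : D → ZMod p := fun x => κ x - a * κ₀ x
  have hκ' : ∀ x y, κ' (x * y) = κ' x + κ' y := fun x y => by simp only [κ', hκ, hκ₀]; ring
  have hκ'c : (localLevels ι).IsCts₁ κ' := hκc.map₂ hκ₀c fun u v => u - a * v
  -- `κ'` is unramified, the homomorphisms being two dimensional
  have hκ'I : ∀ x : D, ι x ∈ (A₀).inertiaSubgroupIn ℚ → κ' x = 0 := by
    intro τ₁ hτ₁
    by_contra h1
    let f : Fin 3 → (↥(lvl N q) → ZMod p) := ![fun x => κ₀ x, fun x => κ' x, fun x => χ x]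
    have hfin := finrank_homs_lvl_le q hN (Submodule.span (ZMod p) (Set.range f)) fun φ hφ => by
      refine Submodule.span_induction (p := fun φ _ =>
        IsHom (localLevels ι) (lvl N q) φ) ?_ ?_ ?_ ?_ hφ
      · rintro _ ⟨i, rfl⟩
        fin_cases i
        · exact ⟨fun x y => hκ₀ x y, hκ₀c.precomp (Levels.compat_comap _ _)⟩
        · exact ⟨fun x y => hκ' x y, hκ'c.precomp (Levels.compat_comap _ _)⟩
        · exact ⟨fun x y => hχ x y, hχc.precomp (Levels.compat_comap _ _)⟩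
      · exact ⟨fun _ _ => by simp, Levels.isCts₁_const 0⟩
      · exact fun φ ψ _ _ hφ hψ => ⟨fun x y => by
          simp only [Pi.add_apply, hφ.1, hψ.1]; abel, hφ.2.add hψ.2⟩
      · exact fun c φ _ hφ => ⟨fun x y => by simp [hφ.1, mul_add], hφ.2.comp (c • ·)⟩
    have hli : LinearIndependent (ZMod p) f := by
      rw [Fintype.linearIndependent_iff]
      intro g hg
      have e : ∀ x : D, g 0 * κ₀ x + g 1 * κ' x + g 2 * χ x = 0 := fun x => by
        have := congrFun hg ⟨x, hq x⟩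
        simpa [Fin.sum_univ_three, f] using this
      have e0 := e τ₀
      have hκ'0 : κ' τ₀ = 0 := by simp [κ', a, hκτ]
      rw [hκ'0, hχI τ₀ hτ₀] at e0
      have g0 : g 0 = 0 := by simpa [hκτ] using e0
      have e1 := e τ₁
      rw [g0, hχI τ₁ hτ₁] at e1
      have g1 : g 1 = 0 := by simpa [h1] using e1
      have e2 := e d
      rw [g0, g1] at e2
      have g2 : g 2 = 0 := by simpa [hd] using e2
      intro i
      fin_cases i <;> assumption
    have hcard := finrank_span_eq_card hli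
    have hle := hfin.2
    rw [if_neg hpq, hcard, Fintype.card_fin] at hle
    omega
  -- both parts of `χ ∪ κ` vanish
  have hρ : ∀ x : D, (muRep p).comp ι x = 1 := fun x => LinearMap.ext fun c => by
    simp [muRep_apply, hmu x]
  let P : RepPairing ((muRep p).comp ι) ((muRep p).comp ι) ((muRep p).comp ι) :=
    { e := LinearMap.mul (ZMod p) (ZMod p)
      comm := fun g v w => by simp [hρ g] }
  have hmem : ∀ {φ : D → ZMod p}, (∀ x y, φ (x * y) = φ x + φ y) →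
      (localLevels ι).IsCts₁ φ → φ ∈ Z1 (localLevels ι) ((muRep p).comp ι) := fun hφ hφc =>
    mem_Z1_iff.mpr ⟨fun x y => by simp [hρ x, hφ, add_comm], hφc⟩
  have hu : (fun x : D × D => χ x.1 * κ' x.2) ∈ B2 (localLevels ι) ((muRep p).comp ι) := by
    have := cup_eq_zero_of_unramified q P (N₀ := ⊤) Subgroup.normal_top (localLevels ι).top_mem
      (fun x _ => hρ x) (fun x _ => hρ x) (fun x _ => hmu x) (fun _ _ => Subgroup.mem_top _)
      ⟨⊤, (localLevels ι).top_mem, fun x _ => hρ x⟩ ⟨χ, hmem hχ hχc⟩ ⟨κ', hmem hκ' hκ'c⟩ hχI hκ'I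
    have h2 := H2mk_eq_zero_iff.mp (Eq.trans ((P.cupZ_apply _ ⟨χ, hmem hχ hχc⟩
      ⟨κ', hmem hκ' hκ'c⟩).symm.trans (P.cup_mk _ _ _).symm) this)
    convert h2 using 1
    funext z
    simp [RepPairing.cupFun, P, hρ z.1]
  have hsum : d1 ((muRep p).comp ι) (fun x => -(κ₀ x * χ x)) ∈
      B2 (localLevels ι) ((muRep p).comp ι) :=
    mem_B2_iff.mpr ⟨_, hκ₀c.map₂ hχc (fun u v => -(u * v)), rfl⟩
  refine hB ?_
  convert add_mem hu (Submodule.smul_mem _ a (sub_mem hsum h)) using 1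
  funext ⟨x, y⟩
  simp only [Pi.add_apply, Pi.smul_apply, Pi.sub_apply, d1_apply, hρ x, Module.End.one_apply,
    smul_eq_mul, hχ, hκ₀, κ']
  ring

end Fermat.Agent.RowS55
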